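import Fermat.Agent.MW.Height.Defs
import Fermat.Agent.FF.KaehlerGenus

/-!
# Existence of setups and of reduced representatives

A linear system of degree `> 2g` contains a reduced divisor avoiding given places: in a pencil
without base points all but finitely many fibres are reduced.
-/

set_option autoImplicit false

noncomputable section

open AlgebraicCurve

namespace Fermat.Agent.MW.Height

variable {k F : Type} [Field k] [Field F] [Algebra k F] [IsAlgClosed k] [FF.IsFunctionField k F]

theorem ord_eq_of_notMem {D : Divisor k F} {v : Place k F} {h : F} (hh : h ∈ riemannRochSpace D)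
    (hn : h ∉ riemannRochSpace (D - Finsupp.single v 1)) : h ≠ 0 ∧ v.ord h = -D v := by
  have h0 : h ≠ 0 := fun e => hn (e ▸ zero_mem _)
  refine ⟨h0, ?_⟩
  have hge := (mem_riemannRochSpace_iff.mp hh v).resolve_left h0
  by_contra hne
  refine hn (mem_riemannRochSpace_iff.mpr fun w => Or.inr ?_)
  rw [Finsupp.sub_apply]
  rcases eq_or_ne w v with rfl | hw
  · rw [Finsupp.single_eq_same]; omega
  · rw [Finsupp.single_eq_of_ne hw, sub_zero]
    exact (mem_riemannRochSpace_iff.mp hh w).resolve_left h0

theorem notMem_of_ord_eq {D : Divisor k F} {v : Place k F} {h : F} (h0 : h ≠ 0)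
    (hv : v.ord h = -D v) : h ∉ riemannRochSpace (D - Finsupp.single v 1) := fun hm => by
  have := (mem_riemannRochSpace_iff.mp hm v).resolve_left h0
  rw [Finsupp.sub_apply, Finsupp.single_eq_same] at this
  omega

/-- A section with no zero at finitely many given places. -/
theorem exists_mem_exact {D : Divisor k F}
    (hD : 2 * (genusFF k F : ℤ) - 2 < Divisor.degree D - 1) (T : Finset (Place k F)) :
    ∃ h ∈ riemannRochSpace D, h ≠ 0 ∧ ∀ v ∈ T, v.ord h = -D v := by
  classical
  induction T using Finset.induction_on with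
  | empty =>
    obtain ⟨O⟩ := FF.instNonemptyPlace (K := k) (F := F)
    obtain ⟨h, hh, h0, -⟩ := exists_mem_diff O hD
    exact ⟨h, hh, h0, by simp⟩
  | insert a T _ ih =>
    obtain ⟨h, hh, h0, hT⟩ := ih
    obtain ⟨g, hg, g0, ha⟩ := exists_mem_diff a hD
    set bad : Place k F → Set k := fun v =>
      {c | h + c • g ∈ riemannRochSpace (D - Finsupp.single v 1)}
    have hsub : ∀ v ∈ insert a T, (bad v).Subsingleton := by
      intro v hv c hc c' hc'
      by_contra hne
      have h1 : (c - c') • g ∈ riemannRochSpace (D - Finsupp.single v 1) := by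
        have := sub_mem (show h + c • g ∈ riemannRochSpace (D - Finsupp.single v 1) from hc)
          (show h + c' • g ∈ riemannRochSpace (D - Finsupp.single v 1) from hc')
        rwa [add_sub_add_left_eq_sub, ← sub_smul] at this
      have hg' : g ∈ riemannRochSpace (D - Finsupp.single v 1) :=
        (Submodule.smul_mem_iff _ (sub_ne_zero.mpr hne)).mp h1
      rcases Finset.mem_insert.mp hv with rfl | hv
      · exact notMem_of_ord_eq g0 ha hg'
      · refine notMem_of_ord_eq h0 (hT v hv) ?_
        simpa using sub_mem (show h + c • g ∈ riemannRochSpace (D - Finsupp.single v 1) from hc)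
          (Submodule.smul_mem _ c hg')
    obtain ⟨c, hc⟩ := ((insert a T).finite_toSet.biUnion
      fun v hv => (hsub v hv).finite).infinite_compl.nonempty
    simp only [Set.mem_compl_iff, Set.mem_iUnion, not_exists] at hc
    have hmem : h + c • g ∈ riemannRochSpace D := add_mem hh (Submodule.smul_mem _ c hg)
    have key := fun v (hv : v ∈ insert a T) => ord_eq_of_notMem hmem (hc v hv)
    exact ⟨_, hmem, (key a (Finset.mem_insert_self _ _)).1, fun v hv => (key v hv).2⟩

open scoped Classical in
/-- **A reduced member of a linear system avoiding given places.** -/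
theorem exists_reduced [CharZero k] {D : Divisor k F}
    (hD : 2 * (genusFF k F : ℤ) + 1 ≤ Divisor.degree D) (bad : Finset (Place k F)) :
    ∃ (h : F) (S : Finset (Place k F)), h ∈ riemannRochSpace D ∧ h ≠ 0 ∧
      (∀ v, v.ord h + D v = if v ∈ S then 1 else 0) ∧ Disjoint S bad ∧
      (S.card : ℤ) = Divisor.degree D := by
  classical
  have hcurve : IsCurveOver k F := FF.instIsCurveOver
  have : Algebra.EssFiniteType k F := FF.IsFunctionField.essFiniteType
  obtain ⟨v0⟩ := FF.instNonemptyPlace (K := k) (F := F)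
  -- a first member, with a point at `v0`
  obtain ⟨h0, hh0, h0ne, -⟩ := exists_mem_diff (D := D - Finsupp.single v0 1) v0 (by
    rw [map_sub, Divisor.degree_single, place_deg_eq_one]; push_cast; omega)
  have hh0' : h0 ∈ riemannRochSpace D :=
    FF.riemannRochSpace_mono (sub_le_self _ (Finsupp.single_nonneg.mpr zero_le_one)) hh0
  have hv0 : 0 < v0.ord h0 + D v0 := by
    have := (mem_riemannRochSpace_iff.mp hh0 v0).resolve_left h0ne
    rw [Finsupp.sub_apply, Finsupp.single_eq_same] at this
    omega
  obtain ⟨E0, hE0, hE0deg⟩ := HasPrincipalDivisors.exists_divisor (K := k) h0 h0ne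
  -- a second member, disjoint from it and from `bad`
  set T : Finset (Place k F) := (E0 + D).support ∪ bad with hT
  obtain ⟨h1, hh1, h1ne, hT1⟩ := exists_mem_exact (D := D) (by omega) T
  have hv1 := hT1 v0 (by
    refine Finset.mem_union_left _ ?_
    rw [Finsupp.mem_support_iff, Finsupp.add_apply, hE0]
    omega)
  set x : F := h0 / h1 with hx
  have hx0 : x ≠ 0 := div_ne_zero h0ne h1ne
  have hxord : ∀ v : Place k F, v.ord x = v.ord h0 - v.ord h1 := fun v => FF.ord_div v h0ne h1ne
  have hxconst : ∀ a : k, x ≠ algebraMap k F a := fun a ha => by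
    have h := congrArg v0.ord ha
    rw [hxord, FF.ord_algebraMap] at h
    omega
  have htr : Transcendental k x := FF.transcendental_of_ord_ne_zero v0 (by rw [hxord]; omega)
  haveI := FF.finiteDimensional_adjoin htr
  have hDx : KaehlerDifferential.D k F x ≠ 0 :=
    FF.KS.D_ne_zero_of_isSeparatingElement ⟨htr, inferInstance⟩
  have hfinT : {v : Place k F | v.ordDifferential (KaehlerDifferential.D k F x) ≠ 0}.Finite :=
    FF.KS.finite_ordDifferential_D place_deg_eq_one hDx
  obtain ⟨a, ha⟩ := ((T ∪ hfinT.toFinset).image fun v => Emb.val v x).finite_toSet.infinite_compl.nonempty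
  simp only [Set.mem_compl_iff, Finset.mem_coe] at ha
  have hxa : x - algebraMap k F a ≠ 0 := sub_ne_zero.mpr (hxconst a)
  set h : F := h0 - a • h1 with hh
  have hfac : h = h1 * (x - algebraMap k F a) := by
    rw [hh, Algebra.smul_def, hx]; field_simp
  have hne : h ≠ 0 := hfac ▸ mul_ne_zero h1ne hxa
  have hmem : h ∈ riemannRochSpace D := sub_mem hh0' (Submodule.smul_mem _ a hh1)
  have hord : ∀ v : Place k F, v.ord h + D v ≠ 0 → v.ord h + D v = 1 ∧ v ∉ T := by
    intro v hv
    rw [hfac, v.ord_mul h1ne hxa] at hv ⊢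
    have g0 := (mem_riemannRochSpace_iff.mp hh0' v).resolve_left h0ne
    have g1 := (mem_riemannRochSpace_iff.mp hh1 v).resolve_left h1ne
    by_cases hz : v.ord h1 + D v = 0
    · -- the zeros of `x - a`
      have hxnn : 0 ≤ v.ord x := by rw [hxord]; omega
      have hxv : x ∈ v.toValuationSubring := (FF.mem_iff_ord_nonneg v).mpr hxnn
      have hnn : 0 ≤ v.ord (x - algebraMap k F a) :=
        (FF.mem_iff_ord_nonneg v).mp (sub_mem hxv (v.algebraMap_mem' a))
      have hpos : 0 < v.ord (x - algebraMap k F a) := by omega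
      have hval : Emb.val v x = a := Emb.val_eq ((FF.mem_ordGE v).mpr (Or.inr hpos))
      have hnot : v ∉ T ∪ hfinT.toFinset := fun hm =>
        ha (Finset.mem_image.mpr ⟨v, hm, hval⟩)
      rw [Finset.mem_union, Set.Finite.mem_toFinset, Set.mem_setOf_eq, not_or, not_not] at hnot
      have := FF.KS.ordDifferential_D_of_sub_pos (place_deg_eq_one v) hpos
      exact ⟨by omega, hnot.1⟩
    · -- at the poles of `x` nothing remains
      exfalso
      have hvT : v ∉ T := fun hm => hz (by rw [hT1 v hm]; ring)
      rw [hT, Finset.mem_union, not_or, Finsupp.notMem_support_iff, Finsupp.add_apply, hE0] at hvT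
      have hneg : v.ord x < 0 := by rw [hxord]; omega
      have : v.ord (x - algebraMap k F a) = v.ord x := by
        rw [sub_eq_add_neg]
        refine (FF.add_ne_zero_and_ord_eq_of_lt v hx0 ?_).2
        right
        rw [FF.ord_neg, FF.ord_algebraMap]; exact hneg
      rw [this, hxord] at hv
      omega
  obtain ⟨E, hE, hEdeg⟩ := HasPrincipalDivisors.exists_divisor (K := k) h hne
  refine ⟨h, (E + D).support, hmem, hne, fun v => ?_, ?_, ?_⟩
  · rw [← hE]
    split_ifs with hv
    · rw [Finsupp.mem_support_iff, Finsupp.add_apply] at hv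
      have := hE v
      exact (show E v + D v = 1 by rw [this] at hv ⊢; exact (hord v hv).1)
    · rw [Finsupp.notMem_support_iff, Finsupp.add_apply] at hv
      exact hv
  · rw [Finset.disjoint_left]
    intro v hv hvb
    rw [Finsupp.mem_support_iff, Finsupp.add_apply, hE] at hv
    exact (hord v hv).2 (Finset.mem_union_right _ hvb)
  · calc ((E + D).support.card : ℤ) = ∑ v ∈ (E + D).support, (E + D) v := by
          rw [Finset.sum_congr rfl (g := fun _ => (1 : ℤ)) fun v hv => ?_]
          · simp
          · rw [Finsupp.mem_support_iff, Finsupp.add_apply, hE] at hv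
            rw [Finsupp.add_apply, hE]
            exact (hord v hv).1
      _ = Divisor.degree (E + D) := (degree_eq_sum _).symm
      _ = Divisor.degree D := by rw [map_add, hEdeg, zero_add]

variable (k F) in
theorem infinite_place [CharZero k] : Infinite (Place k F) := by
  refine Infinite.of_not_fintype fun hfin => ?_
  classical
  obtain ⟨O⟩ := FF.instNonemptyPlace (K := k) (F := F)
  obtain ⟨-, S, -, -, -, hdisj, hcard⟩ := exists_reduced
    (D := Finsupp.single O (2 * (genusFF k F : ℤ) + 1))
    (by rw [Divisor.degree_single, place_deg_eq_one]; simp) (Finset.univ : Finset (Place k F))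
  rw [Finset.disjoint_left] at hdisj
  have : S = ∅ := Finset.eq_empty_of_forall_notMem fun v hv => hdisj hv (Finset.mem_univ v)
  rw [this, Divisor.degree_single, place_deg_eq_one] at hcard
  simp at hcard
  omega

variable (k F) in
theorem nonempty_setup [CharZero k] : Nonempty (Setup k F) := by
  obtain ⟨E⟩ := nonempty_emb k F
  have := infinite_place k F
  have : Infinite {v : Place k F // v ≠ E.O} :=
    ((Set.finite_singleton E.O).infinite_compl).to_subtype
  let e := Infinite.natEmbedding {v : Place k F // v ≠ E.O}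
  exact ⟨⟨E, fun u => (e u).1, fun u u' h => Fin.ext (e.injective (Subtype.ext h)),
    fun u => (e u).2⟩⟩

namespace Setup

variable (P : Setup k F)

/-- Every class has a representative of level one avoiding given places. -/
theorem Rep.exists_cls_eq [CharZero k] (x : Pic0 k F) (bad : Finset (Place k F)) :
    ∃ R : P.Rep 1, R.cls = x ∧ ∀ i, R.pt i ∉ bad := by
  classical
  obtain ⟨⟨D0, hD0⟩, rfl⟩ := Pic0.mk_surjective x
  set M := P.E.M₀
  have hM := P.E.le_M₀
  set B : Finset (Place k F) := bad ∪ {P.E.O} ∪ Finset.univ.image P.U with hB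
  obtain ⟨h, S, -, hne, hS, hSb, hScard⟩ := exists_reduced (D := D0 + P.E.lev 1) (by
    rw [map_add, Divisor.mem_degZero.mp hD0, P.E.degree_lev]; push_cast; omega) B
  rw [map_add, Divisor.mem_degZero.mp hD0, P.E.degree_lev, zero_add] at hScard
  have eS : Fin (1 * P.E.M₀) ≃ S := Fintype.equivOfCardEq (by
    rw [Fintype.card_fin, Fintype.card_coe]; exact_mod_cast hScard.symm)
  set Z : Divisor k F := Emb.famDiv (fun i => (eS i : Place k F)) with hZdef
  have hZ : ∀ v, Z v = if v ∈ S then 1 else 0 := by
    intro v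
    rw [hZdef, Emb.famDiv_apply]
    split_ifs with hv
    · rw [Nat.card_eq_one_iff_unique.mpr ⟨⟨fun i j => Subtype.ext (eS.injective
        (Subtype.ext (i.2.trans j.2.symm)))⟩, ⟨⟨eS.symm ⟨v, hv⟩, by simp⟩⟩⟩]
      rfl
    · rw [Nat.card_eq_zero.mpr (Or.inl ⟨fun i : {i // (eS i : Place k F) = v} =>
        hv (i.2 ▸ (eS i.1).2)⟩)]
      rfl
  have hZdeg : Divisor.degree Z = P.E.M₀ := by
    rw [hZdef, Emb.degree_famDiv, Fintype.card_fin, one_mul]
  obtain ⟨h2, T, hh2, h2ne, hT, hTb, hTcard⟩ := exists_reduced (D := P.E.lev 2 - Z) (by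
    rw [map_sub, P.E.degree_lev, hZdeg]; push_cast; omega) (B ∪ S)
  rw [map_sub, P.E.degree_lev, hZdeg] at hTcard
  have eT : Fin (1 * P.E.M₀) ≃ T := Fintype.equivOfCardEq (by
    rw [Fintype.card_fin, Fintype.card_coe]; push_cast at hTcard ⊢; omega)
  have h2mem : h2 ∈ P.E.R 2 :=
    FF.riemannRochSpace_mono (sub_le_self _ (Emb.famDiv_nonneg _)) hh2
  have hTS : ∀ v ∈ T, v ∉ B ∧ v ∉ S := fun v hv => by
    have := Finset.disjoint_left.mp hTb hv
    rwa [Finset.mem_union, not_or] at this
  have hSB : ∀ v ∈ S, v ∉ B := fun v hv => Finset.disjoint_left.mp hSb hv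
  set pt : Fin (1 * P.E.M₀) ⊕ Fin (1 * P.E.M₀) → Place k F :=
    Sum.elim (fun i => (eS i : Place k F)) (fun i => (eT i : Place k F)) with hpt
  have hptB : ∀ i, pt i ∉ B := by
    rintro (i | i)
    · exact hSB _ (eS i).2
    · exact (hTS _ (eT i).2).1
  have hsord : ∀ i, 0 < P.E.sord (pt i) 2 h2 := by
    intro i
    have e : P.E.sord (pt i) 2 h2 =
        (if pt i ∈ T then 1 else 0) + (if pt i ∈ S then 1 else 0) := by
      rw [← hT, ← hZ, Emb.sord, Finsupp.sub_apply]; ring
    rw [e]
    rcases i with i | i
    · rw [if_pos (show pt (Sum.inl i) ∈ S from (eS i).2)]; split_ifs <;> omega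
    · rw [if_pos (show pt (Sum.inr i) ∈ T from (eT i).2)]; split_ifs <;> omega
  let sec : P.E.R 2 := ⟨h2, h2mem⟩
  refine ⟨{
    pt := pt
    inj := Function.Injective.sumElim (Subtype.val_injective.comp eS.injective)
      (Subtype.val_injective.comp eT.injective)
      (fun i j e => (hTS _ (eT j).2).2 (e ▸ (eS i).2))
    ne_O := fun i e => hptB i (by simp [hB, e])
    avoid := fun i u e => hptB i (by simp [hB, e])
    c := fun j => (P.E.bas 2).repr sec j
    c_ne := fun hc => h2ne (by
      have h' : (P.E.bas 2).repr sec = 0 := Finsupp.ext (congrFun hc)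
      simpa [sec] using congrArg Subtype.val ((LinearEquiv.map_eq_zero_iff _).mp h'))
    zero := fun i => ?_ }, ?_, fun i hi => hptB i (by simp [hB, hi])⟩
  · show lval (Pt.cpt P.E k (pt i)) 2 _ = 0
    have h' := (Pt.sv_eq_sum (Pt.cpt P.E k (pt i)) 2 sec).symm
    simp only [smul_eq_mul] at h'
    rw [lval, h', cpt_self, Pt.sv_ofPlace_eq_zero_iff]
    exact Or.inr (hsord i)
  · refine (QuotientAddGroup.eq.mpr ?_)
    rw [AddSubgroup.mem_addSubgroupOf]
    refine ⟨h⁻¹, inv_ne_zero hne, fun v => ?_⟩
    show (-(Z - P.E.lev 1) + D0 : Divisor k F) v = v.ord h⁻¹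
    have e := hS v
    rw [← hZ, Finsupp.add_apply] at e
    rw [v.ord_inv, Finsupp.add_apply, Finsupp.neg_apply, Finsupp.sub_apply]
    omega

end Setup

end Fermat.Agent.MW.Height
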