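import Fermat.Agent.MW.Height.Defs

/-!
# Coordinates from determinants against intrinsic coordinates

In a basis of `L(a O)` made of preimages of the unit vectors at `D` and of sections vanishing on
`D`, the evaluation matrix at `D` and `S` is triangular.
-/

set_option autoImplicit false

noncomputable section

open AlgebraicCurve

namespace Fermat.Agent.MW.Height

variable {k F : Type} [Field k] [Field F] [Algebra k F] [IsAlgClosed k] [FF.IsFunctionField k F]

namespace Setup

variable (P : Setup k F)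

theorem val_of_sv_cpt {Q : Place k F} (hQ : Q ≠ P.E.O) (e : ℕ) (h : P.E.R e) :
    (Pt.cpt P.E k Q).sv e h = Emb.val Q (h : F) := by
  rw [cpt_self, Pt.sv_ofPlace, P.E.chart_of_ne hQ]
  simp [Emb.σ]

theorem sv_cpt_eq_zero_iff (Q : Place k F) (e : ℕ) (h : P.E.R e) :
    (Pt.cpt P.E k Q).sv e h = 0 ↔ (h : F) = 0 ∨ 0 < P.E.sord Q e h := by
  rw [cpt_self, Pt.sv_ofPlace_eq_zero_iff]

omit [IsAlgClosed k] [FF.IsFunctionField k F] in
theorem famDiv_apply_of_injective {ι : Type} [Fintype ι] (D : ι → Place k F)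
    (hD : Function.Injective D) (i : ι) : Emb.famDiv D (D i) = 1 := by
  rw [Emb.famDiv_apply, (Nat.card_eq_one_iff_unique (α := {i' // D i' = D i})).mpr
    ⟨⟨fun x y => Subtype.ext (hD (x.2.trans y.2.symm))⟩, ⟨⟨i, rfl⟩⟩⟩]
  rfl

/-- Sections vanishing at distinct places are the sections of the smaller divisor. -/
theorem forall_sv_eq_zero_iff {ι : Type} [Fintype ι] (D : ι → Place k F)
    (hD : Function.Injective D) (a : ℕ) (h : P.E.R a) :
    (∀ i, (Pt.cpt P.E k (D i)).sv a h = 0) ↔ (h : F) ∈ P.E.Rsub a (Emb.famDiv D) := by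
  classical
  rcases eq_or_ne (h : F) 0 with h0 | h0
  · simp [h0, sv_cpt_eq_zero_iff]
  simp only [sv_cpt_eq_zero_iff, h0, false_or]
  refine ⟨fun hz => P.E.mem_Rsub_of fun v => ?_, fun hm i => ?_⟩
  · by_cases hv : ∃ i, D i = v
    · obtain ⟨i, rfl⟩ := hv
      rw [famDiv_apply_of_injective D hD]
      have := hz i
      omega
    · rw [Emb.famDiv_apply, Nat.card_eq_zero.mpr (Or.inl ⟨fun x => hv ⟨x.1, x.2⟩⟩)]
      exact P.E.sord_nonneg h.2 h0 v
  · have := P.E.sord_ge_of_mem_Rsub hm h0 (D i)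
    rw [famDiv_apply_of_injective D hD] at this
    omega

/-- **Laplace.** The determinant at `D` and `S` is a multiple, independent of `S`, of the
determinant at `S` of the sections vanishing on `D`. -/
theorem exists_tdet_eq {q : ℕ} (D : Fin (q * P.E.M₀) → Place k F) (hD : Function.Injective D)
    {X : Divisor k F} (hX : Divisor.degree X = 0) (hXD : X = Emb.famDiv D - P.E.lev q) :
    ∃ K : k, K ≠ 0 ∧ ∀ S : Fin P.r → Fin (8 * P.E.M₀),
      tdet P.U S (q + 1) (P.eps q) (fun i => Pt.cpt P.E k (D i)) = K * (vmat hX S).det := by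
  classical
  have hlev : P.E.lev 1 - X = P.E.lev (q + 1) - Emb.famDiv D := by
    rw [hXD, P.E.lev_add]; abel
  let ev : P.E.R (q + 1) →ₗ[k] (Fin (q * P.E.M₀) → k) :=
    LinearMap.pi fun i => (Pt.cpt P.E k (D i)).sv (q + 1)
  have hker : ev.ker.map (Submodule.subtype _) = riemannRochSpace (P.E.lev 1 - X) := by
    rw [hlev]
    ext z
    constructor
    · rintro ⟨h, hh, rfl⟩
      exact (P.forall_sv_eq_zero_iff D hD _ h).mp fun i => congrFun (LinearMap.mem_ker.mp hh) i
    · intro hz
      have hz' : z ∈ P.E.R (q + 1) :=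
        FF.riemannRochSpace_mono (sub_le_self _ (Emb.famDiv_nonneg D)) hz
      exact ⟨⟨z, hz'⟩, LinearMap.mem_ker.mpr
        (funext ((P.forall_sv_eq_zero_iff D hD _ ⟨z, hz'⟩).mpr hz)), rfl⟩
  let bas := (P.E.bas (q + 1)).reindex (P.eps q).symm
  have hfin : Module.Finite k (P.E.R (q + 1)) := Module.Finite.of_basis (P.E.bas (q + 1))
  have hsurj : Function.Surjective ev := by
    rw [← LinearMap.range_eq_top]
    refine Submodule.eq_top_of_finrank_eq ?_
    have h1 := ev.finrank_range_add_finrank_ker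
    have h2 : Module.finrank k ev.ker = P.r := by
      rw [← Submodule.finrank_map_subtype_eq, hker, P.finrank_sub hX]
    have h3 : Module.finrank k (P.E.R (q + 1)) = q * P.E.M₀ + P.r := by
      rw [Module.finrank_eq_card_basis (P.E.bas (q + 1)), ← P.dim_eq q, Fintype.card_sum,
        Fintype.card_fin, Fintype.card_fin]
    rw [Module.finrank_fin_fun]
    omega
  choose e he using fun i => hsurj (Pi.single i (1 : k))
  have hg : ∀ j, ∃ g : P.E.R (q + 1), ev g = 0 ∧ (g : F) = (P.basisSub hX j : F) := fun j => by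
    have hm := (SetLike.ext_iff.mp hker _).mpr (P.basisSub hX j).2
    obtain ⟨g, hg, hgj⟩ := hm
    exact ⟨g, LinearMap.mem_ker.mp hg, hgj⟩
  choose g hg0 hgb using hg
  let vec : Fin (q * P.E.M₀) ⊕ Fin P.r → P.E.R (q + 1) := Sum.elim e g
  have hind : LinearIndependent k vec := by
    rw [Fintype.linearIndependent_iff]
    intro x hx
    rw [Fintype.sum_sum_type] at hx
    have hxl : ∀ i, x (Sum.inl i) = 0 := fun i => by
      have := congrFun (congrArg ev hx) i
      simpa [vec, he, hg0, Finset.sum_apply, Pi.single_apply] using this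
    simp only [hxl, zero_smul, Finset.sum_const_zero, zero_add] at hx
    have hxr := Fintype.linearIndependent_iff.mp (P.basisSub hX).linearIndependent
      (fun j => x (Sum.inr j)) (Subtype.ext (by
        simpa [vec, hgb] using congrArg (fun z : P.E.R (q + 1) => (z : F)) hx))
    rintro (i | j)
    exacts [hxl i, hxr j]
  let Q := bas.toMatrix vec
  have hQ : Q.det ≠ 0 := by
    rw [← Module.Basis.det_apply]
    exact ((Module.Basis.is_basis_iff_det bas).mp
      ⟨hind, hind.span_eq_top_of_card_eq_finrank'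
        (Module.finrank_eq_card_basis bas).symm⟩).ne_zero
  refine ⟨Q.det⁻¹, inv_ne_zero hQ, fun S => ?_⟩
  rw [inv_mul_eq_div, eq_div_iff hQ, tdet, ← Matrix.det_mul]
  have hmul : emat (Sum.elim (fun i => Pt.cpt P.E k (D i))
        fun s => Pt.cpt P.E k (P.U (S s))) (q + 1) (P.eps q) * Q
      = Matrix.of fun i j => (Sum.elim (fun i => Pt.cpt P.E k (D i))
        (fun s => Pt.cpt P.E k (P.U (S s))) i).sv (q + 1) (vec j) := by
    ext i j
    conv_rhs => rw [Matrix.of_apply, ← bas.sum_repr (vec j), map_sum]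
    rw [Matrix.mul_apply]
    refine Finset.sum_congr rfl fun l _ => ?_
    simp [emat, Q, bas, Module.Basis.toMatrix_apply, mul_comm]
  have hblk : (Matrix.of fun i j => (Sum.elim (fun i => Pt.cpt P.E k (D i))
        (fun s => Pt.cpt P.E k (P.U (S s))) i).sv (q + 1) (vec j))
      = Matrix.fromBlocks 1 0
          (Matrix.of fun s i => (Pt.cpt P.E k (P.U (S s))).sv (q + 1) (e i)) (vmat hX S) := by
    refine Matrix.ext ?_
    rintro (i | s) (i' | j)
    · have := congrFun (he i') i
      simpa [ev, vec, Matrix.one_apply, Pi.single_apply] using this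
    · have := congrFun (hg0 j) i
      simpa [ev, vec] using this
    · simp [vec]
    · simp [vec, vmat, hgb, P.val_of_sv_cpt (P.U_ne _)]
  rw [hmul, hblk, Matrix.det_fromBlocks_zero₁₂, Matrix.det_one, one_mul]

variable {P} {q : ℕ}

theorem Rep.lval_eq (R : P.Rep q) (Q : Place k F) :
    lval (Pt.cpt P.E k Q) (2 * q) R.c
      = (Pt.cpt P.E k Q).sv (2 * q) (∑ j, R.c j • P.E.bas (2 * q) j) := by
  simp [lval, map_sum, map_smul]

/-- The section of a representative. -/
def Rep.sec (R : P.Rep q) : P.E.R (2 * q) := ∑ j, R.c j • P.E.bas (2 * q) j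

theorem Rep.sec_ne_zero (R : P.Rep q) : (R.sec : F) ≠ 0 := fun h0 => R.c_ne (funext fun j => by
  have h : R.sec = 0 := Subtype.ext h0
  have := congrArg (fun z => (P.E.bas (2 * q)).repr z j) h
  rwa [Rep.sec, Module.Basis.repr_sum_self, map_zero] at this)

/-- The section vanishes exactly at the points of the representative. -/
theorem Rep.sord_sec (R : P.Rep q) (v : Place k F) :
    P.E.sord v (2 * q) R.sec = Emb.famDiv R.pt v := by
  classical
  obtain ⟨Dv, hDv, hdeg⟩ := P.E.exists_sdiv (e := 2 * q) R.sec_ne_zero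
  have hle : Emb.famDiv R.pt ≤ Dv := Finsupp.le_def.mpr fun w => by
    rw [hDv]
    refine P.E.sord_ge_of_mem_Rsub ?_ R.sec_ne_zero w
    exact (P.forall_sv_eq_zero_iff R.pt R.inj _ R.sec).mp fun i => by
      rw [Rep.sec, ← R.lval_eq]; exact R.zero i
  have hd : Divisor.degree (Dv - Emb.famDiv R.pt) = 0 := by
    rw [map_sub, hdeg, Emb.degree_famDiv, Fintype.card_sum, Fintype.card_fin]; push_cast; ring
  have h0 : Dv - Emb.famDiv R.pt = 0 := by
    rw [degree_eq_sum, Finsupp.sum] at hd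
    have hall := (Finset.sum_eq_zero_iff_of_nonneg fun w _ => ?_).mp hd
    · ext w
      by_contra hw
      exact hw (hall w (Finsupp.mem_support_iff.mpr hw))
    · rw [Finsupp.sub_apply, sub_nonneg]; exact Finsupp.le_def.mp hle w
  rw [← hDv, sub_eq_zero.mp h0]

theorem Rep.lval_U_ne_zero (R : P.Rep q) (u : Fin (8 * P.E.M₀)) :
    lval (Pt.cpt P.E k (P.U u)) (2 * q) R.c ≠ 0 := by
  rw [R.lval_eq, Ne, P.sv_cpt_eq_zero_iff, not_or, not_lt]
  refine ⟨R.sec_ne_zero, (R.sord_sec (P.U u)).le.trans ?_⟩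
  rw [Emb.famDiv_apply, Nat.card_eq_zero.mpr (Or.inl ⟨fun x => R.avoid x.1 u x.2⟩)]
  rfl

/-- A representative gives intrinsic data of the same class, with proportional coordinates. -/
theorem Rep.exists_theta (_hq : q = 1 ∨ q = 2) (R : P.Rep q) :
    ∃ T : P.Theta, T.cls = R.cls ∧ ∃ K : k, K ≠ 0 ∧ ∀ S, R.coord S = K * T.coord S := by
  classical
  have hfam : Emb.famDiv R.pt = Emb.famDiv (fun i => R.pt (Sum.inl i)) +
      Emb.famDiv (fun i => R.pt (Sum.inr i)) := by
    rw [← Emb.famDiv_elim]; congr 1; ext i; cases i <;> rfl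
  have hav : ∀ (D : Fin (q * P.E.M₀) → Place k F), (∀ i u, D i ≠ P.U u) → ∀ u,
      (Emb.famDiv D - P.E.lev q) (P.U u) = 0 := fun D hD u => by
    rw [Finsupp.sub_apply, P.E.lev_apply_ne q (P.U_ne u), Emb.famDiv_apply,
      Nat.card_eq_zero.mpr (Or.inl ⟨fun x => hD x.1 u x.2⟩)]
    rfl
  let T : P.Theta :=
    { X := R.div
      X' := Emb.famDiv (fun i => R.pt (Sum.inr i)) - P.E.lev q
      deg := R.degree_div
      deg' := by
        rw [map_sub, Emb.degree_famDiv, Emb.degree_lev, Fintype.card_fin]; push_cast; ring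
      φ := R.sec
      φ_ne := R.sec_ne_zero
      div := fun v => by
        have h := R.sord_sec v
        have h2 : P.E.lev (2 * q) = P.E.lev q + P.E.lev q := by rw [two_mul, P.E.lev_add]
        rw [Emb.sord, h2, Finsupp.add_apply, hfam, Finsupp.add_apply] at h
        simp only [Rep.div, Finsupp.add_apply, Finsupp.sub_apply]
        omega
      avoid := hav _ fun i => R.avoid _
      avoid' := hav _ fun i => R.avoid _ }
  refine ⟨T, rfl, ?_⟩
  obtain ⟨K₁, hK₁, h₁⟩ := P.exists_tdet_eq (fun i => R.pt (Sum.inl i))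
    (R.inj.comp Sum.inl_injective) T.deg rfl
  obtain ⟨K₂, hK₂, h₂⟩ := P.exists_tdet_eq (fun i => R.pt (Sum.inr i))
    (R.inj.comp Sum.inr_injective) T.deg' rfl
  set l : Fin (8 * P.E.M₀) → k := fun u => lval (Pt.cpt P.E k (P.U u)) (2 * q) R.c with hl
  have hlne : ∀ u, l u ≠ 0 := R.lval_U_ne_zero
  refine ⟨K₁ * K₂ * ∏ u, l u, mul_ne_zero (mul_ne_zero hK₁ hK₂)
    (Finset.prod_ne_zero_iff.mpr fun u _ => hlne u), fun S => ?_⟩
  have hval : ∀ i, Emb.val (P.U (S.1 i)) T.φ = l (S.1 i) := fun i => by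
    simp only [hl]
    rw [R.lval_eq, P.val_of_sv_cpt (P.U_ne _)]
    rfl
  rw [Rep.coord, tcoord, h₁, h₂, Theta.coord, Finset.prod_congr rfl fun i _ => hval i,
    ← Finset.prod_image S.2.injOn, ← Finset.prod_sdiff (Finset.subset_univ
      (Finset.univ.image S.1)) (f := l)]
  have : ∏ u ∈ Finset.univ.image S.1, l u ≠ 0 := Finset.prod_ne_zero_iff.mpr fun u _ => hlne u
  field_simp
  simp only [hl]

/-- A determinant at auxiliary places in general position does not vanish. -/
theorem tdet_ne_zero (D : Fin (q * P.E.M₀) → Place k F) (hD : Function.Injective D)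
    (hDU : ∀ i u, D i ≠ P.U u) {S : Fin P.r → Fin (8 * P.E.M₀)} (hS : Function.Injective S)
    (hbot : P.E.Rsub (q + 1) (Emb.famDiv D + Emb.famDiv (P.U ∘ S)) = ⊥) :
    tdet P.U S (q + 1) (P.eps q) (fun i => Pt.cpt P.E k (D i)) ≠ 0 := by
  intro h0
  obtain ⟨x, hx, hmv⟩ := Matrix.exists_mulVec_eq_zero_iff.mpr h0
  let bas := (P.E.bas (q + 1)).reindex (P.eps q).symm
  let h : P.E.R (q + 1) := ∑ j, x j • bas j
  have hz : ∀ i, (Sum.elim (fun i => Pt.cpt P.E k (D i))
      (fun s => Pt.cpt P.E k (P.U (S s))) i).sv (q + 1) h = 0 := fun i => by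
    have := congrFun hmv i
    simpa [h, bas, emat, Matrix.mulVec, dotProduct, map_sum, map_smul, mul_comm] using this
  have hmem : (h : F) ∈ P.E.Rsub (q + 1) (Emb.famDiv (Sum.elim D (P.U ∘ S))) := by
    refine (P.forall_sv_eq_zero_iff _ ?_ _ h).mp ?_
    · exact hD.sumElim (P.U_inj.comp hS) fun i s => hDU i (S s)
    · rintro (i | s)
      exacts [hz (Sum.inl i), hz (Sum.inr s)]
  rw [Emb.famDiv_elim, hbot, Submodule.mem_bot] at hmem
  refine hx (funext fun j => ?_)
  have := congrArg (fun z => bas.repr z j) (Subtype.ext hmem : h = 0)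
  simp only [h] at this
  rwa [bas.repr_sum_self, map_zero] at this

/-- The coordinates of a representative do not all vanish. -/
theorem Rep.exists_coord_ne_zero (hq : q = 1 ∨ q = 2) (R : P.Rep q) : ∃ S, R.coord S ≠ 0 := by
  classical
  have hg := P.E.le_M₀
  set D : Fin (q * P.E.M₀) → Place k F := fun i => R.pt (Sum.inl i)
  set D' : Fin (q * P.E.M₀) → Place k F := fun i => R.pt (Sum.inr i)
  obtain ⟨S, hS, h1, h2⟩ : ∃ S : Fin P.r → Fin (8 * P.E.M₀), Function.Injective S ∧
      P.E.Rsub (q + 1) (Emb.famDiv D + Emb.famDiv (P.U ∘ S)) = ⊥ ∧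
      P.E.Rsub (q + 1) (Emb.famDiv D' + Emb.famDiv (P.U ∘ S)) = ⊥ := by
    have hrk : ∀ Z : Fin (q * P.E.M₀) → Place k F,
        Module.finrank k (P.E.Rsub (q + 1) (Emb.famDiv Z)) ≤ P.r := fun Z => by
      have h := P.E.finrank_Rsub (a := q + 1) (Z := Emb.famDiv Z)
        (by rw [Emb.degree_famDiv, Fintype.card_fin]; push_cast; rw [add_mul, one_mul]; omega)
      rw [Emb.degree_famDiv, Fintype.card_fin] at h
      push_cast at h
      rw [add_mul, one_mul] at h
      show _ ≤ P.E.M₀ + 1 - genusFF k F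
      omega
    refine P.E.exists_good P.U P.U_inj ?_ (Emb.famDiv_nonneg D) (Emb.famDiv_nonneg D')
      (hrk D) (hrk D')
    rcases hq with rfl | rfl <;> (unfold Setup.r; omega)
  refine ⟨⟨S, hS⟩, ?_⟩
  rw [Rep.coord, tcoord]
  exact mul_ne_zero (mul_ne_zero
    (tdet_ne_zero D (R.inj.comp Sum.inl_injective) (fun i => R.avoid _) hS h1)
    (tdet_ne_zero D' (R.inj.comp Sum.inr_injective) (fun i => R.avoid _) hS h2))
    (Finset.prod_ne_zero_iff.mpr fun u _ => R.lval_U_ne_zero u)

end Setup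

end Fermat.Agent.MW.Height
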