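import Mathlib.Analysis.Normed.Unbundled.SpectralNorm
import Mathlib.NumberTheory.NumberField.FinitePlaces
import Mathlib.NumberTheory.Height.NumberField
import Mathlib.Analysis.Complex.Polynomial.Basic
import Mathlib.FieldTheory.IsAlgClosed.AlgebraicClosure

/-!
# Extending the absolute values of a number field to an algebraic closure
-/

set_option autoImplicit false

noncomputable section

namespace Fermat.Agent.MW.Height

variable {K : Type} [Field K] {k : Type} [Field k] [Algebra K k] [Algebra.IsAlgebraic K k]

/-- An absolute value given by an embedding into a complete ultrametric field extends to `k`. -/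
theorem exists_extension_of_ultrametric {E : Type} [NontriviallyNormedField E] [CompleteSpace E]
    [IsUltrametricDist E] (φ : K →+* E) :
    ∃ w : AbsoluteValue k ℝ, IsNonarchimedean w ∧ ∀ x : K, w (algebraMap K k x) = ‖φ x‖ := by
  let iK : Algebra K (AlgebraicClosure E) := ((algebraMap E (AlgebraicClosure E)).comp φ).toAlgebra
  let ψ : k →ₐ[K] AlgebraicClosure E := IsAlgClosed.lift
  let S := spectralMulAlgNorm E (AlgebraicClosure E)
  let w : AbsoluteValue k ℝ :=
    { toFun := fun x => S (ψ x)
      map_mul' := fun a b => by simp [map_mul]
      nonneg' := fun a => apply_nonneg S _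
      eq_zero' := fun a => by simp [map_eq_zero_iff_eq_zero]
      add_le' := fun a b => by simpa [map_add] using map_add_le_add S (ψ a) (ψ b) }
  refine ⟨w, fun a b => ?_, fun x => ?_⟩
  · show S (ψ (a + b)) ≤ max (S (ψ a)) (S (ψ b))
    simp only [map_add, S, spectralMulAlgNorm_def]
    exact isNonarchimedean_spectralNorm _ _
  · show S (ψ (algebraMap K k x)) = _
    rw [ψ.commutes, spectralMulAlgNorm_def]
    exact spectralNorm_extends (φ x)

/-- An absolute value given by a complex embedding extends to `k`. -/
theorem exists_extension_of_complex (φ : K →+* ℂ) :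
    ∃ w : AbsoluteValue k ℝ, ∀ x : K, w (algebraMap K k x) = ‖φ x‖ := by
  let iK : Algebra K ℂ := φ.toAlgebra
  let ψ : k →ₐ[K] ℂ := IsAlgClosed.lift
  refine ⟨(NormedField.toAbsoluteValue ℂ).comp (f := ψ.toRingHom) ψ.injective, fun x => ?_⟩
  show ‖ψ (algebraMap K k x)‖ = _
  rw [ψ.commutes]
  rfl

open NumberField IsDedekindDomain in
/-- The finite places of a number field extend to ultrametric absolute values of `k`. -/
theorem exists_extension_of_isFinitePlace [NumberField K] {v : AbsoluteValue K ℝ}
    (hv : IsFinitePlace v) :
    ∃ w : AbsoluteValue k ℝ, IsNonarchimedean w ∧ ∀ x : K, w (algebraMap K k x) = v x := by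
  obtain ⟨p, rfl⟩ := hv
  letI : NontriviallyNormedField (p.adicCompletion K) :=
    Valued.toNontriviallyNormedField (L := p.adicCompletion K) (Γ₀ := WithZero (Multiplicative ℤ))
  letI : IsUltrametricDist (p.adicCompletion K) :=
    IsUltrametricDist.isUltrametricDist_of_isNonarchimedean_norm (Valued.isNonarchimedean_norm (p.adicCompletion K) (WithZero (Multiplicative ℤ)))
  exact exists_extension_of_ultrametric (k := k) (E := p.adicCompletion K) (FinitePlace.embedding p)

open NumberField in
/-- The infinite places of a number field extend to absolute values of `k`. -/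
theorem exists_extension_of_isInfinitePlace {v : AbsoluteValue K ℝ} (hv : IsInfinitePlace v) :
    ∃ w : AbsoluteValue k ℝ, ∀ x : K, w (algebraMap K k x) = v x := by
  obtain ⟨φ, rfl⟩ := hv
  exact exists_extension_of_complex φ

end Fermat.Agent.MW.Height
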