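import Fermat.Agent.MW.Height.Bound
import Fermat.Agent.MW.Height.LogHeightExt
import Mathlib.FieldTheory.IntermediateField.Algebraic
import Mathlib.NumberTheory.Height.NumberField

/-!
# Heights of vectors over a number field inside an algebraic closure of `ℚ`

The height is Mathlib's `Height.logHeight` over a number field `L₁ ⊇ L` containing the constants of
the place bound. The auxiliary scalar `κ` disappears by applying the relation at all conjugates:
the product of the conjugates is the constant coefficient of its minimal polynomial, and the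
product formula applies to it.
-/

set_option autoImplicit false

noncomputable section

namespace Fermat.Agent.MW.Height

open _root_.Height _root_.Height.AdmissibleAbsValues

section Product

variable {K : Type} [Field K] [AdmissibleAbsValues K] {ι : Type}

open scoped Classical in
/-- The archimedean absolute values together with finitely many of the others. -/
def placesUpTo (S : Finset {v // v ∈ nonarchAbsVal (K := K)}) : Multiset (AbsoluteValue K ℝ) :=
  archAbsVal + S.val.map Subtype.val

theorem prod_placesUpTo (S : Finset {v // v ∈ nonarchAbsVal (K := K)})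
    (f : AbsoluteValue K ℝ → ℝ) (hS : ∀ v : {v // v ∈ nonarchAbsVal (K := K)}, v ∉ S → f v.1 = 1) :
    ((placesUpTo S).map f).prod = (archAbsVal.map f).prod * ∏ᶠ v : nonarchAbsVal, f v.val := by
  classical
  rw [placesUpTo, Multiset.map_add, Multiset.prod_add, Multiset.map_map]
  congr 1
  exact (finprod_eq_prod_of_mulSupport_subset (fun v : nonarchAbsVal (K := K) => f v.val) (s := S)
    fun v hv => by_contra fun h => hv (hS v h)).symm

theorem mulHeight_eq_prod [Finite ι] (S : Finset {v // v ∈ nonarchAbsVal (K := K)}) {x : ι → K}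
    (hx : x ≠ 0) (hS : ∀ v : {v // v ∈ nonarchAbsVal (K := K)}, v ∉ S → ∀ i, x i ≠ 0 → v.1 (x i) = 1) :
    mulHeight x = ((placesUpTo S).map fun v => ⨆ i, v (x i)).prod := by
  obtain ⟨i₀, hi₀⟩ := Function.ne_iff.mp hx
  haveI : Nonempty ι := ⟨i₀⟩
  rw [prod_placesUpTo S _ fun v hv => ?_, mulHeight_eq hx]
  refine le_antisymm (ciSup_le fun i => ?_) (Finite.le_ciSup_of_le i₀ (hS v hv i₀ hi₀).ge)
  rcases eq_or_ne (x i) 0 with h | h
  · simp [h]
  · exact (hS v hv i h).le

theorem finite_ne_one (x : K) :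
    {v : {v // v ∈ nonarchAbsVal (K := K)} | x ≠ 0 ∧ v.1 x ≠ 1}.Finite := by
  by_cases hx : x = 0
  · simp [hx]
  · exact (hasFiniteMulSupport hx).subset fun v hv => hv.2

end Product

variable {k : Type} [Field k]

/-- A height for vectors over a number field turns multiplicative relations which hold up to a
place bound at every absolute value of `k` into additive relations up to a constant. -/
theorem exists_height_of_relations [CharZero k] [Algebra ℚ k] [Algebra.IsAlgebraic ℚ k]
    [IsAlgClosed k] (L : IntermediateField ℚ k) [FiniteDimensional ℚ L] {ι : Type} [Fintype ι]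
    {C : AbsoluteValue k ℝ → ℝ} (hC : PlaceBound C) :
    ∃ H : (ι → L) → ℝ, ∃ B : ℝ, (∀ v, 0 ≤ H v) ∧
      (∀ M : ℝ, {v : ι → L | (∃ i, v i = 1) ∧ H v ≤ M}.Finite) ∧
      ∀ a b c d : ι → L, a ≠ 0 → b ≠ 0 → c ≠ 0 → d ≠ 0 → ∀ κ : k,
        (∀ w : AbsoluteValue k ℝ,
          (⨆ i, w (a i : k)) * (⨆ i, w (b i : k))
              ≤ C w * (w κ * ((⨆ i, w (c i : k)) * (⨆ i, w (d i : k))) ^ 2) ∧
            w κ * ((⨆ i, w (c i : k)) * (⨆ i, w (d i : k))) ^ 2
              ≤ C w * ((⨆ i, w (a i : k)) * (⨆ i, w (b i : k)))) →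
        |H a + H b - 2 * (H c + H d)| ≤ B := by
  classical
  obtain ⟨hC1, T, hCσ, hCT⟩ := hC
  haveI : FiniteDimensional ℚ (IntermediateField.adjoin ℚ (T : Set k)) :=
    IntermediateField.finiteDimensional_adjoin fun x _ =>
      (Algebra.IsAlgebraic.isAlgebraic x).isIntegral
  set L₁ : IntermediateField ℚ k := L ⊔ IntermediateField.adjoin ℚ (T : Set k) with hL₁
  haveI : FiniteDimensional ℚ L₁ := IntermediateField.finiteDimensional_sup _ _
  haveI : NumberField L₁ :=
    { to_finiteDimensional := by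
        rw [Subsingleton.elim (DivisionRing.toRatAlgebra : Algebra ℚ L₁) L₁.algebra']
        exact ‹FiniteDimensional ℚ L₁› }
  haveI : Algebra.IsAlgebraic L₁ k := Algebra.IsAlgebraic.tower_top (K := ℚ) L₁
  haveI : IsAlgClosure L₁ k := ⟨inferInstance, inferInstance⟩
  haveI : Normal L₁ k := IsAlgClosure.normal L₁ k
  let inc : L →+* L₁ :=
    { toFun := fun x => ⟨x.1, (le_sup_left : L ≤ L₁) x.2⟩
      map_one' := rfl
      map_mul' := fun _ _ => rfl
      map_zero' := rfl
      map_add' := fun _ _ => rfl }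
  have hinc : ∀ x : L, (inc x : k) = x := fun _ => rfl
  have hTmem : ∀ t ∈ T, t ∈ L₁ := fun t ht =>
    (le_sup_right : IntermediateField.adjoin ℚ (T : Set k) ≤ L₁)
      (IntermediateField.subset_adjoin ℚ _ ht)
  -- extensions of the absolute values of `L₁`
  have hext : ∀ v : AbsoluteValue L₁ ℝ, ∃ w : AbsoluteValue k ℝ,
      (v ∈ archAbsVal ∨ v ∈ nonarchAbsVal → ∀ x : L₁, w (x : k) = v x) ∧
      (v ∈ nonarchAbsVal → IsNonarchimedean w) := by
    intro v
    by_cases hv : v ∈ nonarchAbsVal
    · obtain ⟨w, hw, hwv⟩ := exists_extension_of_isFinitePlace (k := k) (v := v) hv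
      exact ⟨w, fun _ => hwv, fun _ => hw⟩
    by_cases hv' : v ∈ archAbsVal
    · obtain ⟨w, hwv⟩ := exists_extension_of_isInfinitePlace (k := k) (v := v)
        (NumberField.mem_multisetInfinitePlace.mp hv')
      exact ⟨w, fun _ => hwv, fun h => absurd h hv⟩
    · obtain ⟨φ⟩ := (inferInstance : Nonempty (L₁ →+* ℂ))
      obtain ⟨w, -⟩ := exists_extension_of_complex (k := k) φ
      exact ⟨w, fun h => absurd h (by tauto), fun h => absurd h hv⟩
  choose ext hextv hextn using hext
  -- the total constant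
  obtain ⟨S₀, hS₀⟩ : ∃ S₀ : Finset {v // v ∈ nonarchAbsVal (K := L₁)},
      ∀ v, v ∉ S₀ → C (ext v.1) = 1 := by
    refine ⟨((T.attach.finite_toSet.biUnion fun t _ =>
      finite_ne_one (⟨t.1, hTmem t.1 t.2⟩ : L₁))).toFinset, fun v hv => ?_⟩
    refine le_antisymm (hCT _ (hextn _ v.2) fun t ht => ?_) (hC1 _)
    by_contra hlt
    apply hv
    simp only [Set.Finite.mem_toFinset, Set.mem_iUnion]
    refine ⟨⟨t, ht⟩, Finset.mem_coe.mpr (Finset.mem_attach _ _), fun h0 => ?_, fun h1 => ?_⟩
    · have h0' : t = 0 := congrArg Subtype.val h0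
      simp [h0'] at hlt
    · exact hlt ((hextv v.1 (Or.inr v.2) ⟨t, hTmem t ht⟩).trans h1).le
  set PC : ℝ := ((placesUpTo S₀).map fun v => C (ext v)).prod with hPC
  have hPC1 : 1 ≤ PC := Multiset.one_le_prod_map fun v _ => hC1 _
  refine ⟨fun z => logHeight (fun i => inc (z i)), Real.log PC, fun z => logHeight_nonneg _,
    fun M => ?_, ?_⟩
  · -- Northcott
    have hfin : {x : L | logHeight₁ (inc x) ≤ M}.Finite :=
      (NumberField.finite_setOfPred_logHeight₁_le L₁ M).preimage inc.injective.injOn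
    refine (Set.Finite.pi fun _ : ι => hfin).subset ?_
    rintro z ⟨⟨i, hi⟩, hz⟩
    rw [Set.mem_univ_pi]
    intro j
    refine le_trans ?_ hz
    rw [logHeight₁_eq_logHeight]
    have e : (![inc (z j), 1] : Fin 2 → L₁) = (fun l => inc (z l)) ∘ ![j, i] := by
      ext l; fin_cases l <;> simp [hi]
    rw [e]
    exact Real.log_le_log (mulHeight_pos _) (by
      rcases eq_or_ne ((fun l => inc (z l)) ∘ ![j, i]) 0 with h0 | h0
      · simp [h0, one_le_mulHeight]
      · obtain ⟨S, hS⟩ : ∃ S : Finset {v // v ∈ nonarchAbsVal (K := L₁)},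
            ∀ v, v ∉ S → ∀ l, inc (z l) ≠ 0 → v.1 (inc (z l)) = 1 :=
          ⟨(Set.finite_univ.biUnion fun l (_ : l ∈ Set.univ) =>
            finite_ne_one (inc (z l))).toFinset, fun v hv l hl => by
              by_contra hne
              exact hv (by simp only [Set.Finite.mem_toFinset, Set.mem_iUnion]
                           exact ⟨l, Set.mem_univ l, hl, hne⟩)⟩
        rw [mulHeight_eq_prod S h0 fun v hv l => hS v hv (![j, i] l),
          mulHeight_eq_prod S (x := fun l => inc (z l))
            (Function.ne_iff.mpr ⟨i, by simp [hi]⟩) hS]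
        refine Multiset.prod_map_le_prod_map₀ _ _
          (fun v _ => Real.iSup_nonneg fun l => v.nonneg _) fun v _ => ?_
        exact ciSup_le fun l => Finite.le_ciSup_of_le (![j, i] l) le_rfl)
  intro a b c d ha hb hc hd κ hrel
  obtain ⟨i₀, hi₀⟩ := Function.ne_iff.mp ha
  haveI : Nonempty ι := ⟨i₀⟩
  -- `κ ≠ 0` and its minimal polynomial
  have hinj : Function.Injective inc := inc.injective
  have hne : ∀ {z : ι → L}, z ≠ 0 → (fun i => inc (z i)) ≠ 0 := fun {z} hz h =>
    hz (funext fun i => hinj (by simpa using congrFun h i))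
  have hsup : ∀ (w : AbsoluteValue k ℝ) {z : ι → L}, z ≠ 0 → 0 < ⨆ i, w (z i : k) := by
    intro w z hz
    obtain ⟨j, hj⟩ := Function.ne_iff.mp hz
    exact lt_of_lt_of_le (w.pos (by simpa using hj)) (Finite.le_ciSup_of_le j le_rfl)
  have hκ : κ ≠ 0 := by
    rintro rfl
    obtain ⟨φ⟩ := (inferInstance : Nonempty (L₁ →+* ℂ))
    obtain ⟨w, -⟩ := exists_extension_of_complex (k := k) φ
    have := (hrel w).1
    simp only [map_zero, zero_mul, mul_zero] at this
    exact absurd this (not_le.mpr (mul_pos (hsup w ha) (hsup w hb)))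
  have hκint : IsIntegral L₁ κ := (Algebra.IsAlgebraic.isAlgebraic κ).isIntegral
  set P := minpoly L₁ κ with hP
  set c₀ : L₁ := P.coeff 0 with hc₀
  have hc₀0 : c₀ ≠ 0 := minpoly.coeff_zero_ne_zero hκint hκ
  set R := P.aroots k with hR
  set n := Multiset.card R with hn
  have hsplit : (P.map (algebraMap L₁ k)).Splits := IsAlgClosed.splits _
  have hn0 : n ≠ 0 := by
    rw [hn, hR, Polynomial.aroots, ← hsplit.natDegree_eq_card_roots, Polynomial.natDegree_map]
    exact (minpoly.natDegree_pos hκint).ne'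
  have hnorm : ∀ w : AbsoluteValue k ℝ, (R.map w).prod = w (c₀ : k) := by
    intro w
    have h := hsplit.coeff_zero_eq_prod_roots_of_monic ((minpoly.monic hκint).map _)
    rw [Polynomial.coeff_map] at h
    change (c₀ : k) = _ at h
    rw [h, map_mul, map_pow, map_neg_eq_map, map_one, one_pow, one_mul, map_multiset_prod]
  -- supports
  obtain ⟨S, hSS₀, hSx⟩ : ∃ S : Finset {v // v ∈ nonarchAbsVal (K := L₁)}, S₀ ⊆ S ∧
      ∀ v, v ∉ S → v.1 c₀ = 1 ∧ ∀ z ∈ ({a, b, c, d} : Finset (ι → L)), ∀ i,
        inc (z i) ≠ 0 → v.1 (inc (z i)) = 1 := by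
    refine ⟨S₀ ∪ ((finite_ne_one c₀).union ((({a, b, c, d} : Finset (ι → L)) ×ˢ
        (Finset.univ : Finset ι)).finite_toSet.biUnion fun zi _ =>
          finite_ne_one (inc (zi.1 zi.2)))).toFinset, Finset.subset_union_left, fun v hv => ?_⟩
    simp only [Finset.mem_union, Set.Finite.mem_toFinset, Set.mem_union, Set.mem_iUnion,
      not_or, not_exists] at hv
    refine ⟨?_, fun z hz i hzi => ?_⟩
    · by_contra h
      exact hv.2.1 ⟨hc₀0, h⟩
    · by_contra h
      exact hv.2.2 (z, i) (by simpa using hz) ⟨hzi, h⟩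
  set G := placesUpTo S with hG
  have hGmem : ∀ v ∈ G, v ∈ archAbsVal ∨ v ∈ nonarchAbsVal := by
    intro v hv
    rcases Multiset.mem_add.mp hv with h | h
    · exact Or.inl h
    · obtain ⟨u, -, rfl⟩ := Multiset.mem_map.mp h
      exact Or.inr u.2
  have hprodC : (G.map fun v => C (ext v)).prod = PC := by
    rw [hPC, hG, prod_placesUpTo S _ fun v hv => hS₀ v fun h => hv (hSS₀ h),
      prod_placesUpTo S₀ _ hS₀]
  have hprodc : (G.map fun v => v c₀).prod = 1 := by
    rw [hG, prod_placesUpTo S _ fun v hv => (hSx v hv).1]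
    exact product_formula hc₀0
  -- the relation at one place
  let M : (ι → L) → AbsoluteValue L₁ ℝ → ℝ := fun z v => ⨆ i, v (inc (z i))
  have hM0 : ∀ z v, 0 ≤ M z v := fun z v => Real.iSup_nonneg fun i => v.nonneg _
  have hloc : ∀ v ∈ G,
      (M a v * M b v) ^ n ≤ C (ext v) ^ n * (v c₀ * ((M c v * M d v) ^ 2) ^ n) ∧
      v c₀ * ((M c v * M d v) ^ 2) ^ n ≤ C (ext v) ^ n * (M a v * M b v) ^ n := by
    intro v hv
    have hwv := hextv v (hGmem v hv)
    have hMw : ∀ z : ι → L, (⨆ i, ext v (z i : k)) = M z v := fun z =>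
      iSup_congr fun i => (by rw [← hinc]; exact hwv _)
    have key : ∀ r ∈ R,
        M a v * M b v ≤ C (ext v) * (ext v r * (M c v * M d v) ^ 2) ∧
        ext v r * (M c v * M d v) ^ 2 ≤ C (ext v) * (M a v * M b v) := by
      intro r hr
      obtain ⟨σ, hσ⟩ := minpoly.exists_algEquiv_of_root' (Algebra.IsAlgebraic.isAlgebraic κ)
        (x := r) (Polynomial.mem_aroots.mp hr).2
      have hfix : ∀ y : L₁, σ (y : k) = y := σ.commutes
      have h := hrel ((ext v).comp (f := σ.toRingEquiv.toRingHom) σ.toRingEquiv.injective)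
      rw [hCσ (ext v) σ.toRingEquiv fun t ht => hfix ⟨t, hTmem t ht⟩] at h
      have hz : ∀ z : ι → L,
          (⨆ i, (ext v).comp (f := σ.toRingEquiv.toRingHom) σ.toRingEquiv.injective (z i : k))
            = M z v := fun z => by
        rw [← hMw]
        refine iSup_congr fun i => ?_
        show ext v (σ (z i : k)) = _
        rw [← hinc (z i), hfix]
      rw [hz, hz, hz, hz] at h
      rwa [show (ext v).comp (f := σ.toRingEquiv.toRingHom) σ.toRingEquiv.injective κ = ext v r
        from congrArg (ext v) hσ] at h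
    have hc0' : v c₀ = (R.map (ext v)).prod := by rw [hnorm, hwv]
    have hconst : ∀ x : ℝ, x ^ n = (R.map fun _ => x).prod := fun x => by
      rw [Multiset.map_const', Multiset.prod_replicate]
    constructor
    · refine (hconst _).trans_le ((Multiset.prod_map_le_prod_map₀ _
        (fun r => C (ext v) * (ext v r * (M c v * M d v) ^ 2))
        (fun _ _ => mul_nonneg (hM0 _ _) (hM0 _ _)) fun r hr => (key r hr).1).trans_eq ?_)
      simp only [Multiset.prod_map_mul, ← hconst, hc0']
    · refine le_trans (le_of_eq ?_) ((Multiset.prod_map_le_prod_map₀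
        (fun r => ext v r * (M c v * M d v) ^ 2) (fun _ => C (ext v) * (M a v * M b v))
        (fun r _ => mul_nonneg ((ext v).nonneg r) (sq_nonneg _))
        fun r hr => (key r hr).2).trans_eq ?_)
      · simp only [Multiset.prod_map_mul, ← hconst, hc0']
      · rw [← hconst, mul_pow]
  -- the global inequalities
  have hHeight : ∀ z ∈ ({a, b, c, d} : Finset (ι → L)), z ≠ 0 →
      mulHeight (fun i => inc (z i)) = (G.map (M z)).prod := fun z hz hz0 =>
    mulHeight_eq_prod S (hne hz0) fun v hv i => (hSx v hv).2 z hz i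
  have eA := hHeight a (by simp) ha
  have eB := hHeight b (by simp) hb
  have eC := hHeight c (by simp) hc
  have eD := hHeight d (by simp) hd
  have hpow : ∀ (f : AbsoluteValue L₁ ℝ → ℝ) (j : ℕ),
      (G.map fun v => f v ^ j).prod = (G.map f).prod ^ j := fun f j => Multiset.prod_map_pow
  have hC0 : ∀ v, 0 ≤ C (ext v) := fun v => zero_le_one.trans (hC1 _)
  have g1 := Multiset.prod_map_le_prod_map₀ (s := G) (fun v => (M a v * M b v) ^ n)
    (fun v => C (ext v) ^ n * (v c₀ * ((M c v * M d v) ^ 2) ^ n))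
    (fun v _ => pow_nonneg (mul_nonneg (hM0 _ _) (hM0 _ _)) _) fun v hv => (hloc v hv).1
  have g2 := Multiset.prod_map_le_prod_map₀ (s := G) (fun v => v c₀ * ((M c v * M d v) ^ 2) ^ n)
    (fun v => C (ext v) ^ n * (M a v * M b v) ^ n)
    (fun v _ => mul_nonneg (v.nonneg _) (pow_nonneg (sq_nonneg _) _)) fun v hv => (hloc v hv).2
  simp only [Multiset.prod_map_mul, hpow, hprodC, hprodc, one_mul, ← eA, ← eB, ← eC, ← eD,
    ← mul_pow] at g1 g2
  have pa := mulHeight_pos (fun i => inc (a i))
  have pb := mulHeight_pos (fun i => inc (b i))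
  have pc := mulHeight_pos (fun i => inc (c i))
  have pd := mulHeight_pos (fun i => inc (d i))
  have hPC0 : 0 < PC := zero_lt_one.trans_le hPC1
  set A := mulHeight (fun i => inc (a i))
  set B' := mulHeight (fun i => inc (b i))
  set Cc := mulHeight (fun i => inc (c i))
  set D := mulHeight (fun i => inc (d i))
  have h1 := Real.log_le_log (mul_pos pa pb)
    ((pow_le_pow_iff_left₀ (mul_pos pa pb).le (by positivity) hn0).mp g1)
  have h2 := Real.log_le_log (pow_pos (mul_pos pc pd) 2)
    ((pow_le_pow_iff_left₀ (by positivity) (by positivity) hn0).mp g2)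
  rw [Real.log_mul pa.ne' pb.ne', Real.log_mul hPC0.ne' (by positivity), Real.log_pow,
    Real.log_mul pc.ne' pd.ne'] at h1
  rw [Real.log_pow, Real.log_mul pc.ne' pd.ne', Real.log_mul hPC0.ne' (by positivity),
    Real.log_mul pa.ne' pb.ne'] at h2
  simp only [Nat.cast_ofNat] at h1 h2
  simp only [logHeight_eq_log_mulHeight]
  rw [abs_le]
  constructor <;> linarith

end Fermat.Agent.MW.Height
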