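import Fermat.Agent.MW.Height.Link

/-!
# Opposite and product representatives
-/

set_option autoImplicit false

noncomputable section

open AlgebraicCurve

namespace Fermat.Agent.MW.Height

variable {k F : Type} [Field k] [Field F] [Algebra k F] [IsAlgClosed k] [FF.IsFunctionField k F]

namespace Setup

variable {P : Setup k F}

omit [IsAlgClosed k] [FF.IsFunctionField k F] in
theorem famDiv_comp_equiv {ι ι' : Type} [Fintype ι] [Fintype ι'] (f : ι' → Place k F)
    (e : ι ≃ ι') : Emb.famDiv (fun i => f (e i)) = Emb.famDiv f :=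
  e.sum_comp fun i => Finsupp.single (f i) 1

/-- Exchanging the two halves gives a representative of the opposite class. -/
theorem Rep.exists_swap (R : P.Rep 1) :
    ∃ R' : P.Rep 1, R'.cls = -R.cls ∧ R'.c = R.c ∧ ∀ i, R'.pt i = R.pt i.swap := by
  let R' : P.Rep 1 :=
    { pt := fun i => R.pt i.swap
      inj := R.inj.comp (Equiv.sumComm _ _).injective
      ne_O := fun i => R.ne_O _
      avoid := fun i u => R.avoid _ u
      c := R.c
      c_ne := R.c_ne
      zero := fun i => R.zero _ }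
  refine ⟨R', eq_neg_of_add_eq_zero_left ?_, rfl, fun _ => rfl⟩
  rw [Rep.cls, Rep.cls, ← Pic0.mk_add, Pic0.mk, QuotientAddGroup.eq_zero_iff,
    AddSubgroup.mem_addSubgroupOf]
  refine ⟨(R.sec : F), R.sec_ne_zero, fun v => ?_⟩
  show (R'.div + R.div : Divisor k F) v = v.ord (R.sec : F)
  have h := R.sord_sec v
  have e : Emb.famDiv R.pt = Emb.famDiv (fun i => R.pt (Sum.inl i)) +
      Emb.famDiv (fun i => R.pt (Sum.inr i)) := by
    rw [← Emb.famDiv_elim]; congr 1; ext i; cases i <;> rfl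
  have h2 : P.E.lev (2 * 1) = P.E.lev 1 + P.E.lev 1 := P.E.lev_add 1 1
  rw [Emb.sord, e, h2, Finsupp.add_apply, Finsupp.add_apply] at h
  have e' : (fun i => R'.pt (Sum.inl i)) = fun i => R.pt (Sum.inr i) := rfl
  simp only [Rep.div, e', Finsupp.add_apply, Finsupp.sub_apply]
  omega

/-- Two disjoint representatives of level one give one of level two of the sum of the classes. -/
theorem Rep.exists_mul (R₁ R₂ : P.Rep 1) (hd : ∀ i j, R₁.pt i ≠ R₂.pt j) :
    ∃ R : P.Rep 2, R.cls = R₁.cls + R₂.cls ∧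
      (∀ X : Pt P.E k,
        lval X (2 * 2) R.c = lval X (2 * 1) R₁.c * lval X (2 * 1) R₂.c) ∧
      ∃ e : Fin (2 * P.E.M₀) ≃ Fin (1 * P.E.M₀) ⊕ Fin (1 * P.E.M₀),
        (∀ i, R.pt (Sum.inl i)
          = Sum.elim (fun a => R₁.pt (Sum.inl a)) (fun a => R₂.pt (Sum.inl a)) (e i)) ∧
        (∀ i, R.pt (Sum.inr i)
          = Sum.elim (fun a => R₁.pt (Sum.inr a)) (fun a => R₂.pt (Sum.inr a)) (e i)) := by
  classical
  let e : Fin (2 * P.E.M₀) ≃ Fin (1 * P.E.M₀) ⊕ Fin (1 * P.E.M₀) :=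
    (finCongr (by ring)).trans finSumFinEquiv.symm
  let sh := (Equiv.sumCongr e e).trans (Equiv.sumSumSumComm _ _ _ _)
  let s : P.E.R (2 * 2) := ⟨(R₁.sec : F) * R₂.sec, P.E.mul_mem_R R₁.sec.2 R₂.sec.2⟩
  let c : Fin (P.E.dim (2 * 2)) → k := fun j => (P.E.bas (2 * 2)).repr s j
  have hl : ∀ X : Pt P.E k,
      lval X (2 * 2) c = lval X (2 * 1) R₁.c * lval X (2 * 1) R₂.c := fun X => by
    have h1 : lval X (2 * 2) c = X.sv (2 * 2) s := by
      rw [X.sv_eq_sum, lval]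
      simp only [smul_eq_mul, c]
    have h2 : ∀ R : P.Rep 1, lval X (2 * 1) R.c = X.sv (2 * 1) R.sec := fun R => by
      simp [lval, Rep.sec, map_sum, map_smul]
    rw [h1, h2, h2]
    exact X.sv_mul R₁.sec R₂.sec
  have hpt : ∀ j, Sum.elim R₁.pt R₂.pt j ≠ P.E.O ∧ (∀ u, Sum.elim R₁.pt R₂.pt j ≠ P.U u) ∧
      lval (Pt.cpt P.E k (Sum.elim R₁.pt R₂.pt j)) (2 * 2) c = 0 := by
    rintro (j | j) <;> refine ⟨?_, ?_, ?_⟩ <;> simp only [Sum.elim_inl, Sum.elim_inr, hl]
    exacts [R₁.ne_O j, R₁.avoid j, by rw [R₁.zero, zero_mul], R₂.ne_O j, R₂.avoid j,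
      by rw [R₂.zero, mul_zero]]
  let R : P.Rep 2 :=
    { pt := fun i => Sum.elim R₁.pt R₂.pt (sh i)
      inj := (R₁.inj.sumElim R₂.inj hd).comp sh.injective
      ne_O := fun i => (hpt _).1
      avoid := fun i => (hpt _).2.1
      c := c
      c_ne := fun hc => mul_ne_zero R₁.sec_ne_zero R₂.sec_ne_zero (by
        have h' : (P.E.bas (2 * 2)).repr s = 0 := Finsupp.ext (congrFun hc)
        simpa [s] using congrArg Subtype.val ((LinearEquiv.map_eq_zero_iff _).mp h'))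
      zero := fun i => (hpt _).2.2 }
  have hl₁ : ∀ i, R.pt (Sum.inl i)
      = Sum.elim (fun a => R₁.pt (Sum.inl a)) (fun a => R₂.pt (Sum.inl a)) (e i) := fun i => by
    show Sum.elim R₁.pt R₂.pt (Equiv.sumSumSumComm _ _ _ _ (Sum.inl (e i))) = _
    rcases e i with a | a <;> rfl
  have hr₁ : ∀ i, R.pt (Sum.inr i)
      = Sum.elim (fun a => R₁.pt (Sum.inr a)) (fun a => R₂.pt (Sum.inr a)) (e i) := fun i => by
    show Sum.elim R₁.pt R₂.pt (Equiv.sumSumSumComm _ _ _ _ (Sum.inr (e i))) = _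
    rcases e i with a | a <;> rfl
  refine ⟨R, ?_, hl, e, hl₁, hr₁⟩
  rw [Rep.cls, Rep.cls, Rep.cls, ← Pic0.mk_add]
  refine congrArg Pic0.mk (Subtype.ext ?_)
  show R.div = R₁.div + R₂.div
  rw [Rep.div, Rep.div, Rep.div, funext hl₁, famDiv_comp_equiv, Emb.famDiv_elim,
    show P.E.lev 2 = P.E.lev 1 + P.E.lev 1 from P.E.lev_add 1 1]
  abel

end Setup

end Fermat.Agent.MW.Height
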