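import Fermat.Agent.MW.Height.Single
import Fermat.Agent.MW.Height.Product

/-!
# The relation between the coordinates of `x + y`, `x - y`, `x` and `y`
-/

set_option autoImplicit false
set_option maxHeartbeats 800000

noncomputable section

open AlgebraicCurve

namespace Fermat.Agent.MW.Height

variable {k F : Type} [Field k] [Field F] [Algebra k F] [IsAlgClosed k] [FF.IsFunctionField k F]

namespace Setup

variable {P : Setup k F}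

theorem prod_sum_split {α β γ : Type} [Fintype α] [Fintype β] [Fintype γ] {M : Type*}
    [CommMonoid M] (e : α ≃ β ⊕ γ) (G : β ⊕ γ → M) :
    ∏ i, G (e i) = (∏ a, G (Sum.inl a)) * ∏ b, G (Sum.inr b) := by
  rw [Equiv.prod_comp e G, Fintype.prod_sum_type]

theorem pairProd_split {α β γ : Type} [Fintype α] [Fintype β] [Fintype γ] [DecidableEq α]
    [DecidableEq β] [DecidableEq γ] {Q : Type}
    (d : Q → Q → ℝ) (hd : ∀ a b, d a b = d b a) (e : α ≃ β ⊕ γ) (h : α → Q) (f : β → Q)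
    (g : γ → Q) (hh : ∀ i, h i = Sum.elim f g (e i)) :
    (∏ i, ∏ j, if i = j then (1 : ℝ) else d (h i) (h j))
      = (∏ i, ∏ j, if i = j then (1 : ℝ) else d (f i) (f j)) *
        (∏ i, ∏ j, if i = j then (1 : ℝ) else d (g i) (g j)) *
        (∏ a, ∏ b, d (f a) (g b)) ^ 2 := by
  let G : β ⊕ γ → β ⊕ γ → ℝ := fun x y =>
    if x = y then 1 else d (Sum.elim f g x) (Sum.elim f g y)
  have h1 : ∀ i, (∏ j, if i = j then (1 : ℝ) else d (h i) (h j)) = ∏ y, G (e i) y := by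
    intro i
    rw [← Equiv.prod_comp e (G (e i))]
    refine Finset.prod_congr rfl fun j _ => ?_
    simp only [G, hh, e.injective.eq_iff]
  simp only [h1]
  rw [Equiv.prod_comp e fun x => ∏ y, G x y]
  simp only [G, Fintype.prod_sum_type, Sum.elim_inl, Sum.elim_inr, reduceCtorEq, if_false,
    Sum.inl.injEq, Sum.inr.injEq, Finset.prod_mul_distrib]
  rw [Finset.prod_comm (f := fun x y => d (g x) (f y))]
  simp only [hd (g _) (f _)]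
  ring

namespace Rep

variable {q : ℕ}

theorem lval_cpt_ne_zero (R : P.Rep q) {Q : Place k F} (hQ : ∀ i, R.pt i ≠ Q) :
    lval (Pt.cpt P.E k Q) (2 * q) R.c ≠ 0 := by
  obtain ⟨j, hj⟩ : ∃ j, R.c j ≠ 0 := Function.ne_iff.mp R.c_ne
  have h := span_lval_eq (fun i => Pt.cpt P.E k (R.pt i)) (2 * q)
    (by simp only [Fintype.card_sum, Fintype.card_fin]; ring)
    (fun a b hab => dist_ne_bot P.E (Pt.red_cpt _) (Pt.red_cpt _) (R.inj.ne hab))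
    R.c ⟨j, isUnit_iff_ne_zero.mpr hj⟩ R.zero (Pt.cpt P.E k Q)
    (fun i => dist_ne_bot P.E (Pt.red_cpt _) (Pt.red_cpt _) (hQ i))
  intro h0
  rw [h0, Finset.prod_eq_one (fun i _ => by
    rw [dist_eq_top (by rw [Pt.red_cpt, Pt.red_cpt]; exact hQ i), ← Ideal.one_eq_top]),
    Ideal.span_singleton_eq_bot.mpr rfl] at h
  exact one_ne_zero h.symm

theorem tO_ne_zero (R : P.Rep q) : R.tO ≠ 0 := R.lval_cpt_ne_zero R.ne_O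

theorem msq_nonneg (R : P.Rep q) (w : AbsoluteValue k ℝ) : 0 ≤ R.msq w :=
  Real.iSup_nonneg fun _ => AbsoluteValue.nonneg _ _

/-- The part of the determinant formula coming from the points. -/
def geom (R : P.Rep q) (w : AbsoluteValue k ℝ) : ℝ :=
  R.nu w ^ (2 * (q + 1)) * R.pd w Sum.inl * R.pd w Sum.inr * R.oo w ^ (2 * P.r)

theorem geom_nonneg (R : P.Rep q) (w : AbsoluteValue k ℝ) : 0 ≤ R.geom w :=
  mul_nonneg (mul_nonneg (mul_nonneg (pow_nonneg (R.nu_pos w).le _) (R.pd_nonneg w _))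
    (R.pd_nonneg w _)) (pow_nonneg (R.oo_nonneg w) _)

/-- The product of the mutual distances of two representatives. -/
def cross (R₁ R₂ : P.Rep 1) (w : AbsoluteValue k ℝ) : ℝ :=
  ∏ j, ∏ i, dd P.E w (R₁.pt i) (R₂.pt j)

theorem cross_nonneg (R₁ R₂ : P.Rep 1) (w : AbsoluteValue k ℝ) : 0 ≤ cross R₁ R₂ w :=
  Finset.prod_nonneg fun _ _ => Finset.prod_nonneg fun _ _ => dd_nonneg _ _ _ _

theorem geom_mul_geom {R₁ R₂ : P.Rep 1} {Rp Rm : P.Rep 2}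
    (ep em : Fin (2 * P.E.M₀) ≃ Fin (1 * P.E.M₀) ⊕ Fin (1 * P.E.M₀))
    (hpl : ∀ i, Rp.pt (Sum.inl i) =
      Sum.elim (fun a => R₁.pt (Sum.inl a)) (fun a => R₂.pt (Sum.inl a)) (ep i))
    (hpr : ∀ i, Rp.pt (Sum.inr i) =
      Sum.elim (fun a => R₁.pt (Sum.inr a)) (fun a => R₂.pt (Sum.inr a)) (ep i))
    (hml : ∀ i, Rm.pt (Sum.inl i) =
      Sum.elim (fun a => R₁.pt (Sum.inl a)) (fun a => R₂.pt (Sum.inr a)) (em i))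
    (hmr : ∀ i, Rm.pt (Sum.inr i) =
      Sum.elim (fun a => R₁.pt (Sum.inr a)) (fun a => R₂.pt (Sum.inl a)) (em i))
    (w : AbsoluteValue k ℝ) :
    Rp.geom w * Rm.geom w
      = (R₁.geom w * R₂.geom w) ^ 2 * ((R₁.nu w * R₂.nu w) ^ 4 * cross R₁ R₂ w ^ 2) := by
  classical
  have split : ∀ (R : P.Rep 2) (e : Fin (2 * P.E.M₀) ≃ Fin (1 * P.E.M₀) ⊕ Fin (1 * P.E.M₀))
      (b b' : Fin (1 * P.E.M₀) → Fin (1 * P.E.M₀) ⊕ Fin (1 * P.E.M₀)),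
      (∀ i, R.pt (Sum.inl i) = Sum.elim (fun a => R₁.pt (Sum.inl a)) (fun a => R₂.pt (b a)) (e i)) →
      (∀ i, R.pt (Sum.inr i) = Sum.elim (fun a => R₁.pt (Sum.inr a)) (fun a => R₂.pt (b' a)) (e i)) →
      ∀ G : Place k F → ℝ, ∏ i, G (R.pt i)
        = ((∏ a, G (R₁.pt (Sum.inl a))) * ∏ a, G (R₂.pt (b a))) *
          ((∏ a, G (R₁.pt (Sum.inr a))) * ∏ a, G (R₂.pt (b' a))) := by
    intro R e b b' hl hr G
    simp only [Fintype.prod_sum_type, hl, hr]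
    rw [prod_sum_split e fun x => G (Sum.elim (fun a => R₁.pt (Sum.inl a))
        (fun a => R₂.pt (b a)) x),
      prod_sum_split e fun x => G (Sum.elim (fun a => R₁.pt (Sum.inr a))
        (fun a => R₂.pt (b' a)) x)]
    rfl
  have nup : Rp.nu w = R₁.nu w * R₂.nu w := by
    rw [nu, split Rp ep Sum.inl Sum.inr hpl hpr (fun Q => P.E.mu w Q), nu, nu,
      Fintype.prod_sum_type, Fintype.prod_sum_type]
    ring
  have num : Rm.nu w = R₁.nu w * R₂.nu w := by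
    rw [nu, split Rm em Sum.inr Sum.inl hml hmr (fun Q => P.E.mu w Q), nu, nu,
      Fintype.prod_sum_type, Fintype.prod_sum_type]
    ring
  have oop : Rp.oo w = R₁.oo w * R₂.oo w := by
    rw [oo, split Rp ep Sum.inl Sum.inr hpl hpr (fun Q => dd P.E w Q P.E.O), oo, oo,
      Fintype.prod_sum_type, Fintype.prod_sum_type]
    ring
  have oom : Rm.oo w = R₁.oo w * R₂.oo w := by
    rw [oo, split Rm em Sum.inr Sum.inl hml hmr (fun Q => dd P.E w Q P.E.O), oo, oo,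
      Fintype.prod_sum_type, Fintype.prod_sum_type]
    ring
  have hc := dd_comm P.E w
  unfold geom
  rw [nup, num, oop, oom]
  simp only [pd]
  rw [pairProd_split (dd P.E w) hc ep _ _ _ hpl, pairProd_split (dd P.E w) hc ep _ _ _ hpr,
    pairProd_split (dd P.E w) hc em _ _ _ hml, pairProd_split (dd P.E w) hc em _ _ _ hmr]
  have hX : cross R₁ R₂ w =
      ((∏ a, ∏ b, dd P.E w (R₁.pt (Sum.inl a)) (R₂.pt (Sum.inl b))) *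
        ∏ a, ∏ b, dd P.E w (R₁.pt (Sum.inr a)) (R₂.pt (Sum.inl b))) *
      ((∏ a, ∏ b, dd P.E w (R₁.pt (Sum.inl a)) (R₂.pt (Sum.inr b))) *
        ∏ a, ∏ b, dd P.E w (R₁.pt (Sum.inr a)) (R₂.pt (Sum.inr b))) := by
    rw [cross, Finset.prod_comm]
    simp only [Fintype.prod_sum_type, Finset.prod_mul_distrib]
  rw [hX]
  ring

end Rep

/-- Disjoint pairs of representatives of level one. -/
abbrev RepPair (P : Setup k F) : Type :=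
  {p : P.Rep 1 × P.Rep 1 // ∀ i j, p.1.pt i ≠ p.2.pt j}

/-- The cross term. -/
theorem cross_equiv :
    PEquiv (fun ξ : AbsoluteValue k ℝ × RepPair P => ξ.1)
      (fun ξ => ξ.1 (∏ j, lval (Pt.cpt P.E k (ξ.2.1.2.pt j)) (2 * 1) ξ.2.1.1.c) ^ 2)
      (fun ξ => (ξ.2.1.1.nu ξ.1 * ξ.2.1.2.nu ξ.1) ^ 4 * Rep.cross ξ.2.1.1 ξ.2.1.2 ξ.1 ^ 2 *
        ξ.1 ξ.2.1.1.tO ^ (4 * P.E.M₀)) := by
  have hmu : ∀ j, PEquiv (fun ξ : AbsoluteValue k ℝ × RepPair P => ξ.1)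
      (fun ξ => ξ.1 (lval (Pt.cpt P.E k (ξ.2.1.2.pt j)) (2 * 1) ξ.2.1.1.c) * ξ.2.1.1.oo ξ.1)
      (fun ξ => P.E.mu ξ.1 (ξ.2.1.2.pt j) ^ 2 * ξ.1 ξ.2.1.1.tO *
        ∏ i, dd P.E ξ.1 (ξ.2.1.1.pt i) (ξ.2.1.2.pt j)) := fun j =>
    (Rep.apply_lval_equiv (P := P)).comp fun ξ : AbsoluteValue k ℝ × RepPair P =>
      (ξ.1, ⟨(ξ.2.1.1, ξ.2.1.2.pt j), ξ.2.1.2.ne_O j, fun i => ξ.2.2 i j⟩)
  have hO : ∀ i, PEquiv (fun ξ : AbsoluteValue k ℝ × RepPair P => ξ.1)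
      (fun ξ => dd P.E ξ.1 (ξ.2.1.1.pt i) P.E.O ^ P.E.M₀ * P.E.mu ξ.1 (ξ.2.1.1.pt i))
      (fun _ => 1) := fun i =>
    (dd_O_mu P.E).comp fun ξ : AbsoluteValue k ℝ × RepPair P =>
      (ξ.1, ⟨ξ.2.1.1.pt i, ξ.2.1.1.ne_O i⟩)
  have h1 := PEquiv.prod Finset.univ (fun j _ => hmu j)
    (fun j ξ => mul_nonneg (AbsoluteValue.nonneg _ _) (Rep.oo_nonneg _ _))
    (fun j ξ => mul_nonneg (mul_nonneg (sq_nonneg _) (AbsoluteValue.nonneg _ _))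
      (Finset.prod_nonneg fun _ _ => dd_nonneg _ _ _ _))
  have h2 := PEquiv.prod Finset.univ (fun i _ => hO i)
    (fun i ξ => mul_nonneg (pow_nonneg (dd_nonneg _ _ _ _) _) (P.E.mu_pos _ _).le)
    (fun i ξ => zero_le_one)
  have p1 := h1.pow (fun ξ => Finset.prod_nonneg fun j _ =>
      mul_nonneg (AbsoluteValue.nonneg _ _) (Rep.oo_nonneg _ _))
    (fun ξ => Finset.prod_nonneg fun j _ => mul_nonneg (mul_nonneg (sq_nonneg _)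
      (AbsoluteValue.nonneg _ _)) (Finset.prod_nonneg fun _ _ => dd_nonneg _ _ _ _)) 2
  have p2 := (h2.pow (fun ξ => Finset.prod_nonneg fun i _ =>
      mul_nonneg (pow_nonneg (dd_nonneg _ _ _ _) _) (P.E.mu_pos _ _).le)
    (fun ξ => Finset.prod_nonneg fun i _ => zero_le_one) 4).symm
  -- `L ^ 2 * 1 ≍ L ^ 2 * (o ^ M * ν) ^ 4 ≍ ν₂ ^ 4 * T ^ 4M * X ^ 2 * ν₁ ^ 4`
  have q1 := (PEquiv.of_eq (wv := fun ξ : AbsoluteValue k ℝ × RepPair P => ξ.1)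
      (f := fun ξ => ξ.1 (∏ j, lval (Pt.cpt P.E k (ξ.2.1.2.pt j)) (2 * 1) ξ.2.1.1.c) ^ 2)
      fun _ => rfl).mul p2
    (fun ξ => by positivity) (fun ξ => by positivity)
    (fun ξ => pow_nonneg (Finset.prod_nonneg fun _ _ => zero_le_one) _)
    (fun ξ => pow_nonneg (Finset.prod_nonneg fun i _ =>
      mul_nonneg (pow_nonneg (dd_nonneg _ _ _ _) _) (P.E.mu_pos _ _).le) _)
  have q2 := p1.mul (PEquiv.of_eq (wv := fun ξ : AbsoluteValue k ℝ × RepPair P => ξ.1)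
      (f := fun ξ => ξ.2.1.1.nu ξ.1 ^ 4) fun _ => rfl)
    (fun ξ => pow_nonneg (Finset.prod_nonneg fun j _ =>
      mul_nonneg (AbsoluteValue.nonneg _ _) (Rep.oo_nonneg _ _)) _)
    (fun ξ => pow_nonneg (Finset.prod_nonneg fun j _ => mul_nonneg (mul_nonneg (sq_nonneg _)
      (AbsoluteValue.nonneg _ _)) (Finset.prod_nonneg fun _ _ => dd_nonneg _ _ _ _)) _)
    (fun ξ => pow_nonneg (Rep.nu_pos _ _).le _) (fun ξ => pow_nonneg (Rep.nu_pos _ _).le _)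
  refine ((PEquiv.of_eq fun ξ => ?_).trans q1).trans
    ((PEquiv.of_eq fun ξ => ?_).trans (q2.trans (PEquiv.of_eq fun ξ => ?_)))
  · simp
  · simp only [map_prod, Finset.prod_mul_distrib, Finset.prod_const, Finset.card_univ,
      Fintype.card_sum, Fintype.card_fin, Rep.oo, Rep.nu, Finset.prod_pow]
    ring
  · simp only [Finset.prod_mul_distrib, Finset.prod_const, Finset.card_univ, Fintype.card_sum,
      Fintype.card_fin, Rep.nu, Rep.cross, Finset.prod_pow]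
    ring

omit [IsAlgClosed k] in
/-- The algebra of the parallelogram relation. -/
theorem combine_equiv {Ξ : Type} {wv : Ξ → AbsoluteValue k ℝ} (n m : ℕ)
    {Mp Mm M₁ M₂ T₁ T₂ F₁ F₂ Gp Gm G₁ G₂ L H : Ξ → ℝ}
    (hMp : ∀ ξ, 0 ≤ Mp ξ) (hMm : ∀ ξ, 0 ≤ Mm ξ) (hM₁ : ∀ ξ, 0 ≤ M₁ ξ) (hM₂ : ∀ ξ, 0 ≤ M₂ ξ)
    (hT₁ : ∀ ξ, 0 < T₁ ξ) (hT₂ : ∀ ξ, 0 < T₂ ξ)
    (hGp : ∀ ξ, 0 ≤ Gp ξ) (hGm : ∀ ξ, 0 ≤ Gm ξ) (hG₁ : ∀ ξ, 0 ≤ G₁ ξ) (hG₂ : ∀ ξ, 0 ≤ G₂ ξ)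
    (hH : ∀ ξ, 0 ≤ H ξ)
    (hp : PEquiv wv (fun ξ => Mp ξ * (T₁ ξ * T₂ ξ) ^ n) (fun ξ => (F₁ ξ * F₂ ξ) ^ 2 * Gp ξ))
    (hm : PEquiv wv (fun ξ => Mm ξ * (T₁ ξ * T₂ ξ) ^ n) (fun ξ => (F₁ ξ * F₂ ξ) ^ 2 * Gm ξ))
    (h₁ : PEquiv wv (fun ξ => M₁ ξ * T₁ ξ ^ n) (fun ξ => F₁ ξ ^ 2 * G₁ ξ))
    (h₂ : PEquiv wv (fun ξ => M₂ ξ * T₂ ξ ^ n) (fun ξ => F₂ ξ ^ 2 * G₂ ξ))
    (hX : PEquiv wv (fun ξ => L ξ ^ 2) (fun ξ => H ξ * T₁ ξ ^ m))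
    (hG : ∀ ξ, Gp ξ * Gm ξ = (G₁ ξ * G₂ ξ) ^ 2 * H ξ) :
    PEquiv wv (fun ξ => Mp ξ * Mm ξ)
      (fun ξ => L ξ ^ 2 / T₁ ξ ^ m * (M₁ ξ * M₂ ξ) ^ 2) := by
  have a1 : ∀ ξ, 0 ≤ (T₁ ξ * T₂ ξ) ^ n := fun ξ =>
    pow_nonneg (mul_nonneg (hT₁ ξ).le (hT₂ ξ).le) n
  have b1 : ∀ ξ, 0 ≤ M₁ ξ * T₁ ξ ^ n := fun ξ => mul_nonneg (hM₁ ξ) (pow_nonneg (hT₁ ξ).le n)
  have b2 : ∀ ξ, 0 ≤ M₂ ξ * T₂ ξ ^ n := fun ξ => mul_nonneg (hM₂ ξ) (pow_nonneg (hT₂ ξ).le n)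
  have c1 : ∀ ξ, 0 ≤ F₁ ξ ^ 2 * G₁ ξ := fun ξ => mul_nonneg (sq_nonneg _) (hG₁ ξ)
  have c2 : ∀ ξ, 0 ≤ F₂ ξ ^ 2 * G₂ ξ := fun ξ => mul_nonneg (sq_nonneg _) (hG₂ ξ)
  have cp : ∀ ξ, 0 ≤ (F₁ ξ * F₂ ξ) ^ 2 * Gp ξ := fun ξ => mul_nonneg (sq_nonneg _) (hGp ξ)
  have cm : ∀ ξ, 0 ≤ (F₁ ξ * F₂ ξ) ^ 2 * Gm ξ := fun ξ => mul_nonneg (sq_nonneg _) (hGm ξ)
  have d0 : ∀ ξ, 0 < ((T₁ ξ * T₂ ξ) ^ n) ^ 2 * T₁ ξ ^ m := fun ξ =>
    mul_pos (pow_pos (pow_pos (mul_pos (hT₁ ξ) (hT₂ ξ)) n) 2) (pow_pos (hT₁ ξ) m)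
  have hpm := hp.mul hm (fun ξ => mul_nonneg (hMp ξ) (a1 ξ)) cp
    (fun ξ => mul_nonneg (hMm ξ) (a1 ξ)) cm
  have h12 := ((h₁.mul h₂ b1 c1 b2 c2).pow (fun ξ => mul_nonneg (b1 ξ) (b2 ξ))
    (fun ξ => mul_nonneg (c1 ξ) (c2 ξ)) 2).symm
  have B := h12.mul hX.symm (fun ξ => sq_nonneg _) (fun ξ => sq_nonneg _)
    (fun ξ => mul_nonneg (hH ξ) (pow_nonneg (hT₁ ξ).le m)) (fun ξ => sq_nonneg _)
  have A := hpm.mul (PEquiv.of_eq (f := fun ξ => T₁ ξ ^ m) fun _ => rfl)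
    (fun ξ => mul_nonneg (mul_nonneg (hMp ξ) (a1 ξ)) (mul_nonneg (hMm ξ) (a1 ξ)))
    (fun ξ => mul_nonneg (cp ξ) (cm ξ))
    (fun ξ => pow_nonneg (hT₁ ξ).le m) (fun ξ => pow_nonneg (hT₁ ξ).le m)
  have AB := A.trans ((PEquiv.of_eq fun ξ => ?_).trans B)
  rotate_left
  · linear_combination (F₁ ξ ^ 4 * F₂ ξ ^ 4 * T₁ ξ ^ m) * hG ξ
  have hdiv := AB.mul
    (PEquiv.of_eq (f := fun ξ => (((T₁ ξ * T₂ ξ) ^ n) ^ 2 * T₁ ξ ^ m)⁻¹) fun _ => rfl)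
    (fun ξ => mul_nonneg (mul_nonneg (mul_nonneg (hMp ξ) (a1 ξ)) (mul_nonneg (hMm ξ) (a1 ξ)))
      (pow_nonneg (hT₁ ξ).le m))
    (fun ξ => mul_nonneg (sq_nonneg _) (sq_nonneg _))
    (fun ξ => (inv_pos.mpr (d0 ξ)).le) (fun ξ => (inv_pos.mpr (d0 ξ)).le)
  refine ((PEquiv.of_eq fun ξ => ?_).trans hdiv).trans (PEquiv.of_eq fun ξ => ?_)
  · have h' := (hT₁ ξ).ne'
    have h'' := (hT₂ ξ).ne'
    field_simp
  · have h' := (hT₁ ξ).ne'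
    have h'' := (hT₂ ξ).ne'
    field_simp
    ring

/-- **The parallelogram relation.** -/
theorem exists_parallelogram (P : Setup k F) :
    ∃ C : AbsoluteValue k ℝ → ℝ, PlaceBound C ∧
      ∀ R₁ R₂ : P.Rep 1, (∀ i j, R₁.pt i ≠ R₂.pt j) →
        ∃ Rp Rm : P.Rep 2, Rp.cls = R₁.cls + R₂.cls ∧ Rm.cls = R₁.cls - R₂.cls ∧
          ∃ κ : k, ∀ w : AbsoluteValue k ℝ,
            Rp.msq w * Rm.msq w ≤ C w * (w κ * (R₁.msq w * R₂.msq w) ^ 2) ∧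
            w κ * (R₁.msq w * R₂.msq w) ^ 2 ≤ C w * (Rp.msq w * Rm.msq w) := by
  have hp := fun p : RepPair P => Rep.exists_mul p.1.1 p.1.2 p.2
  choose Rp hpc hpl ep hp1 hp2 using hp
  have hm' : ∀ p : RepPair P, ∃ R : P.Rep 2, R.cls = p.1.1.cls - p.1.2.cls ∧
      (∀ X : Pt P.E k,
        lval X (2 * 2) R.c = lval X (2 * 1) p.1.1.c * lval X (2 * 1) p.1.2.c) ∧
      ∃ e : Fin (2 * P.E.M₀) ≃ Fin (1 * P.E.M₀) ⊕ Fin (1 * P.E.M₀),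
        (∀ i, R.pt (Sum.inl i)
          = Sum.elim (fun a => p.1.1.pt (Sum.inl a)) (fun a => p.1.2.pt (Sum.inr a)) (e i)) ∧
        (∀ i, R.pt (Sum.inr i)
          = Sum.elim (fun a => p.1.1.pt (Sum.inr a)) (fun a => p.1.2.pt (Sum.inl a)) (e i)) := by
    intro p
    obtain ⟨R', hR', hc, hpt⟩ := Rep.exists_swap p.1.2
    obtain ⟨R, h1, h2, e, h3, h4⟩ := Rep.exists_mul p.1.1 R' fun i j => by
      rw [hpt]; exact p.2 i j.swap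
    refine ⟨R, by rw [h1, hR', sub_eq_add_neg], fun X => by rw [h2, hc], e,
      fun i => (h3 i).trans ?_, fun i => (h4 i).trans ?_⟩
    · rcases e i with a | a
      · rfl
      · exact hpt _
    · rcases e i with a | a
      · rfl
      · exact hpt _
  choose Rm hmc hml em hm1 hm2 using hm'
  let Ξ := AbsoluteValue k ℝ × RepPair P
  let wv : Ξ → AbsoluteValue k ℝ := Prod.fst
  have htp : ∀ p, (Rp p).tO = p.1.1.tO * p.1.2.tO := fun p => hpl p _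
  have htm : ∀ p, (Rm p).tO = p.1.1.tO * p.1.2.tO := fun p => hml p _
  have hfp : ∀ p, (Rp p).phiU = p.1.1.phiU * p.1.2.phiU := fun p => by
    simp only [Rep.phiU, hpl, Finset.prod_mul_distrib]
  have hfm : ∀ p, (Rm p).phiU = p.1.1.phiU * p.1.2.phiU := fun p => by
    simp only [Rep.phiU, hml, Finset.prod_mul_distrib]
  have t : ∀ (q : ℕ) (_ : q = 1 ∨ q = 2) (f : RepPair P → P.Rep q),
      PEquiv wv (fun ξ => (f ξ.2).msq ξ.1 * ξ.1 (f ξ.2).tO ^ (2 * P.r))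
        (fun ξ => ξ.1 (f ξ.2).phiU ^ 2 * (f ξ.2).geom ξ.1) := fun q hq f =>
    (Rep.msq_equiv (P := P) hq).comp fun ξ : Ξ => (ξ.1, f ξ.2)
  have tp : PEquiv wv
      (fun ξ => (Rp ξ.2).msq ξ.1 * (ξ.1 ξ.2.1.1.tO * ξ.1 ξ.2.1.2.tO) ^ (2 * P.r))
      (fun ξ => (ξ.1 ξ.2.1.1.phiU * ξ.1 ξ.2.1.2.phiU) ^ 2 * (Rp ξ.2).geom ξ.1) :=
    ((PEquiv.of_eq fun ξ => by rw [htp, map_mul]).trans (t 2 (Or.inr rfl) Rp)).trans
      (PEquiv.of_eq fun ξ => by rw [hfp, map_mul])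
  have tm : PEquiv wv
      (fun ξ => (Rm ξ.2).msq ξ.1 * (ξ.1 ξ.2.1.1.tO * ξ.1 ξ.2.1.2.tO) ^ (2 * P.r))
      (fun ξ => (ξ.1 ξ.2.1.1.phiU * ξ.1 ξ.2.1.2.phiU) ^ 2 * (Rm ξ.2).geom ξ.1) :=
    ((PEquiv.of_eq fun ξ => by rw [htm, map_mul]).trans (t 2 (Or.inr rfl) Rm)).trans
      (PEquiv.of_eq fun ξ => by rw [hfm, map_mul])
  let V : RepPair P → k := fun p => ∏ j, lval (Pt.cpt P.E k (p.1.2.pt j)) (2 * 1) p.1.1.c
  have AB := combine_equiv (wv := wv) (2 * P.r) (4 * P.E.M₀)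
    (Mp := fun ξ => (Rp ξ.2).msq ξ.1) (Mm := fun ξ => (Rm ξ.2).msq ξ.1)
    (M₁ := fun ξ => ξ.2.1.1.msq ξ.1) (M₂ := fun ξ => ξ.2.1.2.msq ξ.1)
    (T₁ := fun ξ => ξ.1 ξ.2.1.1.tO) (T₂ := fun ξ => ξ.1 ξ.2.1.2.tO)
    (F₁ := fun ξ => ξ.1 ξ.2.1.1.phiU) (F₂ := fun ξ => ξ.1 ξ.2.1.2.phiU)
    (Gp := fun ξ => (Rp ξ.2).geom ξ.1) (Gm := fun ξ => (Rm ξ.2).geom ξ.1)
    (G₁ := fun ξ => ξ.2.1.1.geom ξ.1) (G₂ := fun ξ => ξ.2.1.2.geom ξ.1)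
    (L := fun ξ => ξ.1 (V ξ.2))
    (H := fun ξ => (ξ.2.1.1.nu ξ.1 * ξ.2.1.2.nu ξ.1) ^ 4 * Rep.cross ξ.2.1.1 ξ.2.1.2 ξ.1 ^ 2)
    (fun ξ => Rep.msq_nonneg _ _) (fun ξ => Rep.msq_nonneg _ _) (fun ξ => Rep.msq_nonneg _ _)
    (fun ξ => Rep.msq_nonneg _ _)
    (fun ξ => AbsoluteValue.pos _ (Rep.tO_ne_zero _))
    (fun ξ => AbsoluteValue.pos _ (Rep.tO_ne_zero _))
    (fun ξ => Rep.geom_nonneg _ _) (fun ξ => Rep.geom_nonneg _ _)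
    (fun ξ => Rep.geom_nonneg _ _) (fun ξ => Rep.geom_nonneg _ _)
    (fun ξ => mul_nonneg (pow_nonneg (mul_nonneg (Rep.nu_pos _ _).le (Rep.nu_pos _ _).le) _)
      (sq_nonneg _))
    tp tm (t 1 (Or.inl rfl) fun p => p.1.1) (t 1 (Or.inl rfl) fun p => p.1.2)
    (cross_equiv (P := P))
    (fun ξ => Rep.geom_mul_geom (ep ξ.2) (em ξ.2) (hp1 ξ.2) (hp2 ξ.2) (hm1 ξ.2) (hm2 ξ.2) ξ.1)
  obtain ⟨⟨C, hC, h1⟩, ⟨C', hC', h2⟩⟩ := AB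
  refine ⟨fun w => C w * C' w, hC.mul hC', fun R₁ R₂ hd => ?_⟩
  let p : RepPair P := ⟨(R₁, R₂), hd⟩
  refine ⟨Rp p, Rm p, hpc p, hmc p, V p ^ 2 / R₁.tO ^ (4 * P.E.M₀), fun w => ?_⟩
  rw [map_div₀, map_pow, map_pow]
  constructor
  · refine (h1 (w, p)).trans (mul_le_mul_of_nonneg_right ?_
      (mul_nonneg (div_nonneg (sq_nonneg _) (pow_nonneg (AbsoluteValue.nonneg _ _) _))
        (sq_nonneg _)))
    exact le_mul_of_one_le_right (zero_le_one.trans (hC.1 w)) (hC'.1 w)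
  · refine (h2 (w, p)).trans (mul_le_mul_of_nonneg_right ?_
      (mul_nonneg (Rep.msq_nonneg _ _) (Rep.msq_nonneg _ _)))
    exact le_mul_of_one_le_left (zero_le_one.trans (hC'.1 w)) (hC.1 w)

end Setup

end Fermat.Agent.MW.Height
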