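import Fermat.Agent.MW.Height.Defs
import Fermat.Agent.MW.OpenStab

/-!
# The intrinsic coordinates: invariance and rationality
-/

set_option autoImplicit false

noncomputable section

open AlgebraicCurve

namespace Fermat.Agent.MW.Height

variable {k F : Type} [Field k] [Field F] [Algebra k F] [IsAlgClosed k] [FF.IsFunctionField k F]

theorem val_add' {Q : Place k F} {x y : F} (hx : x ∈ Q.toValuationSubring)
    (hy : y ∈ Q.toValuationSubring) : Emb.val Q (x + y) = Emb.val Q x + Emb.val Q y := by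
  refine Emb.val_eq ?_
  convert add_mem (Emb.val_spec hx) (Emb.val_spec hy) using 1
  rw [map_add]; ring

theorem val_smul' {Q : Place k F} {x : F} (hx : x ∈ Q.toValuationSubring) (a : k) :
    Emb.val Q (a • x) = a * Emb.val Q x := by
  rw [Algebra.smul_def, mul_comm, val_mul_algebraMap hx, mul_comm]

theorem val_sum_smul {Q : Place k F} {ι : Type*} (s : Finset ι) (a : ι → k) (x : ι → F)
    (hx : ∀ i, x i ∈ Q.toValuationSubring) :
    Emb.val Q (∑ i ∈ s, a i • x i) = ∑ i ∈ s, a i * Emb.val Q (x i) := by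
  classical
  induction s using Finset.induction with
  | empty => simp [Emb.val_eq (Q := Q) (x := (0 : F)) (a := 0) (by simp)]
  | insert j s hj ih =>
    have hm : ∀ i, a i • x i ∈ Q.toValuationSubring := fun i => by
      rw [Algebra.smul_def]; exact mul_mem (Q.algebraMap_mem' _) (hx i)
    rw [Finset.sum_insert hj, Finset.sum_insert hj, val_add' (hm j) (sum_mem fun i _ => hm i),
      val_smul' (hx j), ih]

/-- Semilinear automorphisms transport values. -/
theorem val_smul_place {g : SemilinearAut k F} {Q : Place k F} {x : F}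
    (hx : x ∈ Q.toValuationSubring) :
    Emb.val (g • Q) (g • x) = SemilinearAut.baseAut g (Emb.val Q x) := by
  refine Emb.val_eq ?_
  have e : g • x - algebraMap k F (SemilinearAut.baseAut g (Emb.val Q x)) =
      g • (x - algebraMap k F (Emb.val Q x)) := by
    rw [← SemilinearAut.smul_algebraMap, smul_sub]
  rw [e]
  rcases (FF.mem_ordGE Q).mp (Emb.val_spec hx) with h | h
  · rw [h, smul_zero]; exact zero_mem _
  · exact FF.mem_ordGE_of_le _ (by rw [SemilinearAut.ord_smul]; exact h)

/-- A place is fixed by the automorphisms fixing some finite level. -/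
theorem place_fixed_at_level [Algebra ℚ k] (ρ : (k ≃ₐ[ℚ] k) →* SemilinearAut k F)
    (hfin : ∀ x : F, ∃ L : IntermediateField ℚ k, FiniteDimensional ℚ L ∧
      ∀ σ : k ≃ₐ[ℚ] k, (∀ a ∈ L, σ a = a) → ρ σ • x = x)
    (Q : Place k F) :
    ∃ L : IntermediateField ℚ k, FiniteDimensional ℚ L ∧
      ∀ σ : k ≃ₐ[ℚ] k, (∀ a ∈ L, σ a = a) → ρ σ • Q = Q := by
  refine place_fixed_level ρ hfin Q ?_
  obtain ⟨h, hh, h0, hQ⟩ := exists_mem_diff
    (D := Finsupp.single Q (2 * (genusFF k F : ℤ) + 2)) Q
    (by rw [Divisor.degree_single, place_deg_eq_one]; push_cast; omega)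
  refine ⟨h, h0, fun w hw => ?_, ?_⟩
  · simpa [Finsupp.single_eq_of_ne hw] using
      (mem_riemannRochSpace_iff.mp hh w).resolve_left h0
  · rw [hQ, Finsupp.single_eq_same]
    omega

namespace Setup

variable (P : Setup k F)

variable {P} in
/-- Sections of level one vanishing on a divisor away from `U` are regular on `U`. -/
theorem regular_of_mem {X : Divisor k F} (hX : ∀ u, X (P.U u) = 0) {h : F}
    (hh : h ∈ riemannRochSpace (P.E.lev 1 - X)) (u : Fin (8 * P.E.M₀)) :
    h ∈ (P.U u).toValuationSubring := by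
  rw [FF.mem_iff_ord_nonneg]
  rcases eq_or_ne h 0 with rfl | h0
  · simp
  have := (mem_riemannRochSpace_iff.mp hh (P.U u)).resolve_left h0
  simpa [P.E.lev_apply_ne 1 (P.U_ne u), hX u] using this

variable {P} in
/-- Any independent family of the right size gives the same minors up to a scalar. -/
theorem exists_det_vmat {Y : Divisor k F} (hY : Divisor.degree Y = 0) (hYU : ∀ u, Y (P.U u) = 0)
    (w : Fin P.r → F) (hw : ∀ j, w j ∈ riemannRochSpace (P.E.lev 1 - Y))
    (hli : LinearIndependent k w) :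
    ∃ c : k, c ≠ 0 ∧ ∀ S : Fin P.r → Fin (8 * P.E.M₀),
      (vmat hY S).det = c * (Matrix.of fun i j => Emb.val (P.U (S i)) (w j)).det := by
  classical
  let w' : Fin P.r → riemannRochSpace (P.E.lev 1 - Y) := fun j => ⟨w j, hw j⟩
  have hli' : LinearIndependent k w' :=
    LinearIndependent.of_comp (riemannRochSpace (P.E.lev 1 - Y)).subtype hli
  let A := (P.basisSub hY).toMatrix w'
  have hA : A.det ≠ 0 := by
    haveI : Nonempty (Fin P.r) := ⟨⟨0, by have := P.E.le_M₀; unfold Setup.r; omega⟩⟩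
    let b' := basisOfLinearIndependentOfCardEqFinrank hli'
      (by rw [Fintype.card_fin, P.finrank_sub hY])
    have hb' : (b' : Fin P.r → _) = w' := coe_basisOfLinearIndependentOfCardEqFinrank _ _
    have h1 := congrArg Matrix.det ((P.basisSub hY).toMatrix_mul_toMatrix_flip b')
    rw [Matrix.det_mul, Matrix.det_one, hb'] at h1
    exact left_ne_zero_of_mul_eq_one h1
  refine ⟨A.det⁻¹, inv_ne_zero hA, fun S => ?_⟩
  have hmat : (Matrix.of fun i j => Emb.val (P.U (S i)) (w j)) = vmat hY S * A := by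
    ext i j
    have h : w j = ∑ l, A l j • (P.basisSub hY l : F) := by
      have := congrArg Subtype.val ((P.basisSub hY).sum_toMatrix_smul_self w' j)
      rw [Submodule.coe_sum] at this
      simp only [Submodule.coe_smul] at this
      exact this.symm
    rw [Matrix.of_apply, h, val_sum_smul _ _ _ fun l => regular_of_mem hYU (SetLike.coe_mem _) _,
      Matrix.mul_apply]
    exact Finset.sum_congr rfl fun l _ => by rw [vmat, Matrix.of_apply, mul_comm]
  rw [hmat, Matrix.det_mul, mul_comm (vmat hY S).det, inv_mul_cancel_left₀ hA]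

variable {P} in
/-- Multiplying by a function without zeros or poles on `U`. -/
theorem exists_det_of_div {X Y : Divisor k F} (hX : Divisor.degree X = 0)
    (hY : Divisor.degree Y = 0) (hXU : ∀ u, X (P.U u) = 0) (hYU : ∀ u, Y (P.U u) = 0)
    {g : F} (hg : g ≠ 0) (hdiv : ∀ v : Place k F, v.ord g = Y v - X v) :
    ∃ c : k, c ≠ 0 ∧ ∀ S : Fin P.r → Fin (8 * P.E.M₀),
      (vmat hY S).det = c * ((∏ i, Emb.val (P.U (S i)) g) * (vmat hX S).det) := by
  classical
  obtain ⟨c, hc, h⟩ := exists_det_vmat hY hYU (fun j => g * (P.basisSub hX j : F))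
    (fun j => by
      have h0 : (P.basisSub hX j : F) ≠ 0 := fun e => (P.basisSub hX).ne_zero j (Subtype.ext e)
      refine mem_riemannRochSpace_iff.mpr fun v => Or.inr ?_
      have := (mem_riemannRochSpace_iff.mp (P.basisSub hX j).2 v).resolve_left h0
      rw [Finsupp.sub_apply] at this ⊢
      rw [v.ord_mul hg h0, hdiv]
      omega)
    (((P.basisSub hX).linearIndependent.map'
      (riemannRochSpace (P.E.lev 1 - X)).subtype (Submodule.ker_subtype _)).map'
      (LinearMap.mulLeft k g) (LinearMap.ker_eq_bot.mpr (mul_right_injective₀ hg)))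
  refine ⟨c, hc, fun S => ?_⟩
  rw [h S, ← Matrix.det_mul_column (fun i => Emb.val (P.U (S i)) g) (vmat hX S)]
  congr 2
  ext i j
  rw [Matrix.of_apply, Matrix.of_apply, vmat, Matrix.of_apply]
  refine val_mul ?_ (regular_of_mem hXU (SetLike.coe_mem _) _)
  rw [FF.mem_iff_ord_nonneg, hdiv, hXU, hYU]
  simp

variable {P} in
theorem Theta.val_φ_ne (T : P.Theta) (u : Fin (8 * P.E.M₀)) : Emb.val (P.U u) T.φ ≠ 0 := by
  have h0 : (P.U u).ord T.φ = 0 := by
    rw [T.div, Finsupp.add_apply, T.avoid u, T.avoid' u, add_zero]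
  rw [Ne, Emb.val_eq_zero_iff ((FF.mem_iff_ord_nonneg _).mpr h0.ge)]
  rintro (h | h)
  · exact T.φ_ne h
  · omega

/-- The coordinates depend only on the class, up to a scalar. -/
theorem Theta.exists_coord_eq (T T' : P.Theta) (h : T.cls = T'.cls) :
    ∃ c : k, c ≠ 0 ∧ ∀ S, T'.coord S = c * T.coord S := by
  classical
  have hp := QuotientAddGroup.eq.mp h
  rw [AddSubgroup.mem_addSubgroupOf] at hp
  obtain ⟨g, hg, hgd⟩ := hp
  simp only [AddSubgroup.coe_add, NegMemClass.coe_neg, Finsupp.add_apply, Finsupp.neg_apply] at hgd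
  have hd : ∀ v : Place k F, v.ord g = T'.X v - T.X v := fun v => by rw [← hgd v]; ring
  have hg' : T'.φ / (T.φ * g) ≠ 0 := div_ne_zero T'.φ_ne (mul_ne_zero T.φ_ne hg)
  have hd' : ∀ v : Place k F, v.ord (T'.φ / (T.φ * g)) = T'.X' v - T.X' v := fun v => by
    rw [FF.ord_div v T'.φ_ne (mul_ne_zero T.φ_ne hg), v.ord_mul T.φ_ne hg, T'.div, T.div, hd,
      Finsupp.add_apply, Finsupp.add_apply]
    ring
  obtain ⟨c, hc, h1⟩ := exists_det_of_div T.deg T'.deg T.avoid T'.avoid hg hd
  obtain ⟨c', hc', h2⟩ := exists_det_of_div T.deg' T'.deg' T.avoid' T'.avoid' hg' hd'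
  refine ⟨c * c', mul_ne_zero hc hc', fun S => ?_⟩
  have hval : ∀ u, Emb.val (P.U u) T'.φ =
      Emb.val (P.U u) T.φ * (Emb.val (P.U u) g * Emb.val (P.U u) (T'.φ / (T.φ * g))) := by
    intro u
    have hr : ∀ {x : F}, (P.U u).ord x = 0 → x ∈ (P.U u).toValuationSubring := fun hx =>
      (FF.mem_iff_ord_nonneg _).mpr hx.ge
    have e1 : (P.U u).ord g = 0 := by rw [hd, T.avoid u, T'.avoid u, sub_zero]
    have e2 : (P.U u).ord (T'.φ / (T.φ * g)) = 0 := by
      rw [hd', T.avoid' u, T'.avoid' u, sub_zero]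
    have e3 : (P.U u).ord T.φ = 0 := by
      rw [T.div, Finsupp.add_apply, T.avoid u, T.avoid' u, add_zero]
    rw [← val_mul (hr e1) (hr e2), ← val_mul (hr e3) (mul_mem (hr e1) (hr e2))]
    congr 1
    field_simp [T.φ_ne]
  simp only [Theta.coord]
  rw [h1, h2]
  simp only [hval, Finset.prod_mul_distrib]
  set a := ∏ i, Emb.val (P.U (S.1 i)) g
  set b := ∏ i, Emb.val (P.U (S.1 i)) (T'.φ / (T.φ * g))
  set p := ∏ i, Emb.val (P.U (S.1 i)) T.φ
  have hab : a * b ≠ 0 := by
    have : ∀ i, Emb.val (P.U (S.1 i)) g * Emb.val (P.U (S.1 i)) (T'.φ / (T.φ * g)) ≠ 0 :=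
      fun i e => T'.val_φ_ne (S.1 i) (by rw [hval, e, mul_zero])
    rw [← Finset.prod_mul_distrib]
    exact Finset.prod_ne_zero_iff.mpr fun i _ => this i
  rw [show c * (a * (vmat T.deg S.1).det) * (c' * (b * (vmat T.deg' S.1).det)) =
    (a * b) * (c * c' * ((vmat T.deg S.1).det * (vmat T.deg' S.1).det)) by ring,
    show p * (a * b) = (a * b) * p by ring, mul_div_mul_left _ _ hab, mul_div_assoc]

variable {P} in
/-- The conjugate of a representative by an automorphism fixing `O` and `U`. -/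
def Theta.smulAut (T : P.Theta) (g : SemilinearAut k F) (hU : ∀ u, g • P.U u = P.U u) :
    P.Theta where
  X := g • T.X
  X' := g • T.X'
  deg := by rw [SemilinearAut.degree_smul, T.deg]
  deg' := by rw [SemilinearAut.degree_smul, T.deg']
  φ := g • T.φ
  φ_ne := by simpa using T.φ_ne
  div v := by
    have h := SemilinearAut.ord_smul g (g⁻¹ • v) T.φ
    rw [smul_inv_smul] at h
    rw [h, T.div, ← smul_add, SemilinearAut.divisor_smul_apply]
  avoid u := by
    rw [← hU u, SemilinearAut.divisor_smul_apply_smul]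
    exact T.avoid u
  avoid' u := by
    rw [← hU u, SemilinearAut.divisor_smul_apply_smul]
    exact T.avoid' u

variable {P} in
/-- The minors of the conjugate. -/
theorem exists_det_smul {g : SemilinearAut k F} (hO : g • P.E.O = P.E.O)
    (hU : ∀ u, g • P.U u = P.U u) {X : Divisor k F} (hX : Divisor.degree X = 0)
    (hXU : ∀ u, X (P.U u) = 0) (hX' : Divisor.degree (g • X) = 0) :
    ∃ c : k, c ≠ 0 ∧ ∀ S : Fin P.r → Fin (8 * P.E.M₀),
      (vmat hX' S).det = c * SemilinearAut.baseAut g (vmat hX S).det := by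
  classical
  have hlev : g • P.E.lev 1 = P.E.lev 1 := by
    rw [Emb.lev, SemilinearAut.smul_single, hO]
  obtain ⟨c, hc, h⟩ := exists_det_vmat hX'
    (fun u => by rw [← hU u, SemilinearAut.divisor_smul_apply_smul]; exact hXU u)
    (fun j => g • (P.basisSub hX j : F))
    (fun j => by
      refine mem_riemannRochSpace_iff.mpr fun v => ?_
      rcases mem_riemannRochSpace_iff.mp (P.basisSub hX j).2 (g⁻¹ • v) with h0 | h0
      · exact Or.inl (by rw [h0, smul_zero])
      · refine Or.inr ?_
        have e := SemilinearAut.ord_smul g (g⁻¹ • v) (P.basisSub hX j : F)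
        rw [smul_inv_smul] at e
        rw [e, Finsupp.sub_apply, SemilinearAut.divisor_smul_apply]
        rw [Finsupp.sub_apply] at h0
        have hl : P.E.lev 1 v = P.E.lev 1 (g⁻¹ • v) := by
          rw [← SemilinearAut.divisor_smul_apply, hlev]
        rw [hl]
        exact h0)
    (by
      have hb := (P.basisSub hX).linearIndependent.map'
        (riemannRochSpace (P.E.lev 1 - X)).subtype (Submodule.ker_subtype _)
      rw [linearIndependent_iff'] at hb ⊢
      intro s a ha i hi
      have h1 : ∑ l ∈ s, (SemilinearAut.baseAut g).symm (a l) • (P.basisSub hX l : F) = 0 := by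
        apply smul_left_cancel g
        rw [smul_zero, Finset.smul_sum, ← ha]
        refine Finset.sum_congr rfl fun l _ => ?_
        rw [Algebra.smul_def, Algebra.smul_def, smul_mul', SemilinearAut.smul_algebraMap,
          RingEquiv.apply_symm_apply]
      simpa using hb s _ h1 i hi)
  refine ⟨c, hc, fun S => ?_⟩
  rw [h S]
  congr 1
  have e : SemilinearAut.baseAut g (vmat hX S).det =
      ((SemilinearAut.baseAut g).toRingHom.mapMatrix (vmat hX S)).det :=
    RingHom.map_det (SemilinearAut.baseAut g).toRingHom (vmat hX S)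
  rw [e]
  congr 1
  ext i j
  rw [Matrix.of_apply, RingHom.mapMatrix_apply, Matrix.map_apply, vmat, Matrix.of_apply]
  conv_lhs => rw [← hU (S i)]
  exact val_smul_place (regular_of_mem hXU (SetLike.coe_mem _) _)

variable {P} in
theorem Theta.exists_coord_smulAut (T : P.Theta) {g : SemilinearAut k F}
    (hO : g • P.E.O = P.E.O) (hU : ∀ u, g • P.U u = P.U u) :
    ∃ c : k, c ≠ 0 ∧ ∀ S, (T.smulAut g hU).coord S = c * SemilinearAut.baseAut g (T.coord S) := by
  obtain ⟨c, hc, h1⟩ := exists_det_smul hO hU T.deg T.avoid (T.smulAut g hU).deg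
  obtain ⟨c', hc', h2⟩ := exists_det_smul hO hU T.deg' T.avoid' (T.smulAut g hU).deg'
  refine ⟨c * c', mul_ne_zero hc hc', fun S => ?_⟩
  simp only [Theta.coord]
  have hφ : ∀ i, Emb.val (P.U (S.1 i)) (T.smulAut g hU).φ =
      SemilinearAut.baseAut g (Emb.val (P.U (S.1 i)) T.φ) := fun i => by
    conv_lhs => rw [← hU (S.1 i)]
    refine val_smul_place ((FF.mem_iff_ord_nonneg _).mpr ?_)
    rw [T.div, Finsupp.add_apply, T.avoid, T.avoid', add_zero]
  rw [show (vmat (T.smulAut g hU).deg S.1).det = _ from h1 S.1,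
    show (vmat (T.smulAut g hU).deg' S.1).det = _ from h2 S.1,
    Finset.prod_congr rfl fun i _ => hφ i, map_div₀, map_mul, map_prod]
  ring

/-- Ratios of coordinates of a rational class lie in one number field. -/
theorem exists_coord_div_mem [CharZero k] [Algebra ℚ k] [Algebra.IsAlgebraic ℚ k]
    (ρ : (k ≃ₐ[ℚ] k) →* SemilinearAut k F)
    (hbase : ∀ σ a, SemilinearAut.baseAut (ρ σ) a = σ a)
    (hfin : ∀ x : F, ∃ L : IntermediateField ℚ k, FiniteDimensional ℚ L ∧
      ∀ σ : k ≃ₐ[ℚ] k, (∀ a ∈ L, σ a = a) → ρ σ • x = x) :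
    ∃ L : IntermediateField ℚ k, FiniteDimensional ℚ L ∧
      ∀ T : P.Theta, (∀ σ, ρ σ • T.cls = T.cls) → ∀ S S₀, T.coord S / T.coord S₀ ∈ L := by
  choose L hL hLfix using place_fixed_at_level ρ hfin
  let L₀ : IntermediateField ℚ k := L P.E.O ⊔ ⨆ u, L (P.U u)
  have hfinite : FiniteDimensional ℚ L₀ := by
    haveI : ∀ u : Fin (8 * P.E.M₀), FiniteDimensional ℚ (L (P.U u)) := fun u => hL _
    haveI : FiniteDimensional ℚ (L P.E.O) := hL _
    infer_instance
  haveI : IsAlgClosure ℚ k := ⟨inferInstance, inferInstance⟩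
  haveI : Normal ℚ k := IsAlgClosure.normal ℚ k
  haveI : IsGalois ℚ k := {}
  refine ⟨L₀, hfinite, fun T hT S S₀ => ?_⟩
  rw [← InfiniteGalois.fixedField_fixingSubgroup L₀, IntermediateField.mem_fixedField_iff]
  intro σ hσ
  have hσ' : ∀ a ∈ L₀, σ a = a := fun a ha =>
    (IntermediateField.mem_fixingSubgroup_iff L₀ σ).mp hσ a ha
  have hO : ρ σ • P.E.O = P.E.O := hLfix _ σ fun a ha =>
    hσ' a (le_sup_left (b := ⨆ u, L (P.U u)) ha)
  have hU : ∀ u, ρ σ • P.U u = P.U u := fun u => hLfix _ σ fun a ha =>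
    hσ' a (le_sup_right (a := L P.E.O) (le_iSup (fun u => L (P.U u)) u ha))
  obtain ⟨c, hc, h1⟩ := T.exists_coord_smulAut hO hU
  have hcls : T.cls = (T.smulAut (ρ σ) hU).cls := by
    refine (hT σ).symm.trans ?_
    rw [Theta.cls, SemilinearAut.pic0_smul_mk]
    rfl
  obtain ⟨d, hd, h2⟩ := Theta.exists_coord_eq P T _ hcls
  have key : ∀ S, σ (T.coord S) = d / c * T.coord S := fun S => by
    have h := (h1 S).symm.trans (h2 S)
    rw [hbase] at h
    rw [div_mul_eq_mul_div, ← h, mul_div_cancel_left₀ _ hc]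
  rw [map_div₀, key, key, mul_div_mul_left _ _ (div_ne_zero hd hc)]

end Setup

end Fermat.Agent.MW.Height
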