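import Fermat.Agent.MW.Height.Theta

/-!
# The intrinsic coordinates: finite fibres
-/

set_option autoImplicit false

noncomputable section

open AlgebraicCurve

namespace Fermat.Agent.MW.Height

variable {k F : Type} [Field k] [Field F] [Algebra k F] [IsAlgClosed k] [FF.IsFunctionField k F]

namespace Setup

variable (P : Setup k F)

variable {P} in
/-- The minors with one row moved are the values of one section. -/
theorem exists_minorSection {X : Divisor k F} (hX : Divisor.degree X = 0)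
    (hXU : ∀ u, X (P.U u) = 0) (S : Fin P.r → Fin (8 * P.E.M₀)) (i₀ : Fin P.r) :
    ∃ β ∈ riemannRochSpace (P.E.lev 1 - X),
      ∀ u, Emb.val (P.U u) β = (vmat hX (Function.update S i₀ u)).det := by
  classical
  let z : Fin P.r → k := fun j => (vmat hX S).adjugate j i₀
  refine ⟨∑ j, z j • (P.basisSub hX j : F),
    Submodule.sum_mem _ fun j _ => Submodule.smul_mem _ _ (SetLike.coe_mem _), fun u => ?_⟩
  rw [val_sum_smul _ _ _ fun j => regular_of_mem hXU (SetLike.coe_mem _) _]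
  have hupd : vmat hX (Function.update S i₀ u) =
      (vmat hX S).updateRow i₀ fun j => Emb.val (P.U u) (P.basisSub hX j : F) := by
    ext i j
    rcases eq_or_ne i i₀ with rfl | hi
    · simp [vmat]
    · simp [vmat, hi]
  rw [hupd, ← Matrix.cramer_transpose_apply, Matrix.cramer_eq_adjugate_mulVec,
    ← Matrix.adjugate_transpose]
  simp [Matrix.mulVec, dotProduct, z]

/-- A section of level two is determined by its values at the auxiliary places. -/
theorem eq_of_val_eq {h h' : F} (hh : h ∈ P.E.R 2) (hh' : h' ∈ P.E.R 2)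
    (he : ∀ u, Emb.val (P.U u) h = Emb.val (P.U u) h') : h = h' := by
  classical
  by_contra hne
  have hd0 : h - h' ≠ 0 := sub_ne_zero.mpr hne
  have hd : h - h' ∈ P.E.R 2 := sub_mem hh hh'
  have hreg : ∀ {x : F}, x ∈ P.E.R 2 → ∀ u, x ∈ (P.U u).toValuationSubring := by
    intro x hx u
    rw [FF.mem_iff_ord_nonneg]
    rcases eq_or_ne x 0 with rfl | hx0
    · simp
    have := P.E.sord_nonneg hx hx0 (P.U u)
    rwa [Emb.sord, P.E.lev_apply_ne 2 (P.U_ne u), add_zero] at this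
  have hpos : ∀ u, 1 ≤ P.E.sord (P.U u) 2 (h - h') := by
    intro u
    have hv : Emb.val (P.U u) (h - h') = 0 := by
      have := val_add' (hreg hd u) (hreg hh' u)
      rw [sub_add_cancel, he u] at this
      exact (right_eq_add.mp this)
    rcases (Emb.val_eq_zero_iff (hreg hd u)).mp hv with h0 | h0
    · exact absurd h0 hd0
    · rw [Emb.sord, P.E.lev_apply_ne 2 (P.U_ne u)]; omega
  have h1 := P.E.sum_sord_le hd hd0 (Finset.univ.image P.U)
  rw [Finset.sum_image P.U_inj.injOn] at h1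
  have h2 : (8 * P.E.M₀ : ℕ) • (1 : ℤ) ≤ ∑ u, P.E.sord (P.U u) 2 (h - h') := by
    simpa using Finset.card_nsmul_le_sum Finset.univ _ (1 : ℤ) fun u _ => hpos u
  have := P.E.M₀_pos
  push_cast [nsmul_eq_mul] at h2 h1
  omega

open scoped Classical in
/-- The prescribed values at the auxiliary places. -/
def target (v : P.SIdx → k) (S₀ : P.SIdx) (i₀ : Fin P.r) (u : Fin (8 * P.E.M₀)) : k :=
  if h : Function.Injective (Function.update S₀.1 i₀ u) then v ⟨_, h⟩ else 0

variable {P} in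
/-- The divisor bounding a representative. -/
theorem exists_bound (v : P.SIdx → k) (T : P.Theta) (S₀ : P.SIdx) (hS₀ : T.coord S₀ ≠ 0)
    (hv : ∀ S, T.coord S / T.coord S₀ = v S) (i₀ : Fin P.r) :
    ∃ ψ ∈ P.E.R 2, ψ ≠ 0 ∧ (∀ u, Emb.val (P.U u) ψ = P.target v S₀ i₀ u) ∧
      ∃ E : Divisor k F, 0 ≤ E ∧ (∀ w, E w ≤ P.E.sord w 2 ψ) ∧
        ∃ hE : Divisor.degree (P.E.lev 1 - E) = 0,
          T.cls = Pic0.mk ⟨P.E.lev 1 - E, Divisor.mem_degZero.mpr hE⟩ := by
  classical
  obtain ⟨β, hβ, hβv⟩ := exists_minorSection T.deg T.avoid S₀.1 i₀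
  obtain ⟨β', hβ', hβv'⟩ := exists_minorSection T.deg' T.avoid' S₀.1 i₀
  set q : Fin P.r → k := fun i => Emb.val (P.U (S₀.1 i)) T.φ with hqdef
  set C : k := T.coord S₀ * ∏ i ∈ Finset.univ.erase i₀, q i with hC
  have hC0 : C ≠ 0 := mul_ne_zero hS₀ (Finset.prod_ne_zero_iff.mpr fun i _ => T.val_φ_ne _)
  set ψ : F := algebraMap k F C⁻¹ * (β * β' / T.φ) with hψ
  have hdet : ∀ u, Emb.val (P.U u) ψ = P.target v S₀ i₀ u := by
    intro u
    have hφr : (P.U u).ord T.φ = 0 := by
      rw [T.div, Finsupp.add_apply, T.avoid u, T.avoid' u, add_zero]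
    have hrφ : T.φ⁻¹ ∈ (P.U u).toValuationSubring := by
      rw [FF.mem_iff_ord_nonneg, Place.ord_inv, hφr, neg_zero]
    have hr : T.φ ∈ (P.U u).toValuationSubring := (FF.mem_iff_ord_nonneg _).mpr hφr.ge
    have hinv : Emb.val (P.U u) T.φ⁻¹ = (Emb.val (P.U u) T.φ)⁻¹ := by
      refine eq_inv_of_mul_eq_one_left ?_
      rw [← val_mul hrφ hr, inv_mul_cancel₀ T.φ_ne]
      exact Emb.val_eq (by simp)
    have hb := regular_of_mem T.avoid hβ u
    have hb' := regular_of_mem T.avoid' hβ' u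
    rw [hψ, div_eq_mul_inv, mul_comm (algebraMap k F C⁻¹),
      val_mul_algebraMap (mul_mem (mul_mem hb hb') hrφ), val_mul (mul_mem hb hb') hrφ,
      val_mul hb hb', hβv u, hβv' u, hinv]
    unfold target
    split_ifs with hinj
    · rw [← hv ⟨_, hinj⟩, show T.coord ⟨Function.update S₀.1 i₀ u, hinj⟩ =
        (vmat T.deg (Function.update S₀.1 i₀ u)).det *
          (vmat T.deg' (Function.update S₀.1 i₀ u)).det /
          ∏ i, Emb.val (P.U (Function.update S₀.1 i₀ u i)) T.φ from rfl]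
      have hp : ∏ i, Emb.val (P.U (Function.update S₀.1 i₀ u i)) T.φ =
          Emb.val (P.U u) T.φ * ∏ i ∈ Finset.univ.erase i₀, q i := by
        rw [← Finset.mul_prod_erase _ _ (Finset.mem_univ i₀), Function.update_self]
        congr 1
        exact Finset.prod_congr rfl fun i hi => by
          rw [Function.update_of_ne (Finset.ne_of_mem_erase hi)]
      rw [hp, hC]
      have h1 := T.val_φ_ne u
      have h2 : ∏ i ∈ Finset.univ.erase i₀, q i ≠ 0 :=
        Finset.prod_ne_zero_iff.mpr fun i _ => T.val_φ_ne _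
      field_simp
    · obtain ⟨a, b, hab, hne⟩ : ∃ a b, Function.update S₀.1 i₀ u a =
          Function.update S₀.1 i₀ u b ∧ a ≠ b := by
        simp only [Function.Injective, not_forall] at hinj
        obtain ⟨a, b, h1, h2⟩ := hinj
        exact ⟨a, b, h1, h2⟩
      rw [Matrix.det_zero_of_row_eq (M := vmat T.deg (Function.update S₀.1 i₀ u)) hne
        (funext fun j => by simp [vmat, hab])]
      simp
  have hsame : Function.update S₀.1 i₀ (S₀.1 i₀) = S₀.1 := Function.update_eq_self _ _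
  have hne1 : β ≠ 0 := fun h => by
    have := hβv (S₀.1 i₀)
    rw [h, hsame, Emb.val_eq (a := (0 : k)) (by simp)] at this
    exact hS₀ (by rw [Theta.coord, ← this, zero_mul, zero_div])
  have hne2 : β' ≠ 0 := fun h => by
    have := hβv' (S₀.1 i₀)
    rw [h, hsame, Emb.val_eq (a := (0 : k)) (by simp)] at this
    exact hS₀ (by rw [Theta.coord, ← this, mul_zero, zero_div])
  obtain ⟨D₁, hD₁, hdeg₁⟩ := HasPrincipalDivisors.exists_divisor (K := k) β hne1
  have hψord : ∀ w : Place k F, w.ord ψ = w.ord β + w.ord β' - (T.X w + T.X' w) := fun w => by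
    rw [hψ, w.ord_mul (by simpa using hC0) (div_ne_zero (mul_ne_zero hne1 hne2) T.φ_ne),
      FF.ord_algebraMap, FF.ord_div w (mul_ne_zero hne1 hne2) T.φ_ne, w.ord_mul hne1 hne2,
      T.div, Finsupp.add_apply]
    ring
  have hge1 := fun w => (mem_riemannRochSpace_iff.mp hβ w).resolve_left hne1
  have hge2 := fun w => (mem_riemannRochSpace_iff.mp hβ' w).resolve_left hne2
  have hlev2 : ∀ w, P.E.lev 2 w = P.E.lev 1 w + P.E.lev 1 w := fun w => by
    rw [← Finsupp.add_apply, ← P.E.lev_add]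
  refine ⟨ψ, P.E.mem_R_of_sord fun w => ?_, ?_, hdet, D₁ + P.E.lev 1 - T.X, fun w => ?_,
    fun w => ?_, ?_, ?_⟩
  · have h1 := hge1 w
    have h2 := hge2 w
    rw [Finsupp.sub_apply] at h1 h2
    rw [Emb.sord, hψord, hlev2]
    omega
  · rw [hψ]
    exact mul_ne_zero (by simpa using hC0) (div_ne_zero (mul_ne_zero hne1 hne2) T.φ_ne)
  · have h1 := hge1 w
    simp only [Finsupp.sub_apply, Finsupp.add_apply, Finsupp.coe_zero, Pi.zero_apply, hD₁] at h1 ⊢
    omega
  · have h2 := hge2 w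
    simp only [Finsupp.sub_apply, Finsupp.add_apply, hD₁] at h2 ⊢
    rw [Emb.sord, hψord, hlev2]
    omega
  · rw [map_sub, map_sub, map_add, hdeg₁, T.deg]
    ring
  · rw [Theta.cls]
    refine QuotientAddGroup.eq.mpr ?_
    rw [AddSubgroup.mem_addSubgroupOf]
    refine ⟨β⁻¹, inv_ne_zero hne1, fun w => ?_⟩
    simp [hD₁, Place.ord_inv]
    ring

/-- Finitely many classes have given coordinates. -/
theorem finite_cls_of_coord (v : P.SIdx → k) :
    {x : Pic0 k F | ∃ T : P.Theta, T.cls = x ∧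
      ∃ S₀, T.coord S₀ ≠ 0 ∧ ∀ S, T.coord S / T.coord S₀ = v S}.Finite := by
  classical
  let i₀ : Fin P.r := ⟨0, by have := P.E.le_M₀; unfold Setup.r; omega⟩
  let H : P.SIdx → Set F := fun S₀ =>
    {h | h ∈ P.E.R 2 ∧ h ≠ 0 ∧ ∀ u, Emb.val (P.U u) h = P.target v S₀ i₀ u}
  have hH : ∀ S₀, (H S₀).Finite := fun S₀ =>
    Set.Subsingleton.finite fun h hh h' hh' =>
      P.eq_of_val_eq hh.1 hh'.1 fun u => (hh.2.2 u).trans (hh'.2.2 u).symm
  choose Dv hDv _hdeg using fun (h : {h : F // h ≠ 0}) => P.E.exists_sdiv (e := 2) h.2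
  let cl : Divisor k F → Pic0 k F := fun E =>
    if hE : Divisor.degree (P.E.lev 1 - E) = 0 then
      Pic0.mk ⟨P.E.lev 1 - E, Divisor.mem_degZero.mpr hE⟩ else 0
  refine ((Set.finite_univ (α := P.SIdx)).biUnion (t := fun S₀ =>
    ⋃ h ∈ H S₀, if h0 : h ≠ 0 then cl '' Set.Icc 0 (Dv ⟨h, h0⟩) else ∅)
    fun S₀ _ => (hH S₀).biUnion fun h _ => ?_).subset ?_
  · split_ifs
    · exact (Set.finite_Icc _ _).image _
    · exact Set.finite_empty
  · rintro x ⟨T, rfl, S₀, hS₀, hv⟩
    obtain ⟨ψ, hψ, hψ0, hval, E, hE0, hEle, hEdeg, hEcls⟩ := exists_bound v T S₀ hS₀ hv i₀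
    refine Set.mem_biUnion (Set.mem_univ S₀) (Set.mem_biUnion (x := ψ) ⟨hψ, hψ0, hval⟩ ?_)
    rw [dif_pos hψ0]
    refine ⟨E, ⟨hE0, Finsupp.le_def.mpr fun w => ?_⟩, ?_⟩
    · rw [hDv]; exact hEle w
    · rw [hEcls]; exact dif_pos hEdeg

end Setup

end Fermat.Agent.MW.Height
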