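import Fermat.Agent.FF.Degree
import Fermat.Prelude.Def_AlgebraicCurve_BaseChangeGalois
import Fermat.Agent.MW.Height.Existence
import Fermat.Agent.MW.Height.Link
import Fermat.Agent.MW.Height.LogHeight
import Fermat.Agent.MW.Height.Relation
import Fermat.Agent.MW.Height.Theta
import Fermat.Agent.MW.Height.ThetaFinite
import Mathlib.Order.Northcott
import Mathlib.FieldTheory.IntermediateField.Algebraic

/-!
# A height on the rational classes of degree zero of a curve over an algebraic closure of `ℚ`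

The height of a class is the height of the vector of squares of its normalised theta coordinates.
-/

set_option autoImplicit false

noncomputable section

open AlgebraicCurve

namespace Fermat.Agent.MW.Height

variable {k F : Type} [Field k] [Field F] [Algebra k F]

/-- Riemann–Roch in the non-special range. -/
def NonspecialRR (k F : Type) [Field k] [Field F] [Algebra k F] (g : ℕ) : Prop :=
  ∀ D : Divisor k F, 2 * (g : ℤ) - 1 ≤ Divisor.degree D →
    (Module.finrank k (riemannRochSpace D) : ℤ) = Divisor.degree D + 1 - g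

/-- Classes fixed by a semilinear action. -/
def fixedClasses {G : Type} [Group G] (ρ : G →* SemilinearAut k F) : AddSubgroup (Pic0 k F) where
  carrier := {x | ∀ σ, ρ σ • x = x}
  zero_mem' _ := smul_zero _
  add_mem' ha hb σ := by rw [smul_add, ha σ, hb σ]
  neg_mem' ha σ := by rw [smul_neg, ha σ]

theorem mem_fixedClasses {G : Type} [Group G] {ρ : G →* SemilinearAut k F} {x : Pic0 k F} :
    x ∈ fixedClasses ρ ↔ ∀ σ, ρ σ • x = x := Iff.rfl

/-- Main theorem: a nonnegative height with the approximate parallelogram law and Northcott. -/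
theorem exists_height [CharZero k] [Algebra ℚ k] [Algebra.IsAlgebraic ℚ k] [IsAlgClosed k]
    [FF.IsFunctionField k F] {g : ℕ} (hRR : NonspecialRR k F g)
    (ρ : (k ≃ₐ[ℚ] k) →* SemilinearAut k F)
    (hbase : ∀ σ a, SemilinearAut.baseAut (ρ σ) a = σ a)
    (hfin : ∀ x : F, ∃ L : IntermediateField ℚ k, FiniteDimensional ℚ L ∧
      ∀ σ : k ≃ₐ[ℚ] k, (∀ a ∈ L, σ a = a) → ρ σ • x = x) :
    ∃ h : fixedClasses ρ → ℝ, ∃ C : ℝ, Northcott h ∧ (∀ x, 0 ≤ h x) ∧
      ∀ x y, |h (x + y) + h (x - y) - 2 * (h x + h y)| ≤ C := by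
  classical
  obtain ⟨P⟩ := nonempty_setup k F
  obtain ⟨L, hL, hmem⟩ := P.exists_coord_div_mem ρ hbase hfin
  obtain ⟨C, hC, hpar⟩ := P.exists_parallelogram
  obtain ⟨H, B, hH0, hHfin, hHrel⟩ :=
    exists_height_of_relations L (ι := P.SIdx) (C := C) hC
  -- intrinsic data of every class, with a nonvanishing coordinate
  have hdata : ∀ x : Pic0 k F, ∃ T : P.Theta, T.cls = x ∧ ∃ S₀, T.coord S₀ ≠ 0 := by
    intro x
    obtain ⟨R, hR, -⟩ := Setup.Rep.exists_cls_eq P x ∅
    obtain ⟨T, hT, K, -, hK⟩ := R.exists_theta (Or.inl rfl)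
    obtain ⟨S, hS⟩ := R.exists_coord_ne_zero (Or.inl rfl)
    exact ⟨T, hT.trans hR, S, fun h0 => hS (by rw [hK, h0, mul_zero])⟩
  choose T hT S₀ hS₀ using hdata
  let u : fixedClasses ρ → P.SIdx → L := fun x S =>
    ⟨(T x).coord S / (T x).coord (S₀ x), hmem (T x) (by rw [hT]; exact x.2) S (S₀ x)⟩
  let v : fixedClasses ρ → P.SIdx → L := fun x S => u x S ^ 2
  have hu1 : ∀ x, u x (S₀ x) = 1 := fun x => Subtype.ext (div_self (hS₀ _))
  have hv1 : ∀ x, v x (S₀ x) = 1 := fun x => by simp only [v, hu1, one_pow]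
  have hv0 : ∀ x, v x ≠ 0 := fun x h =>
    one_ne_zero ((hv1 x).symm.trans (congrFun h (S₀ x)))
  -- coordinates of any representative, in terms of the normalised ones
  have hrep : ∀ (q : ℕ) (R : P.Rep q), q = 1 ∨ q = 2 → ∀ x : fixedClasses ρ, R.cls = x →
      ∃ c : k, c ≠ 0 ∧ ∀ w : AbsoluteValue k ℝ, R.msq w = w c * ⨆ S, w (v x S : k) := by
    intro q R hq x hx
    obtain ⟨T', hT', K, hK0, hK⟩ := R.exists_theta hq
    obtain ⟨a, ha0, ha⟩ :=
      Setup.Theta.exists_coord_eq P (T x) T' ((hT x).trans (hx.symm.trans hT'.symm))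
    refine ⟨(K * a * (T x).coord (S₀ x)) ^ 2,
      pow_ne_zero _ (mul_ne_zero (mul_ne_zero hK0 ha0) (hS₀ _)), fun w => ?_⟩
    rw [Setup.Rep.msq, Real.mul_iSup_of_nonneg (AbsoluteValue.nonneg _ _)]
    refine iSup_congr fun S => ?_
    rw [← map_mul]
    refine congrArg w ?_
    show R.coord S ^ 2 = _ * ((T x).coord S / (T x).coord (S₀ x)) ^ 2
    rw [hK, ha, ← mul_pow]
    field_simp [hS₀ x]
  refine ⟨fun x => H (v x), B, ⟨fun b => ?_⟩, fun x => hH0 _, fun x y => ?_⟩
  · -- Northcott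
    have hfv : {z : P.SIdx → L | (∃ i, z i = 1) ∧ H z ≤ b}.Finite := hHfin b
    have hfu : {z : P.SIdx → L | (fun S => z S ^ 2) ∈
        {z : P.SIdx → L | (∃ i, z i = 1) ∧ H z ≤ b}}.Finite := by
      refine (hfv.biUnion fun z _ => Set.Finite.pi fun S : P.SIdx =>
        Polynomial.finite_setOf_isRoot (p := Polynomial.X ^ 2 - Polynomial.C (z S))
          (Polynomial.X_pow_sub_C_ne_zero two_pos _)).subset ?_
      intro z hz
      refine Set.mem_biUnion hz ?_
      rw [Set.mem_univ_pi]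
      intro S
      show Polynomial.IsRoot _ _
      simp [Polynomial.IsRoot]
    refine Set.Finite.of_finite_image ?_ (fun x _ y _ h => Subtype.ext (α := Pic0 k F) h)
      (f := fun x : fixedClasses ρ => (x : Pic0 k F))
    refine (hfu.biUnion fun z _ => P.finite_cls_of_coord fun S => (z S : k)).subset ?_
    rintro _ ⟨x, hx, rfl⟩
    refine Set.mem_biUnion (x := u x) ⟨⟨S₀ x, hv1 x⟩, hx⟩ ⟨T x, hT x, S₀ x, hS₀ x, fun S => rfl⟩
  · -- the parallelogram law
    obtain ⟨R₁, h1, -⟩ := Setup.Rep.exists_cls_eq P (x : Pic0 k F) ∅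
    obtain ⟨R₂, h2, hd⟩ := Setup.Rep.exists_cls_eq P (y : Pic0 k F) (Finset.univ.image R₁.pt)
    obtain ⟨Rp, Rm, hp, hm, κ, hκ⟩ := hpar R₁ R₂ fun i j e =>
      hd j (Finset.mem_image.mpr ⟨i, Finset.mem_univ _, e⟩)
    rw [h1, h2] at hp hm
    obtain ⟨a₁, ha₁, e₁⟩ := hrep 1 R₁ (Or.inl rfl) x h1
    obtain ⟨a₂, ha₂, e₂⟩ := hrep 1 R₂ (Or.inl rfl) y h2
    obtain ⟨ap, hap, ep⟩ := hrep 2 Rp (Or.inr rfl) (x + y) (by rw [hp]; rfl)
    obtain ⟨am, ham, em⟩ := hrep 2 Rm (Or.inr rfl) (x - y) (by rw [hm]; rfl)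
    refine hHrel (v (x + y)) (v (x - y)) (v x) (v y) (hv0 _) (hv0 _) (hv0 _) (hv0 _)
      (κ * (a₁ * a₂) ^ 2 / (ap * am)) fun w => ?_
    obtain ⟨f1, f2⟩ := hκ w
    rw [ep, em, e₁, e₂] at f1 f2
    have hpos : 0 < w ap * w am := mul_pos (AbsoluteValue.pos _ hap) (AbsoluteValue.pos _ ham)
    rw [map_div₀, map_mul, map_pow, map_mul, map_mul]
    have key := mul_div_cancel₀ (w κ * (w a₁ * w a₂) ^ 2) hpos.ne'
    constructor
    · refine le_of_mul_le_mul_left ?_ hpos
      refine ((le_of_eq ?_).trans f1).trans (le_of_eq ?_)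
      · ring
      · linear_combination (-(C w * ((⨆ S, w (v x S : k)) * ⨆ S, w (v y S : k)) ^ 2)) * key
    · refine le_of_mul_le_mul_left ?_ hpos
      refine ((le_of_eq ?_).trans f2).trans (le_of_eq ?_)
      · linear_combination (((⨆ S, w (v x S : k)) * ⨆ S, w (v y S : k)) ^ 2) * key
      · ring

end Fermat.Agent.MW.Height
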