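import Mathlib

/-!
# Transfer of integrality statements to absolute values

If `t` lies in the ideal generated by the `x i` after every specialisation into a local domain
with residue field `k`, then `|t| ≤ C * max |x i|` at every absolute value, with a constant
which is trivial away from finitely many constants.
-/

set_option autoImplicit false

noncomputable section

namespace Fermat.Agent.MW.Height

/-- Every element of the local ring `R` is congruent to a constant modulo the maximal ideal. -/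
class IsKLocal (k R : Type) [Field k] [CommRing R] [Algebra k R] [IsLocalRing R] : Prop where
  exists_residue : ∀ r : R, ∃ c : k, r - algebraMap k R c ∈ IsLocalRing.maximalIdeal R

section PlaceBound

variable {k : Type} [Field k]

/-- A bound attached to finitely many constants: trivial where they are integral. -/
def PlaceBound (C : AbsoluteValue k ℝ → ℝ) : Prop :=
  (∀ w : AbsoluteValue k ℝ, 1 ≤ C w) ∧ ∃ T : Finset k,
    (∀ (w : AbsoluteValue k ℝ) (σ : k ≃+* k), (∀ c ∈ T, σ c = c) →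
      C (w.comp (f := σ.toRingHom) σ.injective) = C w) ∧
    ∀ w : AbsoluteValue k ℝ, IsNonarchimedean w → (∀ c ∈ T, w c ≤ 1) → C w ≤ 1

theorem placeBound_one : PlaceBound (k := k) (fun _ => 1) :=
  ⟨fun _ => le_rfl, ∅, fun _ _ _ => rfl, fun _ _ _ => le_rfl⟩

theorem placeBound_max_one (c : k) : PlaceBound (k := k) (fun w => max 1 (w c)) := by
  refine ⟨fun _ => le_max_left _ _, {c}, fun w σ h => ?_, fun w _ h => ?_⟩
  · show max 1 (w (σ c)) = max 1 (w c)
    rw [h c (Finset.mem_singleton_self c)]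
  · exact max_le le_rfl (h c (Finset.mem_singleton_self c))

theorem PlaceBound.mul {C C' : AbsoluteValue k ℝ → ℝ} (hC : PlaceBound C) (hC' : PlaceBound C') :
    PlaceBound (fun w => C w * C' w) := by
  classical
  obtain ⟨h1, T, hT, hT1⟩ := hC
  obtain ⟨h1', T', hT', hT1'⟩ := hC'
  refine ⟨fun w => one_le_mul_of_one_le_of_one_le (h1 w) (h1' w), T ∪ T', fun w σ h => ?_,
    fun w hw h => ?_⟩
  · show C (w.comp (f := σ.toRingHom) σ.injective) * C' (w.comp (f := σ.toRingHom) σ.injective) = C w * C' w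
    rw [hT w σ fun c hc => h c (Finset.mem_union_left _ hc),
      hT' w σ fun c hc => h c (Finset.mem_union_right _ hc)]
  · exact mul_le_one₀ (hT1 w hw fun c hc => h c (Finset.mem_union_left _ hc))
      (zero_le_one.trans (h1' w)) (hT1' w hw fun c hc => h c (Finset.mem_union_right _ hc))

theorem PlaceBound.pow {C : AbsoluteValue k ℝ → ℝ} (hC : PlaceBound C) :
    ∀ n : ℕ, PlaceBound (fun w => C w ^ n)
  | 0 => by simpa using placeBound_one
  | n + 1 => by simpa [pow_succ] using (hC.pow n).mul hC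

theorem placeBound_prod {ι : Type*} (s : Finset ι) {C : ι → AbsoluteValue k ℝ → ℝ}
    (hC : ∀ i ∈ s, PlaceBound (C i)) : PlaceBound (fun w => ∏ i ∈ s, C i w) := by
  classical
  induction s using Finset.induction with
  | empty => simpa using placeBound_one
  | insert a s ha ih =>
    simpa [Finset.prod_insert ha] using
      (hC a (by simp)).mul (ih fun i hi => hC i (Finset.mem_insert_of_mem hi))

open scoped Classical in
/-- The bound for a sum of two bounded quantities. -/
def addBound (C C' : AbsoluteValue k ℝ → ℝ) (w : AbsoluteValue k ℝ) : ℝ :=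
  if IsNonarchimedean w then max (C w) (C' w) else C w + C' w

theorem PlaceBound.add {C C' : AbsoluteValue k ℝ → ℝ} (hC : PlaceBound C) (hC' : PlaceBound C') :
    PlaceBound (addBound C C') := by
  classical
  obtain ⟨h1, T, hT, hT1⟩ := hC
  obtain ⟨h1', T', hT', hT1'⟩ := hC'
  refine ⟨fun w => ?_, T ∪ T' ∪ {2}, fun w σ h => ?_, fun w hw h => ?_⟩
  · unfold addBound
    split_ifs
    · exact le_max_of_le_left (h1 w)
    · linarith [h1 w, h1' w]
  · have hiff : IsNonarchimedean (w.comp (f := σ.toRingHom) σ.injective) ↔ IsNonarchimedean w := by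
      constructor
      · intro hn a b
        have := hn (σ.symm a) (σ.symm b)
        simpa [AbsoluteValue.comp, ← map_add] using this
      · intro hn a b
        simpa [AbsoluteValue.comp] using hn (σ a) (σ b)
    unfold addBound
    rw [hT w σ fun c hc => h c (by simp [hc]), hT' w σ fun c hc => h c (by simp [hc])]
    simp only [hiff]
  · unfold addBound
    rw [if_pos hw]
    exact max_le (hT1 w hw fun c hc => h c (by simp [hc]))
      (hT1' w hw fun c hc => h c (by simp [hc]))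

theorem apply_add_le_addBound (w : AbsoluteValue k ℝ) {C C' : AbsoluteValue k ℝ → ℝ} {a b : k}
    {M : ℝ} (hM : 0 ≤ M) (ha : w a ≤ C w * M) (hb : w b ≤ C' w * M) :
    w (a + b) ≤ addBound C C' w * M := by
  classical
  unfold addBound
  split_ifs with h
  · refine (h a b).trans (max_le (ha.trans ?_) (hb.trans ?_)) <;> gcongr <;> simp
  · exact (w.add_le a b).trans (by linarith)

end PlaceBound

section PLe

variable {k : Type} [Field k] {Ξ : Type*} (wv : Ξ → AbsoluteValue k ℝ)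

/-- `f ≤ g` up to a place bound. -/
def PLe (f g : Ξ → ℝ) : Prop :=
  ∃ C : AbsoluteValue k ℝ → ℝ, PlaceBound C ∧ ∀ ξ, f ξ ≤ C (wv ξ) * g ξ

/-- `f` and `g` agree up to a place bound. -/
def PEquiv (f g : Ξ → ℝ) : Prop := PLe wv f g ∧ PLe wv g f

variable {wv}

theorem PLe.of_le {f g : Ξ → ℝ} (h : ∀ ξ, f ξ ≤ g ξ) : PLe wv f g :=
  ⟨_, placeBound_one, fun ξ => by simpa using h ξ⟩

theorem PEquiv.of_eq {f g : Ξ → ℝ} (h : ∀ ξ, f ξ = g ξ) : PEquiv wv f g :=
  ⟨.of_le fun ξ => (h ξ).le, .of_le fun ξ => (h ξ).ge⟩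

theorem PLe.trans {f g h : Ξ → ℝ} (h₁ : PLe wv f g) (h₂ : PLe wv g h) : PLe wv f h := by
  obtain ⟨C, hC, hfg⟩ := h₁
  obtain ⟨C', hC', hgh⟩ := h₂
  refine ⟨_, hC.mul hC', fun ξ => (hfg ξ).trans ?_⟩
  rw [mul_assoc]
  exact mul_le_mul_of_nonneg_left (hgh ξ) (zero_le_one.trans (hC.1 _))

theorem PEquiv.symm {f g : Ξ → ℝ} (h : PEquiv wv f g) : PEquiv wv g f := ⟨h.2, h.1⟩

theorem PEquiv.trans {f g h : Ξ → ℝ} (h₁ : PEquiv wv f g) (h₂ : PEquiv wv g h) : PEquiv wv f h :=
  ⟨h₁.1.trans h₂.1, h₂.2.trans h₁.2⟩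

theorem PLe.mul {f g f' g' : Ξ → ℝ} (h : PLe wv f g) (h' : PLe wv f' g') (hf : ∀ ξ, 0 ≤ f' ξ)
    (hg : ∀ ξ, 0 ≤ g ξ) : PLe wv (fun ξ => f ξ * f' ξ) (fun ξ => g ξ * g' ξ) := by
  obtain ⟨C, hC, hfg⟩ := h
  obtain ⟨C', hC', hfg'⟩ := h'
  refine ⟨_, hC.mul hC', fun ξ => ?_⟩
  calc f ξ * f' ξ ≤ (C (wv ξ) * g ξ) * (C' (wv ξ) * g' ξ) :=
        mul_le_mul (hfg ξ) (hfg' ξ) (hf ξ) (mul_nonneg (zero_le_one.trans (hC.1 _)) (hg ξ))
    _ = C (wv ξ) * C' (wv ξ) * (g ξ * g' ξ) := by ring

theorem PEquiv.mul {f g f' g' : Ξ → ℝ} (h : PEquiv wv f g) (h' : PEquiv wv f' g')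
    (hf : ∀ ξ, 0 ≤ f ξ) (hg : ∀ ξ, 0 ≤ g ξ) (hf' : ∀ ξ, 0 ≤ f' ξ) (hg' : ∀ ξ, 0 ≤ g' ξ) :
    PEquiv wv (fun ξ => f ξ * f' ξ) (fun ξ => g ξ * g' ξ) :=
  ⟨h.1.mul h'.1 hf' hg, h.2.mul h'.2 hg' hf⟩

theorem PLe.pow {f g : Ξ → ℝ} (h : PLe wv f g) (hf : ∀ ξ, 0 ≤ f ξ) (n : ℕ) :
    PLe wv (fun ξ => f ξ ^ n) (fun ξ => g ξ ^ n) := by
  obtain ⟨C, hC, hfg⟩ := h
  exact ⟨_, hC.pow n, fun ξ => (pow_le_pow_left₀ (hf ξ) (hfg ξ) n).trans_eq (mul_pow _ _ _)⟩

theorem PEquiv.pow {f g : Ξ → ℝ} (h : PEquiv wv f g) (hf : ∀ ξ, 0 ≤ f ξ) (hg : ∀ ξ, 0 ≤ g ξ)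
    (n : ℕ) : PEquiv wv (fun ξ => f ξ ^ n) (fun ξ => g ξ ^ n) :=
  ⟨h.1.pow hf n, h.2.pow hg n⟩

theorem PEquiv.prod {ι : Type*} (s : Finset ι) {f g : ι → Ξ → ℝ}
    (h : ∀ i ∈ s, PEquiv wv (f i) (g i)) (hf : ∀ i ξ, 0 ≤ f i ξ) (hg : ∀ i ξ, 0 ≤ g i ξ) :
    PEquiv wv (fun ξ => ∏ i ∈ s, f i ξ) (fun ξ => ∏ i ∈ s, g i ξ) := by
  classical
  induction s using Finset.induction with
  | empty => simpa using PEquiv.of_eq fun _ => rfl
  | insert a s ha ih =>
    simpa [Finset.prod_insert ha] using (h a (by simp)).mul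
      (ih fun i hi => h i (Finset.mem_insert_of_mem hi)) (hf a) (hg a)
      (fun ξ => Finset.prod_nonneg fun i _ => hf i ξ) (fun ξ => Finset.prod_nonneg fun i _ => hg i ξ)

theorem PLe.comp {Ξ' : Type*} {f g : Ξ → ℝ} (h : PLe wv f g) (e : Ξ' → Ξ) :
    PLe (fun ξ => wv (e ξ)) (fun ξ => f (e ξ)) (fun ξ => g (e ξ)) :=
  h.imp fun _ hC => ⟨hC.1, fun ξ => hC.2 (e ξ)⟩

theorem PEquiv.comp {Ξ' : Type*} {f g : Ξ → ℝ} (h : PEquiv wv f g) (e : Ξ' → Ξ) :
    PEquiv (fun ξ => wv (e ξ)) (fun ξ => f (e ξ)) (fun ξ => g (e ξ)) :=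
  ⟨h.1.comp e, h.2.comp e⟩

/-- Cases over a finite classification. -/
theorem PLe.of_cases {κ : Type*} [Fintype κ] (cls : Ξ → κ) {f g : Ξ → ℝ} (hg : ∀ ξ, 0 ≤ g ξ)
    (h : ∀ c, PLe (fun ξ : {ξ // cls ξ = c} => wv ξ.1) (fun ξ => f ξ.1) (fun ξ => g ξ.1)) :
    PLe wv f g := by
  classical
  choose C hC hle using h
  refine ⟨fun w => ∏ c, C c w, placeBound_prod _ fun c _ => hC c, fun ξ => (hle _ ⟨ξ, rfl⟩).trans ?_⟩
  refine mul_le_mul_of_nonneg_right ?_ (hg ξ)
  dsimp only
  rw [← Finset.mul_prod_erase _ _ (Finset.mem_univ (cls ξ))]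
  exact le_mul_of_one_le_right (zero_le_one.trans ((hC _).1 _))
    (Finset.one_le_prod fun c _ => (hC c).1 _)

end PLe

section Transfer

variable {k : Type} [Field k] {A : Type} [CommRing A] [Algebra k A]

open Ideal in
/-- The algebraic half: a power of `t` is a strictly lower form in the `x i` and `t`. -/
theorem exists_relation [IsAlgClosed k] [Algebra.FiniteType k A] {ι : Type} [Finite ι]
    (t : A) (x : ι → A)
    (H : ∀ (R : Type) [CommRing R] [IsDomain R] [IsNoetherianRing R] [IsLocalRing R]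
      [Algebra k R] [IsKLocal k R] (χ : A →ₐ[k] R), χ t ∈ span (Set.range fun i => χ (x i))) :
    ∃ N : ℕ, t ^ (N + 1) ∈ span (Set.range x) * span (insert t (Set.range x)) ^ N := by
  classical
  set T : Ideal A := span (insert t (Set.range x)) with hT
  have htT : t ∈ T := subset_span (Set.mem_insert _ _)
  have hxT : ∀ i, x i ∈ T := fun i => subset_span (Set.mem_insert_of_mem _ ⟨i, rfl⟩)
  set L := Localization.Away t
  obtain ⟨u, hu⟩ : ∃ u : L, algebraMap A L t * u = 1 :=
    isUnit_iff_exists_inv.mp (IsLocalization.Away.algebraMap_isUnit t)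
  let φ : MvPolynomial ι A →ₐ[A] L := MvPolynomial.aeval fun i => algebraMap A L (x i) * u
  set J : Ideal (MvPolynomial ι A) := RingHom.ker φ ⊔ span (Set.range MvPolynomial.X) with hJ
  by_cases hJt : J = ⊤
  · have key : ∀ p : MvPolynomial ι A, ∃ N, ∀ M ≥ N, ∃ a ∈ T ^ M,
        φ p * algebraMap A L t ^ M = algebraMap A L a := by
      intro p
      induction p using MvPolynomial.induction_on with
      | C a =>
        exact ⟨0, fun M _ => ⟨a * t ^ M, (T ^ M).mul_mem_left _ (pow_mem_pow htT M), by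
          simp [φ]⟩⟩
      | add p q hp hq =>
        obtain ⟨N, hN⟩ := hp
        obtain ⟨N', hN'⟩ := hq
        refine ⟨max N N', fun M hM => ?_⟩
        obtain ⟨a, ha, e⟩ := hN M (le_of_max_le_left hM)
        obtain ⟨b, hb, e'⟩ := hN' M (le_of_max_le_right hM)
        exact ⟨a + b, add_mem ha hb, by rw [map_add, add_mul, e, e', map_add]⟩
      | mul_X p i hp =>
        obtain ⟨N, hN⟩ := hp
        refine ⟨N + 1, fun M hM => ?_⟩
        obtain ⟨M, rfl⟩ : ∃ M', M = M' + 1 := ⟨M - 1, by omega⟩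
        obtain ⟨a, ha, e⟩ := hN M (by omega)
        refine ⟨a * x i, by rw [pow_succ]; exact mul_mem_mul ha (hxT i), ?_⟩
        rw [map_mul, map_mul, ← e]
        simp only [φ, MvPolynomial.aeval_X, pow_succ]
        linear_combination (MvPolynomial.aeval (fun i => algebraMap A L (x i) * u) p
          * algebraMap A L t ^ M * algebraMap A L (x i)) * hu
    obtain ⟨c, hc, q, hq, hcq⟩ := Submodule.mem_sup.mp
      (show (1 : MvPolynomial ι A) ∈ RingHom.ker φ ⊔ span (Set.range MvPolynomial.X) by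
        rw [← hJ, hJt]; trivial)
    have key2 : ∃ N, ∀ M ≥ N, ∃ a ∈ span (Set.range x) * T ^ M,
        φ q * algebraMap A L t ^ (M + 1) = algebraMap A L a := by
      clear hcq
      induction hq using Submodule.span_induction with
      | mem p hp =>
        obtain ⟨i, rfl⟩ := hp
        refine ⟨0, fun M _ => ⟨x i * t ^ M, mul_mem_mul (subset_span ⟨i, rfl⟩)
          (pow_mem_pow htT M), ?_⟩⟩
        simp only [φ, MvPolynomial.aeval_X, map_mul, map_pow, pow_succ]
        linear_combination (algebraMap A L t ^ M * algebraMap A L (x i)) * hu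
      | zero => exact ⟨0, fun M _ => ⟨0, zero_mem _, by simp⟩⟩
      | add p q _ _ hp hq =>
        obtain ⟨N, hN⟩ := hp
        obtain ⟨N', hN'⟩ := hq
        refine ⟨max N N', fun M hM => ?_⟩
        obtain ⟨a, ha, e⟩ := hN M (le_of_max_le_left hM)
        obtain ⟨b, hb, e'⟩ := hN' M (le_of_max_le_right hM)
        exact ⟨a + b, add_mem ha hb, by rw [map_add, add_mul, e, e', map_add]⟩
      | smul r p _ hp =>
        obtain ⟨N, hN⟩ := hp
        obtain ⟨N', hN'⟩ := key r
        refine ⟨N + N', fun M hM => ?_⟩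
        obtain ⟨M, rfl⟩ : ∃ M', M = M' + N' := ⟨M - N', by omega⟩
        obtain ⟨a, ha, e⟩ := hN M (by omega)
        obtain ⟨b, hb, e'⟩ := hN' N' le_rfl
        refine ⟨a * b, ?_, ?_⟩
        · rw [pow_add, ← mul_assoc]; exact mul_mem_mul ha hb
        · rw [smul_eq_mul, map_mul, map_mul, ← e, ← e']; ring
    obtain ⟨M, hM⟩ := key2
    obtain ⟨a, ha, e⟩ := hM M le_rfl
    have hφq : φ q = 1 := by
      rw [← map_one φ, ← hcq, map_add, RingHom.mem_ker.mp hc, zero_add]
    rw [hφq, one_mul, ← map_pow] at e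
    obtain ⟨⟨_, m, rfl⟩, hm⟩ := (IsLocalization.eq_iff_exists (Submonoid.powers t) L).mp e
    refine ⟨m + M, ?_⟩
    rw [show t ^ (m + M + 1) = t ^ m * t ^ (M + 1) by ring]
    simp only at hm
    rw [hm, add_comm m M, pow_add, ← mul_assoc, mul_comm (t ^ m)]
    exact mul_mem_mul ha (pow_mem_pow htT m)
  · obtain ⟨P, hP, hJP⟩ := exists_le_maximal J hJt
    obtain ⟨q, hq, hqP⟩ := exists_minimalPrimes_le
      (show RingHom.ker φ ≤ P from le_sup_left.trans hJP)
    have hker : RingHom.ker φ ≤ q := hq.le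
    obtain ⟨Q, hQ, -, rfl⟩ := exists_comap_eq_of_mem_minimalPrimes φ.toRingHom (I := ⊥) q hq
    have hCt : MvPolynomial.C t ∉ Q.comap φ.toRingHom := fun h => hQ.ne_top <|
      eq_top_of_isUnit_mem Q (show algebraMap A L t ∈ Q by simpa [φ] using h)
        (IsLocalization.Away.algebraMap_isUnit t)
    set q := Q.comap φ.toRingHom
    let mk : MvPolynomial ι A →ₐ[k] MvPolynomial ι A ⧸ q := Quotient.mkₐ k q
    have hsurj : Function.Surjective mk := Quotient.mkₐ_surjective k q
    let Pd : Ideal (MvPolynomial ι A ⧸ q) := P.map (Ideal.Quotient.mk q)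
    have hqPd : Pd.comap (Ideal.Quotient.mk q) = P := by
      rw [comap_map_of_surjective _ Quotient.mk_surjective, ← RingHom.ker_eq_comap_bot, mk_ker,
        sup_eq_left.mpr hqP]
    have : Pd.IsMaximal := (map_eq_top_or_isMaximal_of_surjective _ Quotient.mk_surjective
      hP).resolve_left fun h => hP.ne_top (by rw [← hqPd]; show Pd.comap _ = ⊤
                                              rw [show Pd = ⊤ from h, comap_top])
    have : IsNoetherianRing A := Algebra.FiniteType.isNoetherianRing k A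
    have : Algebra.FiniteType k (MvPolynomial ι A) :=
      Algebra.FiniteType.trans (S := A) inferInstance inferInstance
    have : Algebra.FiniteType k (MvPolynomial ι A ⧸ q) :=
      Algebra.FiniteType.of_surjective mk hsurj
    let R := Localization.AtPrime Pd
    have : IsNoetherianRing (MvPolynomial ι A ⧸ q) :=
      Algebra.FiniteType.isNoetherianRing k _
    have : IsNoetherianRing R :=
      IsLocalization.isNoetherianRing Pd.primeCompl R inferInstance
    have : IsDomain R :=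
      IsLocalization.isDomain_localization Pd.primeCompl_le_nonZeroDivisors
    have hres : ∀ a : MvPolynomial ι A ⧸ q, ∃ c : k, a - algebraMap k _ c ∈ Pd := by
      let := Ideal.Quotient.field Pd
      have : Algebra.FiniteType k ((MvPolynomial ι A ⧸ q) ⧸ Pd) :=
        Algebra.FiniteType.of_surjective (Quotient.mkₐ k Pd) (Quotient.mkₐ_surjective k Pd)
      have := finite_of_finite_type_of_isJacobsonRing k ((MvPolynomial ι A ⧸ q) ⧸ Pd)
      intro a
      obtain ⟨c, hc⟩ := (IsAlgClosed.algebraMap_bijective_of_isIntegral (k := k)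
        (K := (MvPolynomial ι A ⧸ q) ⧸ Pd)).2 (Ideal.Quotient.mk Pd a)
      refine ⟨c, (Ideal.Quotient.eq).mp ?_⟩
      rw [← hc]
      rfl
    have : IsKLocal k R := by
      refine ⟨fun r => ?_⟩
      obtain ⟨a, s, rfl⟩ := IsLocalization.exists_mk'_eq Pd.primeCompl r
      obtain ⟨ca, hca⟩ := hres a
      obtain ⟨cs, hcs⟩ := hres (s : MvPolynomial ι A ⧸ q)
      have hcs0 : cs ≠ 0 := by
        rintro rfl
        exact s.2 (by simpa using hcs)
      refine ⟨ca / cs, ?_⟩
      have hunit : IsUnit (algebraMap (MvPolynomial ι A ⧸ q) R s) :=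
        IsLocalization.map_units R s
      rw [← unit_mul_mem_iff_mem _ hunit]
      have e : algebraMap (MvPolynomial ι A ⧸ q) R (s : MvPolynomial ι A ⧸ q)
            * (IsLocalization.mk' R a s - algebraMap k R (ca / cs))
          = algebraMap _ R ((a - algebraMap k _ ca)
              - algebraMap k _ (ca / cs) * ((s : MvPolynomial ι A ⧸ q) - algebraMap k _ cs)) := by
        rw [mul_sub, IsLocalization.mk'_spec', IsScalarTower.algebraMap_apply k
          (MvPolynomial ι A ⧸ q) R (ca / cs), ← map_mul, ← map_sub]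
        congr 1
        rw [mul_sub, ← map_mul, div_mul_cancel₀ _ hcs0]
        ring
      rw [e, ← IsLocalization.AtPrime.map_eq_maximalIdeal Pd R]
      exact mem_map_of_mem _ (sub_mem hca (Pd.mul_mem_left _ hcs))
    let χ : A →ₐ[k] R := ((IsScalarTower.toAlgHom k (MvPolynomial ι A ⧸ q) R).comp mk).comp
      (IsScalarTower.toAlgHom k A (MvPolynomial ι A))
    have hX : ∀ i, χ (x i) ∈ IsLocalRing.maximalIdeal R * span {χ t} := by
      intro i
      have hmem : MvPolynomial.C (x i) - MvPolynomial.X i * MvPolynomial.C t ∈ q := hker <| by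
        rw [RingHom.mem_ker]
        simp only [map_sub, map_mul, φ, MvPolynomial.aeval_C, MvPolynomial.aeval_X]
        linear_combination -(algebraMap A L (x i)) * hu
      have e : χ (x i)
          = algebraMap _ R (Ideal.Quotient.mk q (MvPolynomial.X i)) * χ t := by
        show algebraMap _ R (Ideal.Quotient.mk q (MvPolynomial.C (x i))) = _ *
          algebraMap _ R (Ideal.Quotient.mk q (MvPolynomial.C t))
        rw [← map_mul, ← map_mul, Ideal.Quotient.eq.mpr hmem]
      rw [e, ← IsLocalization.AtPrime.map_eq_maximalIdeal Pd R]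
      refine mul_mem_mul (mem_map_of_mem _ ?_) (subset_span rfl)
      exact mem_map_of_mem _ (hJP (mem_sup_right (subset_span ⟨i, rfl⟩)))
    have hH : χ t ∈ span (Set.range fun i => χ (x i)) := by
      have h1 := H R
      exact h1 χ
    have hle : span (Set.range fun i => χ (x i)) ≤ IsLocalRing.maximalIdeal R * span {χ t} := by
      rw [span_le]
      rintro _ ⟨i, rfl⟩
      exact hX i
    have h0 : χ t ∈ IsLocalRing.maximalIdeal R * span {χ t} := hle hH
    rw [mem_mul_span_singleton] at h0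
    obtain ⟨m, hm, hmt⟩ := h0
    have ht0 : χ t = 0 := by
      by_contra hne
      have : m = 1 := mul_right_cancel₀ hne (by rw [hmt, one_mul])
      exact (IsLocalRing.maximalIdeal.isMaximal R).ne_top ((eq_top_iff_one _).mpr (this ▸ hm))
    have hinj : Function.Injective (algebraMap (MvPolynomial ι A ⧸ q) R) :=
      IsLocalization.injective R Pd.primeCompl_le_nonZeroDivisors
    exact absurd (Ideal.Quotient.eq_zero_iff_mem.mp (hinj (ht0.trans (map_zero _).symm))) hCt

variable {Ξ : Type*} (wv : Ξ → AbsoluteValue k ℝ) (χ : Ξ → A →ₐ[k] k)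

/-- `a` is bounded on the family up to a place bound. -/
def BddOn (a : A) : Prop := PLe wv (fun ξ => wv ξ (χ ξ a)) (fun _ => 1)

theorem bddOn_of_mem_adjoin {s : Set A} (h : ∀ a ∈ s, BddOn wv χ a)
    {a : A} (ha : a ∈ Algebra.adjoin k s) : BddOn wv χ a := by
  induction ha using Algebra.adjoin_induction with
  | mem a ha => exact h a ha
  | algebraMap r =>
    exact ⟨_, placeBound_max_one r, fun ξ => by simp⟩
  | add a b _ _ ha hb =>
    obtain ⟨C, hC, hCa⟩ := ha
    obtain ⟨C', hC', hCb⟩ := hb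
    exact ⟨_, hC.add hC', fun ξ => by
      simpa only [map_add] using apply_add_le_addBound _ zero_le_one (hCa ξ) (hCb ξ)⟩
  | mul a b _ _ ha hb =>
    obtain ⟨C, hC, hCa⟩ := ha
    obtain ⟨C', hC', hCb⟩ := hb
    refine ⟨_, hC.mul hC', fun ξ => ?_⟩
    simp only [map_mul]
    calc wv ξ (χ ξ a) * wv ξ (χ ξ b) ≤ (C (wv ξ) * 1) * (C' (wv ξ) * 1) :=
          mul_le_mul (hCa ξ) (hCb ξ) (AbsoluteValue.nonneg _ _)
            (by simpa using zero_le_one.trans (hC.1 _))
      _ = C (wv ξ) * C' (wv ξ) * 1 := by ring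

theorem bddOn_of_adjoin {s : Set A} (hs : Algebra.adjoin k s = ⊤) (h : ∀ a ∈ s, BddOn wv χ a)
    (a : A) : BddOn wv χ a :=
  bddOn_of_mem_adjoin wv χ h (hs ▸ Algebra.mem_top)

/-- The bound from the relation. -/
theorem ple_of_relation {ι : Type} [Finite ι] (hall : ∀ a, BddOn wv χ a) {t : A} {x : ι → A}
    {N : ℕ} (h : t ^ (N + 1) ∈
      Ideal.span (Set.range x) * Ideal.span (insert t (Set.range x)) ^ N) :
    PLe wv (fun ξ => wv ξ (χ ξ t)) (fun ξ => ⨆ i, wv ξ (χ ξ (x i))) := by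
  set M : Ξ → ℝ := fun ξ => ⨆ i, wv ξ (χ ξ (x i)) with hM
  have hMnn : ∀ ξ, 0 ≤ M ξ := fun ξ => Real.iSup_nonneg fun i => AbsoluteValue.nonneg _ _
  have hxM : ∀ i ξ, wv ξ (χ ξ (x i)) ≤ M ξ := fun i ξ =>
    le_ciSup (f := fun i => wv ξ (χ ξ (x i))) (Finite.bddAbove_range _) i
  set S : Ξ → ℝ := fun ξ => max (wv ξ (χ ξ t)) (M ξ) with hS
  have hSnn : ∀ ξ, 0 ≤ S ξ := fun ξ => le_max_of_le_right (hMnn ξ)
  have smul_case : ∀ (g : Ξ → ℝ) (r p : A), PLe wv (fun ξ => wv ξ (χ ξ p)) g →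
      PLe wv (fun ξ => wv ξ (χ ξ (r * p))) g := by
    intro g r p hp
    obtain ⟨C, hC, hr⟩ := hall r
    obtain ⟨C', hC', hp⟩ := hp
    refine ⟨_, hC.mul hC', fun ξ => ?_⟩
    simp only [map_mul]
    calc wv ξ (χ ξ r) * wv ξ (χ ξ p) ≤ (C (wv ξ) * 1) * (C' (wv ξ) * g ξ) :=
          mul_le_mul (hr ξ) (hp ξ) (AbsoluteValue.nonneg _ _)
            (by simpa using zero_le_one.trans (hC.1 _))
      _ = C (wv ξ) * C' (wv ξ) * g ξ := by ring
  have add_case : ∀ (g : Ξ → ℝ), (∀ ξ, 0 ≤ g ξ) → ∀ p q : A,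
      PLe wv (fun ξ => wv ξ (χ ξ p)) g → PLe wv (fun ξ => wv ξ (χ ξ q)) g →
      PLe wv (fun ξ => wv ξ (χ ξ (p + q))) g := by
    intro g hg p q hp hq
    obtain ⟨C, hC, hp⟩ := hp
    obtain ⟨C', hC', hq⟩ := hq
    exact ⟨_, hC.add hC', fun ξ => by
      simpa only [map_add] using apply_add_le_addBound _ (hg ξ) (hp ξ) (hq ξ)⟩
  have span_case : ∀ (g : Ξ → ℝ), (∀ ξ, 0 ≤ g ξ) → ∀ (s : Set A),
      (∀ p ∈ s, PLe wv (fun ξ => wv ξ (χ ξ p)) g) →
      ∀ p ∈ Ideal.span s, PLe wv (fun ξ => wv ξ (χ ξ p)) g := by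
    intro g hg s hs p hp
    induction hp using Submodule.span_induction with
    | mem p hp => exact hs p hp
    | zero => exact PLe.of_le fun ξ => by simpa using hg ξ
    | add p q _ _ hp hq => exact add_case g hg p q hp hq
    | smul r p _ hp => exact smul_case g r p hp
  have pow_case : ∀ n, ∀ a ∈ Ideal.span (insert t (Set.range x)) ^ n,
      PLe wv (fun ξ => wv ξ (χ ξ a)) (fun ξ => S ξ ^ n) := by
    intro n
    induction n with
    | zero => intro a _; simpa [BddOn] using hall a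
    | succ n ih =>
      intro a ha
      rw [pow_succ] at ha
      refine Submodule.mul_induction_on ha (fun p hp q hq => ?_)
        (fun p q hp hq => add_case _ (fun ξ => pow_nonneg (hSnn ξ) _) p q hp hq)
      have hqS := span_case S hSnn (insert t (Set.range x)) (by
        rintro p (rfl | ⟨i, rfl⟩)
        · exact PLe.of_le fun ξ => le_max_left _ _
        · exact PLe.of_le fun ξ => (hxM i ξ).trans (le_max_right _ _)) q hq
      simpa [pow_succ] using (ih p hp).mul hqS (fun ξ => AbsoluteValue.nonneg _ _)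
        (fun ξ => pow_nonneg (hSnn ξ) _)
  have main : PLe wv (fun ξ => wv ξ (χ ξ t) ^ (N + 1)) (fun ξ => M ξ * S ξ ^ N) := by
    have : PLe wv (fun ξ => wv ξ (χ ξ (t ^ (N + 1)))) (fun ξ => M ξ * S ξ ^ N) := by
      refine Submodule.mul_induction_on h (fun p hp q hq => ?_)
        (fun p q hp hq => add_case _ (fun ξ => mul_nonneg (hMnn ξ) (pow_nonneg (hSnn ξ) _))
          p q hp hq)
      simpa using (span_case M hMnn _ (by
        rintro p ⟨i, rfl⟩
        exact PLe.of_le (hxM i)) p hp).mul (pow_case N q hq) (fun ξ => AbsoluteValue.nonneg _ _)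
          hMnn
    simpa using this
  obtain ⟨C, hC, hmain⟩ := main
  refine ⟨C, hC, fun ξ => ?_⟩
  rcases le_or_gt (wv ξ (χ ξ t)) (M ξ) with hle | hlt
  · exact hle.trans (le_mul_of_one_le_left (hMnn ξ) (hC.1 _))
  · have hS' : S ξ = wv ξ (χ ξ t) := max_eq_left hlt.le
    have hpos : 0 < wv ξ (χ ξ t) ^ N := pow_pos ((hMnn ξ).trans_lt hlt) N
    have := hmain ξ
    simp only [hS', pow_succ', ← mul_assoc] at this
    exact le_of_mul_le_mul_right this hpos

/-- **Transfer.** -/
theorem ple_of_forall_mem_span [IsAlgClosed k] [Algebra.FiniteType k A] {ι : Type} [Finite ι]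
    {s : Set A} (hs : Algebra.adjoin k s = ⊤) (hbdd : ∀ a ∈ s, BddOn wv χ a) (t : A) (x : ι → A)
    (H : ∀ (R : Type) [CommRing R] [IsDomain R] [IsNoetherianRing R] [IsLocalRing R]
      [Algebra k R] [IsKLocal k R] (ψ : A →ₐ[k] R),
        ψ t ∈ Ideal.span (Set.range fun i => ψ (x i))) :
    PLe wv (fun ξ => wv ξ (χ ξ t)) (fun ξ => ⨆ i, wv ξ (χ ξ (x i))) := by
  obtain ⟨N, hN⟩ := exists_relation t x H
  exact ple_of_relation wv χ (bddOn_of_adjoin wv χ hs hbdd) hN

end Transfer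

end Fermat.Agent.MW.Height
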