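import Fermat.Agent.MW.Height.Curve

/-!
# Finitely many points over a local domain with a common reduction

The values of all sections at such points are polynomials of degree `< #points` in the values
of one uniformiser.
-/

set_option autoImplicit false

noncomputable section

open AlgebraicCurve IsLocalRing

namespace Fermat.Agent.MW.Height

variable {k F : Type} [Field k] [Field F] [Algebra k F] [IsAlgClosed k] [FF.IsFunctionField k F]
variable {E : Emb k F}

namespace Emb

theorem pow_mem_R (E : Emb k F) {a : ℕ} {h : F} (hh : h ∈ E.R a) :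
    ∀ n : ℕ, h ^ n ∈ E.R (n * a)
  | 0 => by rw [zero_mul]; simpa using E.σ_pow_mem false 0
  | n + 1 => by rw [pow_succ, Nat.succ_mul]; exact E.mul_mem_R (pow_mem_R E hh n) hh

theorem sord_pow (E : Emb k F) {a : ℕ} {h : F} (h0 : h ≠ 0) (v : Place k F) :
    ∀ n : ℕ, E.sord v (n * a) (h ^ n) = n * E.sord v a h
  | 0 => by simp [sord, lev]
  | n + 1 => by
    rw [pow_succ, Nat.succ_mul, E.sord_mul (pow_ne_zero _ h0) h0, sord_pow E h0 v n]
    push_cast; ring

theorem exists_u (E : Emb k F) (Q : Place k F) :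
    ∃ u ∈ E.R 1, u ≠ 0 ∧ E.sord Q 1 u = 1 := by
  obtain ⟨u, hu, h0, -, hQ⟩ := E.exists_sec (e := 1) (Finsupp.single Q 1)
    (Finsupp.single_nonneg.mpr zero_le_one) Q
    (by rw [Divisor.degree_single, place_deg_eq_one]; have := E.le_M₀; push_cast; omega)
  exact ⟨u, hu, h0, by simpa using hQ⟩

/-- A section vanishing exactly at one place, in first order, up to other zeros. -/
def u (E : Emb k F) (Q : Place k F) : F := (E.exists_u Q).choose

theorem u_mem (E : Emb k F) (Q : Place k F) : E.u Q ∈ E.R 1 := (E.exists_u Q).choose_spec.1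

theorem u_ne_zero (E : Emb k F) (Q : Place k F) : E.u Q ≠ 0 := (E.exists_u Q).choose_spec.2.1

theorem sord_u (E : Emb k F) (Q : Place k F) : E.sord Q 1 (E.u Q) = 1 :=
  (E.exists_u Q).choose_spec.2.2

theorem exists_w (E : Emb k F) (Q : Place k F) :
    ∃ w ∈ E.R 2, w ≠ 0 ∧ E.sord Q 2 w = 0 ∧
      ∀ v, v ≠ Q → E.sord v 1 (E.u Q) ≤ E.sord v 2 w := by
  obtain ⟨D, hD, hdeg⟩ := E.exists_sdiv (e := 1) (E.u_ne_zero Q)
  set Z := D - Finsupp.single Q 1 with hZdef
  have hZ : 0 ≤ Z := Finsupp.le_def.mpr fun v => by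
    rw [hZdef, Finsupp.sub_apply, hD]
    rcases eq_or_ne v Q with rfl | hv
    · rw [E.sord_u, Finsupp.single_eq_same]; rfl
    · rw [Finsupp.single_eq_of_ne hv, sub_zero]
      exact E.sord_nonneg (E.u_mem Q) (E.u_ne_zero Q) v
  have hZQ : Z Q = 0 := by rw [hZdef, Finsupp.sub_apply, hD, E.sord_u]; simp
  obtain ⟨w, hw, h0, hge, hQ⟩ := E.exists_sec (e := 2) Z hZ Q (by
    rw [hZdef, map_sub, hdeg, Divisor.degree_single, place_deg_eq_one]
    have := E.le_M₀
    push_cast; omega)
  refine ⟨w, hw, h0, hQ.trans hZQ, fun v hv => ?_⟩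
  have := hge v
  rwa [hZdef, Finsupp.sub_apply, hD, Finsupp.single_eq_of_ne hv, sub_zero] at this

/-- A section clearing the zeros of `u Q` away from `Q`. -/
def w (E : Emb k F) (Q : Place k F) : F := (E.exists_w Q).choose

theorem w_mem (E : Emb k F) (Q : Place k F) : E.w Q ∈ E.R 2 := (E.exists_w Q).choose_spec.1

theorem w_ne_zero (E : Emb k F) (Q : Place k F) : E.w Q ≠ 0 := (E.exists_w Q).choose_spec.2.1

theorem sord_w (E : Emb k F) (Q : Place k F) : E.sord Q 2 (E.w Q) = 0 :=
  (E.exists_w Q).choose_spec.2.2.1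

theorem sord_u_le_sord_w (E : Emb k F) {Q v : Place k F} (hv : v ≠ Q) :
    E.sord v 1 (E.u Q) ≤ E.sord v 2 (E.w Q) := (E.exists_w Q).choose_spec.2.2.2 v hv

open scoped Classical in
/-- The preferred chart of `Q`: the affine one away from `O`. -/
def chart (E : Emb k F) (Q : Place k F) : Bool := if Q = E.O then true else false

theorem inChart_chart (E : Emb k F) (Q : Place k F) : E.InChart Q (E.chart Q) := by
  classical
  unfold chart
  split_ifs with h
  · subst h; simp [InChart, σ, sord, E.ord_O, lev_apply_O]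
  · simp [InChart, σ, sord, lev_apply_ne E _ h]

theorem chart_of_ne (E : Emb k F) {Q : Place k F} (h : Q ≠ E.O) : E.chart Q = false := by
  simp [chart, h]

theorem chart_O (E : Emb k F) : E.chart E.O = true := by
  simp [chart]

end Emb

namespace Pt

variable {R : Type} [CommRing R] [Algebra k R] (P : Pt E R)

theorem sv_congr {a b : ℕ} (hab : a = b) {g : E.R a} {h : E.R b} (he : (g : F) = h) :
    P.sv a g = P.sv b h := by
  subst hab
  rw [Subtype.ext he]

theorem sv_one : P.sv 0 ⟨1, by simpa using E.σ_pow_mem false 0⟩ = 1 := by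
  rw [← P.sv_σsec_self 0]
  exact P.sv_congr rfl (by simp [Emb.σsec])

theorem sv_σsec (c : Bool) : ∀ e : ℕ, P.sv e (E.σsec c e) = P.sv 1 (E.σsec c 1) ^ e
  | 0 => by
    rw [pow_zero, ← P.sv_one]
    exact P.sv_congr rfl (by simp [Emb.σsec])
  | e + 1 => by
    rw [pow_succ, ← sv_σsec c e, ← P.sv_mul]
    exact P.sv_congr rfl (by simp [Emb.σsec, pow_succ])

variable [IsLocalRing R] [IsKLocal k R]

theorem res_sv_σsec_ne {Q : Place k F} (hQ : P.red = Q) {c : Bool} (hc : E.InChart Q c) :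
    res k R (P.sv 1 (E.σsec c 1)) ≠ 0 := by
  rw [Ne, P.res_sv_eq_zero_iff, not_or, hQ]
  refine ⟨by simp [Emb.σsec, E.σ_ne_zero], ?_⟩
  have : E.sord Q 1 (E.σ c) = 0 := hc
  simp [Emb.σsec, this]

/-- The minor of two sections at two points. -/
def minor (P P' : Pt E R) (g h : E.R 1) : R := P.sv 1 g * P'.sv 1 h - P'.sv 1 g * P.sv 1 h

/-- The ideal of the minors: the reciprocal of a distance. -/
def dist (P P' : Pt E R) : Ideal R :=
  Ideal.span (Set.range fun p : Fin (E.dim 1) × Fin (E.dim 1) =>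
    minor P P' (E.bas 1 p.1) (E.bas 1 p.2))

omit [IsLocalRing R] [IsKLocal k R] in
theorem minor_mem_dist (P P' : Pt E R) (g h : E.R 1) : minor P P' g h ∈ dist P P' := by
  have key : ∀ (h : E.R 1) (g : E.R 1),
      minor P P' g h = ∑ a, (E.bas 1).repr g a • minor P P' (E.bas 1 a) h := by
    intro h g
    simp only [minor]
    rw [P.sv_eq_sum 1 g, P'.sv_eq_sum 1 g]
    simp only [smul_sub, Finset.sum_sub_distrib, Finset.sum_mul, smul_mul_assoc]
  have key' : ∀ (g : E.R 1) (h : E.R 1),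
      minor P P' g h = ∑ b, (E.bas 1).repr h b • minor P P' g (E.bas 1 b) := by
    intro g h
    simp only [minor]
    rw [P.sv_eq_sum 1 h, P'.sv_eq_sum 1 h]
    simp only [smul_sub, Finset.sum_sub_distrib, Finset.mul_sum, mul_smul_comm]
  rw [key h g]
  refine sum_mem fun a _ => Submodule.smul_of_tower_mem _ _ ?_
  rw [key' _ h]
  exact sum_mem fun b _ => Submodule.smul_of_tower_mem _ _ (Ideal.subset_span ⟨(a, b), rfl⟩)

omit [IsLocalRing R] [IsKLocal k R] in
theorem dist_comm (P P' : Pt E R) : dist P P' = dist P' P := by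
  apply le_antisymm <;> refine Ideal.span_le.mpr ?_ <;> rintro _ ⟨⟨a, b⟩, rfl⟩
  · have := neg_mem (Ideal.subset_span (α := R) ⟨(a, b), rfl⟩ :
      minor P' P (E.bas 1 a) (E.bas 1 b) ∈ dist P' P)
    simpa [minor, dist] using this
  · have := neg_mem (Ideal.subset_span (α := R) ⟨(a, b), rfl⟩ :
      minor P P' (E.bas 1 a) (E.bas 1 b) ∈ dist P P')
    simpa [minor, dist] using this

omit [IsLocalRing R] [IsKLocal k R] in
theorem dist_self (P : Pt E R) : dist P P = ⊥ := by
  simp [dist, minor, Ideal.span_eq_bot]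

end Pt

section Cluster

variable {R : Type} [CommRing R] [Algebra k R] [IsLocalRing R] [IsKLocal k R]
variable {I : Type} (P : I → Pt E R) (Q : Place k F)

/-- The scaling unit at a point of the cluster. -/
def scale (i : I) : R := Ring.inverse ((P i).sv 1 (E.σsec (E.chart Q) 1))

/-- The values of sections at the points of a cluster, normalised in one chart. -/
def cev (e : ℕ) : E.R e →ₗ[k] (I → R) :=
  LinearMap.pi fun i => (LinearMap.mulRight k (scale P Q i ^ e)).comp ((P i).sv e)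

theorem cev_apply (e : ℕ) (h : E.R e) (i : I) :
    cev P Q e h i = (P i).sv e h * scale P Q i ^ e := rfl

theorem cev_mul {a b : ℕ} (g : E.R a) (h : E.R b) :
    cev P Q (a + b) ⟨(g : F) * h, E.mul_mem_R g.2 h.2⟩ = cev P Q a g * cev P Q b h := by
  ext i
  simp only [Pi.mul_apply, cev_apply, Pt.sv_mul, pow_add]
  ring

theorem cev_congr {a b : ℕ} (hab : a = b) {g : E.R a} {h : E.R b} (he : (g : F) = h) :
    cev P Q a g = cev P Q b h := by
  subst hab
  rw [Subtype.ext he]

theorem cev_pow {a : ℕ} (h : E.R a) :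
    ∀ n : ℕ, cev P Q (n * a) ⟨(h : F) ^ n, E.pow_mem_R h.2 n⟩ = cev P Q a h ^ n
  | 0 => by
    ext i
    refine Eq.trans ?_ (congrFun (pow_zero (cev P Q a h)) i).symm
    rw [Pi.one_apply, cev_apply, show scale P Q i ^ (0 * a) = 1 by simp, mul_one]
    rw [← (P i).sv_one]
    exact (P i).sv_congr (zero_mul a) (by simp)
  | n + 1 => by
    refine Eq.trans ?_ (pow_succ (cev P Q a h) n).symm
    rw [← cev_pow h n, ← cev_mul]
    exact cev_congr P Q (Nat.succ_mul n a) (pow_succ _ _)

variable {Q} (hQ : ∀ i, (P i).red = Q)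
include hQ

theorem sv_chart_mul_scale (i : I) :
    (P i).sv 1 (E.σsec (E.chart Q) 1) * scale P Q i = 1 :=
  Ring.mul_inverse_cancel _ (Pt.isUnit_of_res ((P i).res_sv_σsec_ne (hQ i) (E.inChart_chart Q)))

theorem cev_σsec (e : ℕ) : cev P Q e (E.σsec (E.chart Q) e) = 1 := by
  ext i
  rw [cev_apply, (P i).sv_σsec, ← mul_pow, sv_chart_mul_scale P hQ, one_pow, Pi.one_apply]

theorem res_scale_ne (i : I) : Pt.res k R (scale P Q i) ≠ 0 := by
  intro h
  have := congrArg (Pt.res k R) (sv_chart_mul_scale P hQ i)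
  rw [map_mul, h, mul_zero, map_one] at this
  exact zero_ne_one this

theorem res_cev_eq_zero_iff (e : ℕ) (h : E.R e) (i : I) :
    Pt.res k R (cev P Q e h i) = 0 ↔ (h : F) = 0 ∨ 0 < E.sord Q e h := by
  rw [cev_apply, map_mul, map_pow, mul_eq_zero, or_iff_left (pow_ne_zero _ (res_scale_ne P hQ i)),
    (P i).res_sv_eq_zero_iff, hQ i]

variable (Q)
omit hQ

/-- The `R`-span of all section values on the cluster. -/
def cspan : Submodule R (I → R) :=
  Submodule.span R (Set.range fun p : Σ e, E.R e => cev P Q p.1 p.2)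

/-- The uniformiser on the cluster. -/
def cU : I → R := cev P Q 1 ⟨E.u Q, E.u_mem Q⟩

theorem cev_mem_cspan (e : ℕ) (h : E.R e) : cev P Q e h ∈ cspan P Q :=
  Submodule.subset_span ⟨⟨e, h⟩, rfl⟩

theorem cspan_mul {x y : I → R} (hx : x ∈ cspan P Q) (hy : y ∈ cspan P Q) :
    x * y ∈ cspan P Q := by
  induction hx using Submodule.span_induction with
  | mem x hx =>
    obtain ⟨⟨a, g⟩, rfl⟩ := hx
    induction hy using Submodule.span_induction with
    | mem y hy =>
      obtain ⟨⟨b, h⟩, rfl⟩ := hy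
      rw [← cev_mul]
      exact cev_mem_cspan P Q _ _
    | zero => simp
    | add y z _ _ hy hz => rw [mul_add]; exact add_mem hy hz
    | smul r y _ hy => rw [mul_smul_comm]; exact Submodule.smul_mem _ r hy
  | zero => simp
  | add x z _ _ hx hz => rw [add_mul]; exact add_mem hx hz
  | smul r x _ hx => rw [smul_mul_assoc]; exact Submodule.smul_mem _ r hx

theorem one_mem_cspan : (1 : I → R) ∈ cspan P Q := by
  have := cev_mem_cspan P Q 0 ⟨(((⟨1, by simpa using E.σ_pow_mem false 0⟩ : E.R 0) : F)) ^ 0,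
    by simpa using E.σ_pow_mem false 0⟩
  convert this using 1
  ext i
  simp [cev_apply, (P i).sv_one]

theorem const_mem_cspan (r : R) : (fun _ => r) ∈ cspan P Q := by
  have : (fun _ => r : I → R) = r • (1 : I → R) := by ext; simp
  rw [this]
  exact Submodule.smul_mem _ r (one_mem_cspan P Q)

theorem cU_mem_cspan : cU P Q ∈ cspan P Q := cev_mem_cspan P Q _ _

theorem pow_mem_cspan {x : I → R} (hx : x ∈ cspan P Q) : ∀ n : ℕ, x ^ n ∈ cspan P Q
  | 0 => by simpa using one_mem_cspan P Q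
  | n + 1 => by rw [pow_succ]; exact cspan_mul P Q (pow_mem_cspan hx n) hx

theorem mul_mem_smul_cspan {x y : I → R} (hx : x ∈ maximalIdeal R • cspan P Q)
    (hy : y ∈ cspan P Q) : x * y ∈ maximalIdeal R • cspan P Q := by
  refine Submodule.smul_induction_on hx (fun r hr z hz => ?_) (fun a b ha hb => ?_)
  · rw [smul_mul_assoc]
    exact Submodule.smul_mem_smul hr (cspan_mul P Q hz hy)
  · rw [add_mul]; exact add_mem ha hb

variable [Fintype I]

/-- An element with all components in the maximal ideal is topologically nilpotent. -/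
theorem pow_card_mem {x : I → R} (hx : x ∈ cspan P Q) (hm : ∀ i, x i ∈ maximalIdeal R) :
    x ^ Fintype.card I ∈ maximalIdeal R • cspan P Q := by
  classical
  have key : ∀ s : Finset I, (∏ i ∈ s, (x - fun _ => x i)) - x ^ s.card ∈
      maximalIdeal R • cspan P Q := by
    intro s
    induction s using Finset.induction with
    | empty => simp
    | insert a s ha ih =>
      have hd : (x - fun _ => x a) ∈ cspan P Q := sub_mem hx (const_mem_cspan P Q _)
      have : x ^ s.card * (fun _ => x a) ∈ maximalIdeal R • cspan P Q := by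
        have : x ^ s.card * (fun _ => x a) = x a • x ^ s.card := by ext i; simp [mul_comm]
        rw [this]
        exact Submodule.smul_mem_smul (hm a) (pow_mem_cspan P Q hx _)
      rw [Finset.prod_insert ha, Finset.card_insert_of_notMem ha, pow_succ]
      convert sub_mem (mul_mem_smul_cspan P Q ih hd) this using 1
      ring
  have h0 : (∏ i : I, (x - fun _ => x i)) = 0 := by
    ext j
    rw [Finset.prod_apply]
    exact Finset.prod_eq_zero (Finset.mem_univ j) (by simp)
  have := key Finset.univ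
  rw [h0, zero_sub, Submodule.neg_mem_iff] at this
  exact this

variable {Q}
include hQ

/-- A value which is a unit modulo the maximal ideal is invertible modulo `𝔪 • cspan`. -/
theorem exists_inverse {e : ℕ} (g : E.R e) (hg0 : (g : F) ≠ 0) (hg : E.sord Q e g = 0) :
    ∃ W ∈ cspan P Q, cev P Q e g * W - 1 ∈ maximalIdeal R • cspan P Q := by
  set β : k := Emb.val Q ((g : F) / E.σ (E.chart Q) ^ e) with hβdef
  have hmem : (g : F) / E.σ (E.chart Q) ^ e ∈ Q.toValuationSubring := by
    rw [FF.mem_iff_ord_nonneg, E.ord_div_σ_pow (E.inChart_chart Q) hg0, hg]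
  have hβ : β ≠ 0 := by
    rw [hβdef, Ne, Emb.val_eq_zero_iff hmem, E.ord_div_σ_pow (E.inChart_chart Q) hg0, hg]
    simp [hg0, E.σ_ne_zero]
  set c : I → R := fun _ => algebraMap k R β⁻¹
  set ε : I → R := 1 - cev P Q e g * c with hε
  have hεS : ε ∈ cspan P Q :=
    sub_mem (one_mem_cspan P Q) (cspan_mul P Q (cev_mem_cspan P Q e g) (const_mem_cspan P Q _))
  have hres : ∀ i, Pt.res k R (cev P Q e g i) = β := by
    intro i
    have hh : E.sord Q e g = 0 := hg
    have hz := (res_cev_eq_zero_iff P hQ e (g - β • E.σsec (E.chart Q) e) i).mpr <| by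
      by_cases h0 : ((g - β • E.σsec (E.chart Q) e : E.R e) : F) = 0
      · exact Or.inl h0
      refine Or.inr ?_
      rw [← E.ord_div_σ_pow (E.inChart_chart Q) h0]
      have e1 : ((g - β • E.σsec (E.chart Q) e : E.R e) : F) / E.σ (E.chart Q) ^ e
          = (g : F) / E.σ (E.chart Q) ^ e - algebraMap k F β := by
        simp [Emb.σsec, Algebra.smul_def, sub_div, E.σ_ne_zero]
      rw [e1]
      refine lt_of_lt_of_le one_pos (FF.le_ord_of_mem_ordGE Q (Emb.val_spec hmem) ?_)
      rw [← e1]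
      exact div_ne_zero h0 (pow_ne_zero _ (E.σ_ne_zero _))
    rw [map_sub, map_smul, cev_σsec P hQ, Pi.sub_apply, map_sub, sub_eq_zero] at hz
    rw [hz]
    simp [Pi.smul_apply]
  have hεm : ∀ i, ε i ∈ maximalIdeal R := by
    intro i
    rw [← Pt.res_eq_zero_iff (k := k)]
    simp [hε, c, hres i, hβ]
  have hn := pow_card_mem P Q hεS hεm
  refine ⟨c * ∑ l ∈ Finset.range (Fintype.card I), ε ^ l, cspan_mul P Q (const_mem_cspan P Q _)
    (sum_mem fun l _ => pow_mem_cspan P Q hεS l), ?_⟩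
  have e2 : cev P Q e g * c = 1 - ε := by rw [hε]; ring
  rw [← mul_assoc, e2, mul_comm, geom_sum_mul_neg]
  simpa using neg_mem hn

/-- One step of the expansion in powers of the uniformiser. -/
theorem exists_step {x : I → R} (hx : x ∈ cspan P Q) :
    ∃ r : R, ∃ s ∈ cspan P Q, x - (fun _ => r) - cU P Q * s ∈ maximalIdeal R • cspan P Q := by
  induction hx using Submodule.span_induction with
  | mem x hx =>
    obtain ⟨⟨e, h⟩, rfl⟩ := hx
    set c := E.chart Q
    by_cases hh0 : (h : F) = 0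
    · refine ⟨0, 0, zero_mem _, ?_⟩
      have : h = 0 := Subtype.ext hh0
      subst this
      convert Submodule.zero_mem (maximalIdeal R • cspan P Q) using 1
      ext i; simp
    have hmem : (h : F) / E.σ c ^ e ∈ Q.toValuationSubring := by
      rw [FF.mem_iff_ord_nonneg, E.ord_div_σ_pow (E.inChart_chart Q) hh0]
      exact E.sord_nonneg h.2 hh0 Q
    set β : k := Emb.val Q ((h : F) / E.σ c ^ e)
    set h' : E.R e := h - β • E.σsec c e with hh'
    refine ⟨algebraMap k R β, ?_⟩
    have hsplit : cev P Q e h' = cev P Q e h - fun _ => algebraMap k R β := by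
      rw [hh', map_sub, map_smul, cev_σsec P hQ]
      ext i; simp [Algebra.smul_def]
    by_cases h0 : (h' : F) = 0
    · refine ⟨0, zero_mem _, ?_⟩
      simp only [mul_zero, sub_zero]
      rw [← hsplit, show h' = 0 from Subtype.ext h0, map_zero]
      exact zero_mem _
    have hpos : 0 < E.sord Q e h' := by
      rw [← E.ord_div_σ_pow (E.inChart_chart Q) h0]
      have e1 : (h' : F) / E.σ c ^ e = (h : F) / E.σ c ^ e - algebraMap k F β := by
        simp [hh', Emb.σsec, Algebra.smul_def, sub_div, E.σ_ne_zero]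
      rw [e1]
      refine lt_of_lt_of_le one_pos (FF.le_ord_of_mem_ordGE Q (Emb.val_spec hmem) ?_)
      rw [← e1]
      exact div_ne_zero h0 (pow_ne_zero _ (E.σ_ne_zero _))
    set y : F := (h' : F) * E.w Q / E.u Q with hy
    have hy0 : y ≠ 0 := div_ne_zero (mul_ne_zero h0 (E.w_ne_zero Q)) (E.u_ne_zero Q)
    have hyu : y * E.u Q = (h' : F) * E.w Q := div_mul_cancel₀ _ (E.u_ne_zero Q)
    have hymem : y ∈ E.R (e + 1) := by
      refine E.mem_R_of_sord fun v => ?_
      have h1 := E.sord_mul (a := e + 1) (b := 1) hy0 (E.u_ne_zero Q) v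
      rw [hyu, show e + 1 + 1 = e + 2 from rfl,
        E.sord_mul (a := e) (b := 2) h0 (E.w_ne_zero Q)] at h1
      rcases eq_or_ne v Q with rfl | hv
      · rw [E.sord_w, E.sord_u] at h1
        omega
      · have := E.sord_nonneg h'.2 h0 v
        have := E.sord_u_le_sord_w hv
        omega
    have hev : cev P Q e h' * cev P Q 2 ⟨E.w Q, E.w_mem Q⟩ =
        cU P Q * cev P Q (e + 1) ⟨y, hymem⟩ := by
      rw [mul_comm (cU P Q), cU, ← cev_mul, ← cev_mul]
      exact cev_congr P Q rfl hyu.symm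
    obtain ⟨W, hW, hWm⟩ := exists_inverse P hQ ⟨E.w Q, E.w_mem Q⟩ (E.w_ne_zero Q) (E.sord_w Q)
    refine ⟨cev P Q (e + 1) ⟨y, hymem⟩ * W, cspan_mul P Q (cev_mem_cspan P Q _ _) hW, ?_⟩
    rw [← hsplit, ← mul_assoc, ← hev, mul_assoc,
      show cev P Q e h' - cev P Q e h' * (cev P Q 2 ⟨E.w Q, E.w_mem Q⟩ * W)
        = -((cev P Q 2 ⟨E.w Q, E.w_mem Q⟩ * W - 1) * cev P Q e h') by ring]
    exact neg_mem (mul_mem_smul_cspan P Q hWm (cev_mem_cspan P Q _ _))
  | zero =>
    refine ⟨0, 0, zero_mem _, ?_⟩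
    convert Submodule.zero_mem (maximalIdeal R • cspan P Q) using 1
    ext i; simp
  | add x y _ _ hx hy =>
    obtain ⟨r, s, hs, h⟩ := hx
    obtain ⟨r', s', hs', h'⟩ := hy
    refine ⟨r + r', s + s', add_mem hs hs', ?_⟩
    convert add_mem h h' using 1
    ext i; simp; ring
  | smul a x _ hx =>
    obtain ⟨r, s, hs, h⟩ := hx
    refine ⟨a * r, a • s, Submodule.smul_mem _ a hs, ?_⟩
    convert Submodule.smul_mem _ a h using 1
    ext i; simp; ring

/-- The span of the small powers of the uniformiser. -/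
def powSpan (n : ℕ) : Submodule R (I → R) :=
  Submodule.span R (Set.range fun l : Fin n => cU P Q ^ (l : ℕ))

omit hQ [Fintype I] in
theorem pow_mem_powSpan {n l : ℕ} (hl : l < n) : cU P Q ^ l ∈ powSpan P (Q := Q) n :=
  Submodule.subset_span ⟨⟨l, hl⟩, rfl⟩

theorem exists_expansion {x : I → R} (hx : x ∈ cspan P Q) : ∀ n : ℕ,
    ∃ s ∈ cspan P Q, x - cU P Q ^ n * s ∈ powSpan P (Q := Q) n ⊔ maximalIdeal R • cspan P Q
  | 0 => ⟨x, hx, by simp⟩
  | n + 1 => by
    obtain ⟨s, hs, h⟩ := exists_expansion hx n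
    obtain ⟨r, s', hs', h'⟩ := exists_step P hQ hs
    refine ⟨s', hs', ?_⟩
    have hle : powSpan P (Q := Q) n ≤ powSpan P (Q := Q) (n + 1) := by
      refine Submodule.span_le.mpr ?_
      rintro _ ⟨l, rfl⟩
      exact pow_mem_powSpan P (Nat.lt_succ_of_lt l.2)
    have e : x - cU P Q ^ (n + 1) * s' = (x - cU P Q ^ n * s) + r • cU P Q ^ n
        + (s - (fun _ => r) - cU P Q * s') * cU P Q ^ n := by
      ext i; simp [pow_succ]; ring
    rw [e]
    refine add_mem (add_mem (sup_le_sup_right hle _ h)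
      (Submodule.mem_sup_left (Submodule.smul_mem _ r (pow_mem_powSpan P (Nat.lt_succ_self n))))) ?_
    exact Submodule.mem_sup_right
      (mul_mem_smul_cspan P Q h' (pow_mem_cspan P Q (cU_mem_cspan P Q) _))

theorem cU_mem_maximalIdeal (i : I) : cU P Q i ∈ maximalIdeal R := by
  rw [← Pt.res_eq_zero_iff (k := k), cU, res_cev_eq_zero_iff P hQ]
  exact Or.inr (by show 0 < E.sord Q 1 (E.u Q); rw [E.sord_u]; exact one_pos)

theorem cspan_le_powSpan [IsNoetherianRing R] :
    cspan P Q ≤ powSpan P (Q := Q) (Fintype.card I) := by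
  have hU := pow_card_mem P Q (cU_mem_cspan P Q) (cU_mem_maximalIdeal P hQ)
  refine Submodule.le_of_le_smul_of_le_jacobson_bot (IsNoetherian.noetherian _)
    (IsLocalRing.maximalIdeal_le_jacobson ⊥) fun x hx => ?_
  obtain ⟨s, hs, h⟩ := exists_expansion P hQ hx (Fintype.card I)
  have := add_mem h (Submodule.mem_sup_right (mul_mem_smul_cspan P Q hU hs))
  simpa using this

/-- **Expansion.** Section values on a cluster are polynomials in the uniformiser. -/
theorem exists_coeff [IsNoetherianRing R] (e : ℕ) (h : E.R e) :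
    ∃ G : Fin (Fintype.card I) → R, ∀ i, cev P Q e h i = ∑ l, G l * cU P Q i ^ (l : ℕ) := by
  obtain ⟨G, hG⟩ := (Submodule.mem_span_range_iff_exists_fun R).mp
    (cspan_le_powSpan P hQ (cev_mem_cspan P Q e h))
  exact ⟨G, fun i => by rw [← hG]; simp [Finset.sum_apply]⟩

theorem sub_mem_span_cU [IsNoetherianRing R] (e : ℕ) (h : E.R e) (i j : I) :
    cev P Q e h i - cev P Q e h j ∈ Ideal.span {cU P Q i - cU P Q j} := by
  obtain ⟨G, hG⟩ := exists_coeff P hQ e h
  rw [hG, hG, ← Finset.sum_sub_distrib]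
  refine sum_mem fun l _ => ?_
  rw [← mul_sub]
  exact Ideal.mul_mem_left _ _ (Ideal.mem_span_singleton.mpr (sub_dvd_pow_sub_pow _ _ _))

/-- Two points of a cluster: the minors generate the difference of the uniformiser. -/
theorem dist_eq_span [IsNoetherianRing R] (i j : I) :
    Pt.dist (P i) (P j) = Ideal.span {cU P Q j - cU P Q i} := by
  have hu : ∀ a, IsUnit ((P a).sv 1 (E.σsec (E.chart Q) 1)) := fun a =>
    Pt.isUnit_of_res ((P a).res_sv_σsec_ne (hQ a) (E.inChart_chart Q))
  have hs : ∀ a (g : E.R 1), cev P Q 1 g a = (P a).sv 1 g * scale P Q a := fun a g => by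
    rw [cev_apply, pow_one]
  refine le_antisymm (Ideal.span_le.mpr ?_) ?_
  · rintro _ ⟨⟨a, b⟩, rfl⟩
    have h1 := sub_mem_span_cU P hQ 1 (E.bas 1 a) j i
    have h2 := sub_mem_span_cU P hQ 1 (E.bas 1 b) j i
    have key : cev P Q 1 (E.bas 1 a) i * cev P Q 1 (E.bas 1 b) j
        - cev P Q 1 (E.bas 1 a) j * cev P Q 1 (E.bas 1 b) i ∈
          Ideal.span {cU P Q j - cU P Q i} := by
      have := sub_mem (Ideal.mul_mem_left _ (cev P Q 1 (E.bas 1 a) i) h2)
        (Ideal.mul_mem_left _ (cev P Q 1 (E.bas 1 b) i) h1)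
      convert this using 1
      ring
    show Pt.minor (P i) (P j) (E.bas 1 a) (E.bas 1 b) ∈ _
    rw [hs, hs, hs, hs, show (P i).sv 1 (E.bas 1 a) * scale P Q i * ((P j).sv 1 (E.bas 1 b)
        * scale P Q j) - (P j).sv 1 (E.bas 1 a) * scale P Q j * ((P i).sv 1 (E.bas 1 b)
        * scale P Q i) = (scale P Q i * scale P Q j) *
          Pt.minor (P i) (P j) (E.bas 1 a) (E.bas 1 b) by simp [Pt.minor]; ring] at key
    have := Ideal.mul_mem_left _
      ((P i).sv 1 (E.σsec (E.chart Q) 1) * (P j).sv 1 (E.σsec (E.chart Q) 1)) key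
    rwa [← mul_assoc, show (P i).sv 1 (E.σsec (E.chart Q) 1) * (P j).sv 1 (E.σsec (E.chart Q) 1) *
        (scale P Q i * scale P Q j) = ((P i).sv 1 (E.σsec (E.chart Q) 1) * scale P Q i) *
          ((P j).sv 1 (E.σsec (E.chart Q) 1) * scale P Q j) by ring,
      sv_chart_mul_scale P hQ, sv_chart_mul_scale P hQ, one_mul, one_mul] at this
  · rw [Ideal.span_le, Set.singleton_subset_iff]
    have hm := Ideal.mul_mem_left _ (scale P Q i * scale P Q j)
      (Pt.minor_mem_dist (P i) (P j) (E.σsec (E.chart Q) 1) ⟨E.u Q, E.u_mem Q⟩)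
    refine (congrArg (fun t => t ∈ Pt.dist (P i) (P j)) ?_).mpr hm
    simp only [Pt.minor, cU, hs]
    have e1 := sv_chart_mul_scale P hQ i
    have e2 := sv_chart_mul_scale P hQ j
    linear_combination (-((P j).sv 1 ⟨E.u Q, E.u_mem Q⟩ * scale P Q j)) * e1
      + ((P i).sv 1 ⟨E.u Q, E.u_mem Q⟩ * scale P Q i) * e2

variable [IsDomain R]

theorem coeff_unique (hinj : Function.Injective (cU P Q)) {G G' : Fin (Fintype.card I) → R}
    (h : ∀ i, ∑ l, G l * cU P Q i ^ (l : ℕ) = ∑ l, G' l * cU P Q i ^ (l : ℕ)) : G = G' := by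
  refine sub_eq_zero.mp (Matrix.eq_zero_of_forall_index_sum_mul_pow_eq_zero
    (f := fun a => cU P Q ((Fintype.equivFin I).symm a))
    (hinj.comp (Fintype.equivFin I).symm.injective) fun a => ?_)
  simp only [Pi.sub_apply, sub_mul, Finset.sum_sub_distrib, h, sub_self]

/-- A section all of whose coefficients vanish on reduction has a zero of order `#points`. -/
theorem card_le_sord [IsNoetherianRing R] (hinj : Function.Injective (cU P Q)) {e : ℕ} (h : E.R e)
    (h0 : (h : F) ≠ 0) {G : Fin (Fintype.card I) → R}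
    (hG : ∀ i, cev P Q e h i = ∑ l, G l * cU P Q i ^ (l : ℕ))
    (hGm : ∀ l, G l ∈ maximalIdeal R) : (Fintype.card I : ℤ) ≤ E.sord Q e h := by
  by_contra hlt
  obtain ⟨j, hj⟩ := Int.eq_ofNat_of_zero_le (E.sord_nonneg h.2 h0 Q)
  rw [hj] at hlt
  have hjlt : j < Fintype.card I := by omega
  set y : F := (h : F) * E.w Q ^ j / E.u Q ^ j with hy
  have hy0 : y ≠ 0 := div_ne_zero (mul_ne_zero h0 (pow_ne_zero _ (E.w_ne_zero Q)))
    (pow_ne_zero _ (E.u_ne_zero Q))
  have hyu : y * E.u Q ^ j = (h : F) * E.w Q ^ j :=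
    div_mul_cancel₀ _ (pow_ne_zero _ (E.u_ne_zero Q))
  have hsy : ∀ v, E.sord v (e + j) y + (j : ℤ) * E.sord v 1 (E.u Q)
      = E.sord v e h + (j : ℤ) * E.sord v 2 (E.w Q) := by
    intro v
    rw [← E.sord_pow (a := 1) (E.u_ne_zero Q) v j, ← E.sord_pow (a := 2) (E.w_ne_zero Q) v j,
      ← E.sord_mul hy0 (pow_ne_zero _ (E.u_ne_zero Q)),
      ← E.sord_mul h0 (pow_ne_zero _ (E.w_ne_zero Q)), hyu,
      show e + j + j * 1 = e + j * 2 by ring]
  have hyQ : E.sord Q (e + j) y = 0 := by
    have := hsy Q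
    rw [E.sord_u, E.sord_w, hj] at this
    omega
  have hymem : y ∈ E.R (e + j) := by
    refine E.mem_R_of_sord fun v => ?_
    rcases eq_or_ne v Q with rfl | hv
    · rw [hyQ]
    · have := hsy v
      have := E.sord_nonneg h.2 h0 v
      have := mul_le_mul_of_nonneg_left (E.sord_u_le_sord_w hv) (Int.natCast_nonneg j)
      omega
  have hev : cev P Q e h * cev P Q 2 ⟨E.w Q, E.w_mem Q⟩ ^ j =
      cev P Q (e + j) ⟨y, hymem⟩ * cU P Q ^ j := by
    rw [cU, ← cev_pow, ← cev_pow, ← cev_mul, ← cev_mul]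
    exact cev_congr P Q (by ring) hyu.symm
  have hh : cev P Q e h ∈ maximalIdeal R • cspan P Q := by
    have : cev P Q e h = ∑ l, G l • cU P Q ^ (l : ℕ) := by
      ext i; rw [hG]; simp [Finset.sum_apply]
    rw [this]
    exact sum_mem fun l _ => Submodule.smul_mem_smul (hGm l)
      (pow_mem_cspan P Q (cU_mem_cspan P Q) _)
  obtain ⟨W, hW, hWm⟩ := exists_inverse P hQ ⟨y, hymem⟩ hy0 hyQ
  have hUj : cU P Q ^ j ∈ maximalIdeal R • cspan P Q := by
    have h1 := mul_mem_smul_cspan P Q (mul_mem_smul_cspan P Q hh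
      (pow_mem_cspan P Q (cev_mem_cspan P Q 2 ⟨E.w Q, E.w_mem Q⟩) j)) hW
    have h2 := mul_mem_smul_cspan P Q hWm (pow_mem_cspan P Q (cU_mem_cspan P Q) j)
    convert sub_mem h1 h2 using 1
    rw [hev]
    ring
  have hle : maximalIdeal R • cspan P Q ≤ maximalIdeal R • powSpan P (Q := Q) (Fintype.card I) :=
    Submodule.smul_mono le_rfl (cspan_le_powSpan P hQ)
  have hrep : ∀ z ∈ maximalIdeal R • powSpan P (Q := Q) (Fintype.card I),
      ∃ c : Fin (Fintype.card I) → R, (∀ l, c l ∈ maximalIdeal R) ∧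
        ∀ i, z i = ∑ l, c l * cU P Q i ^ (l : ℕ) := by
    intro z hz
    refine Submodule.smul_induction_on hz (fun r hr x hx => ?_) (fun a b ha hb => ?_)
    · obtain ⟨c, hc⟩ := (Submodule.mem_span_range_iff_exists_fun R).mp hx
      exact ⟨fun l => r * c l, fun l => Ideal.mul_mem_right _ _ hr,
        fun i => by rw [← hc]; simp [Finset.sum_apply, Finset.mul_sum, mul_assoc]⟩
    · obtain ⟨c, hc, ec⟩ := ha
      obtain ⟨d, hd, ed⟩ := hb
      exact ⟨c + d, fun l => add_mem (hc l) (hd l),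
        fun i => by simp [ec, ed, add_mul, Finset.sum_add_distrib]⟩
  obtain ⟨c, hc, ec⟩ := hrep _ (hle hUj)
  classical
  have hu := coeff_unique P hQ hinj (G := c)
    (G' := fun l => if l = ⟨j, hjlt⟩ then 1 else 0) fun i => by
      rw [← ec]; simp [Finset.sum_eq_single (⟨j, hjlt⟩ : Fin (Fintype.card I))]
  have := hc ⟨j, hjlt⟩
  rw [hu] at this
  exact (IsLocalRing.maximalIdeal.isMaximal R).ne_top
    ((Ideal.eq_top_iff_one _).mpr (by simpa using this))

end Cluster

end Fermat.Agent.MW.Height
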