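import Fermat.Agent.MW.Height.Points

/-!
# Transfer for configurations of points and one coefficient vector

A relation between natural expressions which holds, as a relation of ideals, at every
configuration over a local domain with residue field `k` holds at every absolute value up to a
place bound.
-/

set_option autoImplicit false

noncomputable section

open AlgebraicCurve

namespace Fermat.Agent.MW.Height

variable {k F : Type} [Field k] [Field F] [Algebra k F] [IsAlgClosed k] [FF.IsFunctionField k F]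

/-- A natural expression in points indexed by `I` and a coefficient vector of level `e`. -/
structure Expr (E : Emb k F) (I : Type) (e : ℕ) where
  /-- The value at a configuration. -/
  val : ∀ (R : Type) [CommRing R] [Algebra k R], (I → Pt E R) → (Fin (E.dim e) → R) → R
  /-- Naturality. -/
  natural : ∀ (R R' : Type) [CommRing R] [Algebra k R] [CommRing R'] [Algebra k R']
    (ψ : R →ₐ[k] R') (P : I → Pt E R) (c : Fin (E.dim e) → R),
      ψ (val R P c) = val R' (fun i => (P i).map ψ) (fun j => ψ (c j))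
  /-- The degree in the coefficient vector. -/
  deg : ℕ
  /-- Homogeneity, over `k`. -/
  smul : ∀ (P : I → Pt E k) (s : k) (c : Fin (E.dim e) → k),
    val k P (s • c) = s ^ deg * val k P c

namespace Expr

variable {E : Emb k F} {I : Type} {e : ℕ}

/-- The value of an expression at the places `P`, in the charts of `w`. -/
def at' (x : Expr E I e) (w : AbsoluteValue k ℝ) (P : I → Place k F) (c : Fin (E.dim e) → k) : ℝ :=
  w (x.val k (fun i => gpt E w (P i)) c)

/-- Product. -/
def mul (x y : Expr E I e) : Expr E I e where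
  val R _ _ P c := x.val R P c * y.val R P c
  natural R R' _ _ _ _ ψ P c := by rw [map_mul, x.natural, y.natural]
  deg := x.deg + y.deg
  smul P s c := by rw [x.smul, y.smul, pow_add]; ring

/-- Finite product. -/
def prod {ι : Type} (s : Finset ι) (x : ι → Expr E I e) : Expr E I e where
  val R _ _ P c := ∏ i ∈ s, (x i).val R P c
  natural R R' _ _ _ _ ψ P c := by
    rw [map_prod]; exact Finset.prod_congr rfl fun i _ => (x i).natural R R' ψ P c
  deg := ∑ i ∈ s, (x i).deg
  smul P t c := by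
    simp only [(x _).smul, Finset.prod_mul_distrib, Finset.prod_pow_eq_pow_sum]

/-- Power. -/
def pow (x : Expr E I e) (n : ℕ) : Expr E I e where
  val R _ _ P c := x.val R P c ^ n
  natural R R' _ _ _ _ ψ P c := by rw [map_pow, x.natural]
  deg := x.deg * n
  smul P s c := by rw [x.smul, mul_pow, pow_mul]

/-- A point of the configuration, or a constant one. -/
def pt (R : Type) [CommRing R] [Algebra k R] (P : I → Pt E R) : I ⊕ Place k F → Pt E R :=
  Sum.elim P (Pt.cpt E R)

theorem map_pt {R R' : Type} [CommRing R] [Algebra k R] [CommRing R'] [Algebra k R']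
    (ψ : R →ₐ[k] R') (P : I → Pt E R) (l : I ⊕ Place k F) :
    (pt R P l).map ψ = pt R' (fun i => (P i).map ψ) l := by
  cases l
  · rfl
  · exact Pt.map_cpt ψ _

theorem sv_pt {R R' : Type} [CommRing R] [Algebra k R] [CommRing R'] [Algebra k R']
    (ψ : R →ₐ[k] R') (P : I → Pt E R) (l : I ⊕ Place k F) (a : ℕ) (h : E.R a) :
    ψ ((pt R P l).sv a h) = (pt R' (fun i => (P i).map ψ) l).sv a h := by
  rw [← Pt.sv_map, map_pt]

/-- The constant one. -/
def one : Expr E I e where
  val _ _ _ _ _ := 1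
  natural _ _ _ _ _ _ ψ _ _ := map_one ψ
  deg := 0
  smul _ _ _ := by simp

/-- A value of a section. -/
def sv (l : I ⊕ Place k F) (a : ℕ) (h : E.R a) : Expr E I e where
  val R _ _ P _ := (pt R P l).sv a h
  natural R R' _ _ _ _ ψ P _ := sv_pt ψ P l a h
  deg := 0
  smul _ _ _ := by simp

/-- A minor. -/
def minor (l l' : I ⊕ Place k F) (p : Fin (E.dim 1) × Fin (E.dim 1)) : Expr E I e where
  val R _ _ P _ := Pt.minor (pt R P l) (pt R P l') (E.bas 1 p.1) (E.bas 1 p.2)
  natural R R' _ _ _ _ ψ P _ := by simp [Pt.minor, sv_pt ψ P]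
  deg := 0
  smul _ _ _ := by simp

/-- The value of the section with the configuration's coefficients. -/
def lval' (l : I ⊕ Place k F) : Expr E I e where
  val R _ _ P c := lval (pt R P l) e c
  natural R R' _ _ _ _ ψ P c := by simp [lval, sv_pt ψ P]
  deg := 1
  smul P s c := by simp [lval, Finset.mul_sum, mul_assoc]

/-- A determinant of section values. -/
def det {κ : Type} [Fintype κ] [DecidableEq κ] (L : κ → I ⊕ Place k F) (a : ℕ)
    (ε : κ ≃ Fin (E.dim a)) : Expr E I e where
  val R _ _ P _ := (emat (fun i => pt R P (L i)) a ε).det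
  natural R R' _ _ _ _ ψ P _ := by
    rw [AlgHom.map_det]
    congr 1
    ext i j
    exact sv_pt ψ P (L i) a _
  deg := 0
  smul _ _ _ := by simp

end Expr

section Universal

variable (E : Emb k F)

/-- Names for the generators of a chart ring. -/
abbrev Gen (E : Emb k F) : Type := Fin (E.dim 1) ⊕ Fin (E.dim 2)

/-- The generators of a chart ring. -/
def gen (c : Bool) : Gen E → E.B c :=
  Sum.elim (fun j => E.sec c 1 (E.bas 1 j)) (fun j => E.sec c 2 (E.bas 2 j))

theorem adjoin_gen (c : Bool) : Algebra.adjoin k (Set.range (gen E c)) = ⊤ := by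
  apply Subalgebra.map_injective (f := (E.B c).val) Subtype.val_injective
  rw [AlgHom.map_adjoin, Algebra.map_top, Subalgebra.range_val]
  refine congrArg (Algebra.adjoin k) ?_
  rw [← Set.range_comp]
  refine congrArg Set.range (funext fun p => ?_)
  cases p <;> simp [gen, Emb.b]

/-- The presentation of a chart ring. -/
def gmap (c : Bool) : MvPolynomial (Gen E) k →ₐ[k] E.B c := MvPolynomial.aeval (gen E c)

theorem gmap_surjective (c : Bool) : Function.Surjective (gmap E c) := by
  rw [← AlgHom.range_eq_top, ← adjoin_gen E c, gmap, Algebra.adjoin_range_eq_range_aeval]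

variable {I : Type} (e : ℕ) (Z : Set I) (cs : I → Bool) (b : Fin (E.dim e))

/-- Variables of the universal configuration. -/
abbrev CVar (E : Emb k F) (I : Type) (e : ℕ) : Type := (I × Gen E) ⊕ Fin (E.dim e)

/-- The inclusion of the variables of the point `i`. -/
def ren (i : I) : MvPolynomial (Gen E) k →ₐ[k] MvPolynomial (CVar E I e) k :=
  MvPolynomial.rename fun g => Sum.inl (i, g)

/-- A chosen polynomial with the value `y`. -/
def lift' (c : Bool) (y : E.B c) : MvPolynomial (Gen E) k := (gmap_surjective E c y).choose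

theorem gmap_lift' (c : Bool) (y : E.B c) : gmap E c (lift' E c y) = y :=
  (gmap_surjective E c y).choose_spec

/-- The relations of a configuration. -/
def cRel : Ideal (MvPolynomial (CVar E I e) k) :=
  Ideal.span ((⋃ i, ren E e i '' (RingHom.ker (gmap E (cs i)) : Set _))
    ∪ {MvPolynomial.X (Sum.inr b) - 1}
    ∪ ((fun i => ∑ j, MvPolynomial.X (Sum.inr j) *
        ren E e i (lift' E (cs i) (E.sec (cs i) e (E.bas e j)))) '' Z))

/-- The ring of the universal configuration. -/
abbrev CRing : Type := MvPolynomial (CVar E I e) k ⧸ cRel E e Z cs b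

/-- The universal point. -/
def cPt (i : I) : Pt E (CRing E e Z cs b) :=
  ⟨cs i, AlgHom.liftOfSurjective (gmap E (cs i)) (gmap_surjective E (cs i))
    ((Ideal.Quotient.mkₐ k (cRel E e Z cs b)).comp (ren E e i)) fun p hp => by
      show ((Ideal.Quotient.mkₐ k _).comp (ren E e i)) p = 0
      exact Ideal.Quotient.eq_zero_iff_mem.mpr
        (Ideal.subset_span (Or.inl (Or.inl (Set.mem_iUnion.mpr ⟨i, p, hp, rfl⟩))))⟩

theorem cPt_χ (i : I) (p : MvPolynomial (Gen E) k) :
    (cPt E e Z cs b i).χ (gmap E (cs i) p) = Ideal.Quotient.mkₐ k _ (ren E e i p) :=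
  AlgHom.liftOfSurjective_apply _ _ _ _ p

/-- The universal coefficient vector. -/
def cVec (j : Fin (E.dim e)) : CRing E e Z cs b :=
  Ideal.Quotient.mkₐ k _ (MvPolynomial.X (Sum.inr j))

theorem cVec_b : cVec E e Z cs b b = 1 := by
  rw [cVec, ← map_one (Ideal.Quotient.mkₐ k (cRel E e Z cs b))]
  exact Ideal.Quotient.eq.mpr (Ideal.subset_span (Or.inl (Or.inr rfl)))

theorem lval_cPt {i : I} (hi : i ∈ Z) : lval (cPt E e Z cs b i) e (cVec E e Z cs b) = 0 := by
  have h : ∀ j, (cPt E e Z cs b i).sv e (E.bas e j) = Ideal.Quotient.mkₐ k _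
      (ren E e i (lift' E (cs i) (E.sec (cs i) e (E.bas e j)))) := fun j => by
    rw [← cPt_χ, gmap_lift']
    rfl
  simp only [lval, h, cVec, ← map_mul, ← map_sum]
  exact Ideal.Quotient.eq_zero_iff_mem.mpr (Ideal.subset_span (Or.inr ⟨i, hi, rfl⟩))

theorem adjoin_X_eq_top :
    Algebra.adjoin k (Set.range fun v => Ideal.Quotient.mkₐ k (cRel E e Z cs b)
      (MvPolynomial.X v)) = ⊤ := by
  rw [show (fun v => Ideal.Quotient.mkₐ k (cRel E e Z cs b) (MvPolynomial.X v))
      = Ideal.Quotient.mkₐ k (cRel E e Z cs b) ∘ MvPolynomial.X from rfl,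
    Set.range_comp, ← AlgHom.map_adjoin, MvPolynomial.adjoin_range_X, Algebra.map_top,
    AlgHom.range_eq_top]
  exact Ideal.Quotient.mkₐ_surjective k _

end Universal

/-- A family of configurations: an absolute value, places, and coefficients vanishing on `Z`. -/
structure Cfg (E : Emb k F) (I : Type) (e : ℕ) (Z : Set I) (π : Finset ((I ⊕ Place k F) ×
    (I ⊕ Place k F))) where
  w : AbsoluteValue k ℝ
  P : I → Place k F
  c : Fin (E.dim e) → k
  c_ne : c ≠ 0
  zero : ∀ i ∈ Z, lval (gpt E w (P i)) e c = 0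
  distinct : ∀ p ∈ π, Pt.dist (Expr.pt k (fun i => gpt E w (P i)) p.1)
    (Expr.pt k (fun i => gpt E w (P i)) p.2) ≠ ⊥

variable {E : Emb k F} {I : Type} [Fintype I] {e : ℕ} {Z : Set I}
  {π : Finset ((I ⊕ Place k F) × (I ⊕ Place k F))}

/-- The local hypothesis of the transfer. -/
def LocalHyp (E : Emb k F) (I : Type) (e : ℕ) (Z : Set I)
    (π : Finset ((I ⊕ Place k F) × (I ⊕ Place k F)))
    (Q : ∀ (R : Type) [CommRing R] [Algebra k R], (I → Pt E R) → (Fin (E.dim e) → R) → Prop) :
    Prop :=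
  ∀ (R : Type) [CommRing R] [IsDomain R] [IsNoetherianRing R] [IsLocalRing R] [Algebra k R]
    [IsKLocal k R] (P : I → Pt E R) (c : Fin (E.dim e) → R), (∃ j, IsUnit (c j)) →
    (∀ i ∈ Z, lval (P i) e c = 0) →
    (∀ p ∈ π, Pt.dist (Expr.pt R P p.1) (Expr.pt R P p.2) ≠ ⊥) → Q R P c

/-- Transfer, for one expression, in one class of charts and normalisation. -/
theorem config_ple_class {κ : Type} [Finite κ] [Nonempty κ] (t : Expr E I e) (x : κ → Expr E I e)
    (d : ℕ) (ht : t.deg = d) (hx : ∀ i, (x i).deg = d)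
    (H : LocalHyp E I e Z π fun R _ _ P c =>
      t.val R P c ∈ Ideal.span (Set.range fun i => (x i).val R P c))
    (cs : I → Bool) (b : Fin (E.dim e)) {Ξ : Type} (ξ' : Ξ → Cfg E I e Z π)
    (hcs : ∀ η i, E.ch (ξ' η).w ((ξ' η).P i) = cs i)
    (hb : ∀ η j, (ξ' η).w ((ξ' η).c j) ≤ (ξ' η).w ((ξ' η).c b)) :
    PLe (fun η => (ξ' η).w) (fun η => t.at' (ξ' η).w (ξ' η).P (ξ' η).c)
      (fun η => ⨆ i, (x i).at' (ξ' η).w (ξ' η).P (ξ' η).c) := by
  classical
  have hb0 : ∀ η, (ξ' η).c b ≠ 0 := by
    intro η h0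
    apply (ξ' η).c_ne
    funext j
    have := hb η j
    rw [h0, map_zero] at this
    simpa using le_antisymm this (AbsoluteValue.nonneg _ _)
  have hc : ∀ η i, E.InChart ((ξ' η).P i) (cs i) := fun η i => hcs η i ▸ E.inChart_ch _ _
  have hptk : ∀ η i, (⟨cs i, E.evalHom (hc η i)⟩ : Pt E k) = gpt E (ξ' η).w ((ξ' η).P i) := by
    intro η i
    have key : ∀ {c c' : Bool} {Q : Place k F} (h : E.InChart Q c) (h' : E.InChart Q c'),
        c = c' → (⟨c, E.evalHom h⟩ : Pt E k) = ⟨c', E.evalHom h'⟩ := by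
      rintro c c' Q h h' rfl; rfl
    exact key (hc η i) (E.inChart_ch (ξ' η).w ((ξ' η).P i)) (hcs η i).symm
  set nc : Ξ → Fin (E.dim e) → k := fun η => ((ξ' η).c b)⁻¹ • (ξ' η).c with hnc
  let g : Ξ → MvPolynomial (CVar E I e) k →ₐ[k] k := fun η =>
    MvPolynomial.aeval (Sum.elim (fun p => E.evalHom (hc η p.1) (gen E (cs p.1) p.2)) (nc η))
  have hg : ∀ η i p, g η (ren E e i p) = E.evalHom (hc η i) (gmap E (cs i) p) := by
    intro η i p
    rw [show g η (ren E e i p) = ((g η).comp (ren E e i)) p from rfl,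
      show (g η).comp (ren E e i) = (E.evalHom (hc η i)).comp (gmap E (cs i)) from
        MvPolynomial.algHom_ext fun v => by simp [g, ren, gmap]]
    rfl
  have hkill : ∀ η, ∀ p ∈ cRel E e Z cs b, g η p = 0 := by
    intro η p hp
    refine (Ideal.span_le (I := RingHom.ker (g η))).mpr ?_ hp
    rintro q ((hq | hq) | ⟨i, hi, rfl⟩)
    · obtain ⟨i, hq⟩ := Set.mem_iUnion.mp hq
      obtain ⟨q', hq', rfl⟩ := hq
      rw [SetLike.mem_coe, RingHom.mem_ker, hg, RingHom.mem_ker.mp hq', map_zero]
    · rw [Set.mem_singleton_iff] at hq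
      subst hq
      simp [RingHom.mem_ker, g, hnc, inv_mul_cancel₀ (hb0 η)]
    · have h0 := (ξ' η).zero i hi
      rw [← hptk] at h0
      have h1 : ∀ j, g η (MvPolynomial.X (Sum.inr j)) = ((ξ' η).c b)⁻¹ * (ξ' η).c j := fun j => by
        simp [g, hnc]
      simp only [SetLike.mem_coe, RingHom.mem_ker, map_sum, map_mul, hg, gmap_lift', h1, mul_assoc,
        ← Finset.mul_sum]
      exact mul_eq_zero_of_right _ h0
  let χ : Ξ → CRing E e Z cs b →ₐ[k] k := fun η => Ideal.Quotient.liftₐ _ (g η) (hkill η)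
  have hmapPt : ∀ η i, (cPt E e Z cs b i).map (χ η) = gpt E (ξ' η).w ((ξ' η).P i) := by
    intro η i
    rw [← hptk]
    show Pt.mk (cs i) _ = Pt.mk (cs i) _
    refine congrArg (Pt.mk _) (AlgHom.ext fun y => ?_)
    obtain ⟨p, rfl⟩ := gmap_surjective E (cs i) y
    show χ η ((cPt E e Z cs b i).χ _) = _
    rw [cPt_χ]
    exact hg η i p
  have hmapC : ∀ η j, χ η (cVec E e Z cs b j) = nc η j := fun η j => by
    show g η (MvPolynomial.X (Sum.inr j)) = _
    simp [g]
  have hbdd : ∀ a ∈ Set.range fun v => Ideal.Quotient.mkₐ k (cRel E e Z cs b) (MvPolynomial.X v),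
      BddOn (fun η => (ξ' η).w) χ a := by
    rintro _ ⟨⟨i, v⟩ | j, rfl⟩
    · obtain ⟨C, hC, hle⟩ := bddOn_B E (fun η => (ξ' η).w) (fun η => (ξ' η).P i) (cs i)
        (fun η => hc η i) (fun η => by
          have key : ∀ {c : Bool} (h : E.InChart ((ξ' η).P i) c), E.ch (ξ' η).w ((ξ' η).P i) = c →
              (ξ' η).w (E.evalHom h (E.xc c)) ≤ 1 := by
            rintro c h rfl; exact apply_xc_le E _ _
          exact key (hc η i) (hcs η i)) (gen E (cs i) v)
      refine ⟨C, hC, fun η => le_trans (le_of_eq ?_) (hle η)⟩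
      show (ξ' η).w (g η (MvPolynomial.X (Sum.inl (i, v)))) = _
      simp [g]
    · refine PLe.of_le fun η => ?_
      show (ξ' η).w (χ η (cVec E e Z cs b j)) ≤ 1
      rw [hmapC, hnc]
      simp only [Pi.smul_apply, smul_eq_mul, map_mul, map_inv₀]
      rw [inv_mul_le_one₀ ((AbsoluteValue.pos _ (hb0 η)))]
      exact hb η j
  let uP : I → Pt E (CRing E e Z cs b) := cPt E e Z cs b
  let uc := cVec E e Z cs b
  have main : ∀ f : {p // p ∈ π} → Fin (E.dim 1) × Fin (E.dim 1),
      PLe (fun η => (ξ' η).w)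
        (fun η => (ξ' η).w (χ η (t.val _ uP uc
          * ∏ p, (Expr.minor (e := e) p.1.1 p.1.2 (f p)).val _ uP uc)))
        (fun η => ⨆ i, (ξ' η).w (χ η ((x i).val _ uP uc
          * ∏ p, (Expr.minor (e := e) p.1.1 p.1.2 (f p)).val _ uP uc))) := by
    intro f
    refine ple_of_forall_mem_span _ χ (adjoin_X_eq_top E e Z cs b) hbdd _
      (fun i => (x i).val _ uP uc * ∏ p, (Expr.minor (e := e) p.1.1 p.1.2 (f p)).val _ uP uc) ?_
    intro R _ _ _ _ _ _ ψ
    set δ := ψ (∏ p, (Expr.minor (e := e) p.1.1 p.1.2 (f p)).val _ uP uc) with hδ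
    simp only [map_mul, ← hδ]
    rcases eq_or_ne δ 0 with h0 | h0
    · rw [h0, mul_zero]; exact zero_mem _
    · have hmem := H R (fun i => (uP i).map ψ) (fun j => ψ (uc j))
        ⟨b, by show IsUnit (ψ (cVec E e Z cs b b)); rw [cVec_b, map_one]; exact isUnit_one⟩
        (fun i hi => by
          have := congrArg ψ (lval_cPt E e Z cs b hi)
          simpa [lval, uP, uc] using this)
        (fun p hp => fun hbot => h0 (by
          rw [hδ, map_prod]
          refine Finset.prod_eq_zero (Finset.mem_univ ⟨p, hp⟩) ?_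
          rw [(Expr.minor (e := e) p.1 p.2 (f ⟨p, hp⟩)).natural]
          exact (Submodule.mem_bot _).mp (hbot ▸ Pt.minor_mem_dist _ _ _ _)))
      rw [t.natural]
      have : Ideal.span (Set.range fun i => ψ ((x i).val _ uP uc) * δ)
          = Ideal.span (Set.range fun i => (x i).val R (fun i => (uP i).map ψ) fun j => ψ (uc j))
            * Ideal.span {δ} := by
        rw [Ideal.span_mul_span', Set.mul_singleton, ← Set.range_comp]
        simp only [Function.comp_def, (x _).natural]
      rw [this]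
      exact Ideal.mul_mem_mul hmem (Ideal.mem_span_singleton_self _)
  choose C hC hle using main
  refine ⟨fun w => ∏ f, C f w, placeBound_prod _ fun f _ => hC f, fun η => ?_⟩
  have hne : ∀ p : {p // p ∈ π}, ∃ q, (Expr.minor (e := e) p.1.1 p.1.2 q).val k
      (fun i => gpt E (ξ' η).w ((ξ' η).P i)) (nc η) ≠ 0 := by
    intro p
    by_contra hall
    push Not at hall
    apply (ξ' η).distinct p.1 p.2
    rw [Pt.dist, Ideal.span_eq_bot]
    rintro _ ⟨q, rfl⟩
    exact hall q
  choose f hf using hne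
  have h := hle f η
  simp only [map_mul, map_prod] at h
  have hval : ∀ y : Expr E I e, χ η (y.val _ uP uc)
      = y.val k (fun i => gpt E (ξ' η).w ((ξ' η).P i)) (nc η) := by
    intro y
    rw [y.natural]
    congr 1
    · exact funext fun i => hmapPt η i
    · exact funext fun j => hmapC η j
  simp only [hval] at h
  set δ : ℝ := ∏ p : {p // p ∈ π}, (ξ' η).w ((Expr.minor (e := e) p.1.1 p.1.2 (f p)).val k
      (fun i => gpt E (ξ' η).w ((ξ' η).P i)) (nc η)) with hδdef
  have hδ : 0 < δ := Finset.prod_pos fun p _ => AbsoluteValue.pos _ (hf p)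
  rw [← Real.iSup_mul_of_nonneg hδ.le, ← mul_assoc] at h
  have h' := le_of_mul_le_mul_right h hδ
  simp only [hnc, Expr.smul, map_mul, map_pow, ht, hx] at h'
  rw [← Real.mul_iSup_of_nonneg (pow_nonneg (AbsoluteValue.nonneg _ _) _), mul_left_comm] at h'
  refine (le_of_mul_le_mul_left h'
    (pow_pos (AbsoluteValue.pos _ (inv_ne_zero (hb0 η))) _)).trans ?_
  refine mul_le_mul_of_nonneg_right ?_ (Real.iSup_nonneg fun i => AbsoluteValue.nonneg _ _)
  dsimp only
  rw [← Finset.mul_prod_erase _ _ (Finset.mem_univ f)]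
  exact le_mul_of_one_le_right (zero_le_one.trans ((hC f).1 _))
    (Finset.one_le_prod fun f' _ => (hC f').1 _)

omit [IsAlgClosed k] in
theorem exists_argmax (w : AbsoluteValue k ℝ) {n : ℕ} (c : Fin n → k) (hc : c ≠ 0) :
    ∃ b, ∀ j, w (c j) ≤ w (c b) := by
  have hne : (Finset.univ : Finset (Fin n)).Nonempty := by
    by_contra h
    rw [Finset.not_nonempty_iff_eq_empty] at h
    exact hc (funext fun j => absurd (Finset.mem_univ j) (h ▸ Finset.notMem_empty j))
  obtain ⟨b, -, hb⟩ := Finset.univ.exists_max_image (fun j => w (c j)) hne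
  exact ⟨b, fun j => hb j (Finset.mem_univ j)⟩

/-- A coordinate of largest absolute value. -/
def argmax (w : AbsoluteValue k ℝ) {n : ℕ} (c : Fin n → k) (hc : c ≠ 0) : Fin n :=
  (exists_argmax w c hc).choose

theorem le_argmax (w : AbsoluteValue k ℝ) {n : ℕ} (c : Fin n → k) (hc : c ≠ 0) (j : Fin n) :
    w (c j) ≤ w (c (argmax w c hc)) :=
  (exists_argmax w c hc).choose_spec j

/-- **Transfer for configurations.** -/
theorem config_ple {κ : Type} [Finite κ] [Nonempty κ] (t : Expr E I e) (x : κ → Expr E I e)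
    (d : ℕ) (ht : t.deg = d) (hx : ∀ i, (x i).deg = d)
    (H : LocalHyp E I e Z π fun R _ _ P c =>
      t.val R P c ∈ Ideal.span (Set.range fun i => (x i).val R P c)) :
    PLe (fun ξ : Cfg E I e Z π => ξ.w) (fun ξ => t.at' ξ.w ξ.P ξ.c)
      (fun ξ => ⨆ i, (x i).at' ξ.w ξ.P ξ.c) := by
  classical
  refine PLe.of_cases (fun ξ : Cfg E I e Z π =>
      ((fun i => E.ch ξ.w (ξ.P i)), argmax ξ.w ξ.c ξ.c_ne))
    (fun ξ => Real.iSup_nonneg fun i => AbsoluteValue.nonneg _ _) fun ⟨cs, b⟩ => ?_
  exact config_ple_class t x d ht hx H cs b Subtype.val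
    (fun η i => congrFun (congrArg Prod.fst η.2) i) fun η j => by
      have h : argmax η.1.w η.1.c η.1.c_ne = b := congrArg Prod.snd η.2
      exact (le_argmax η.1.w η.1.c η.1.c_ne j).trans
        (le_of_eq (congrArg (fun b => η.1.w (η.1.c b)) h))

/-- Transfer of an equality of ideals. -/
theorem config_equiv {κ κ' : Type} [Finite κ] [Nonempty κ] [Finite κ'] [Nonempty κ']
    (x : κ → Expr E I e) (y : κ' → Expr E I e) (d : ℕ) (hx : ∀ i, (x i).deg = d)
    (hy : ∀ i, (y i).deg = d)
    (H : LocalHyp E I e Z π fun R _ _ P c =>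
      Ideal.span (Set.range fun i => (x i).val R P c)
        = Ideal.span (Set.range fun i => (y i).val R P c)) :
    PEquiv (fun ξ : Cfg E I e Z π => ξ.w) (fun ξ => ⨆ i, (x i).at' ξ.w ξ.P ξ.c)
      (fun ξ => ⨆ i, (y i).at' ξ.w ξ.P ξ.c) := by
  classical
  have main : ∀ {μ ν : Type} [Finite μ] [Nonempty μ] [Finite ν] [Nonempty ν]
      (x : μ → Expr E I e) (y : ν → Expr E I e), (∀ i, (x i).deg = d) → (∀ i, (y i).deg = d) →
      LocalHyp E I e Z π (fun R _ _ P c => Ideal.span (Set.range fun i => (x i).val R P c)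
        ≤ Ideal.span (Set.range fun i => (y i).val R P c)) →
      PLe (fun ξ : Cfg E I e Z π => ξ.w) (fun ξ => ⨆ i, (x i).at' ξ.w ξ.P ξ.c)
        (fun ξ => ⨆ i, (y i).at' ξ.w ξ.P ξ.c) := by
    intro μ ν _ _ _ _ x y hx hy H
    have : Fintype μ := Fintype.ofFinite μ
    have hi := fun i => config_ple (x i) y d (hx i) hy
      (fun R _ _ _ _ _ _ P c h1 h2 h3 => H R P c h1 h2 h3 (Ideal.subset_span ⟨i, rfl⟩))
    choose C hC hle using hi
    refine ⟨fun w => ∏ i, C i w, placeBound_prod _ fun i _ => hC i, fun ξ => ?_⟩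
    refine ciSup_le fun i => (hle i ξ).trans ?_
    refine mul_le_mul_of_nonneg_right ?_ (Real.iSup_nonneg fun i => AbsoluteValue.nonneg _ _)
    dsimp only
    rw [← Finset.mul_prod_erase _ _ (Finset.mem_univ i)]
    exact le_mul_of_one_le_right (zero_le_one.trans ((hC i).1 _))
      (Finset.one_le_prod fun i' _ => (hC i').1 _)
  exact ⟨main x y hx hy fun R _ _ _ _ _ _ P c h1 h2 h3 => (H R P c h1 h2 h3).le,
    main y x hy hx fun R _ _ _ _ _ _ P c h1 h2 h3 => (H R P c h1 h2 h3).ge⟩

end Fermat.Agent.MW.Height
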