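import Fermat.Agent.FF.RiemannRoch
import Fermat.Agent.MW.Height.Bound

/-!
# The embedded curve: sections of multiples of a point, charts, points over local rings
-/

set_option autoImplicit false

noncomputable section

open AlgebraicCurve

namespace Fermat.Agent.MW.Height

variable (k F : Type) [Field k] [Field F] [Algebra k F]

/-- A point `O` with a function `f` having its only pole there, of large order `M₀`. -/
structure Emb [FF.IsFunctionField k F] where
  O : Place k F
  M₀ : ℕ
  le_M₀ : 2 * genusFF k F + 2 ≤ M₀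
  f : F
  ord_O : O.ord f = -(M₀ : ℤ)
  ord_nonneg : ∀ v, v ≠ O → 0 ≤ v.ord f

variable {k F}
variable [IsAlgClosed k] [FF.IsFunctionField k F]

theorem place_deg_eq_one (v : Place k F) : v.deg = 1 := v.deg_eq_one_of_isAlgClosed_of_finite

theorem degree_eq_sum (D : Divisor k F) : Divisor.degree D = D.sum fun _ n => n := by
  simp [Divisor.degree, place_deg_eq_one, Finsupp.liftAddHom_apply, AddMonoidHom.mulRight]

theorem exists_mem_diff {D : Divisor k F} (v : Place k F)
    (hD : 2 * (genusFF k F : ℤ) - 2 < Divisor.degree D - 1) :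
    ∃ h ∈ riemannRochSpace D, h ≠ 0 ∧ v.ord h = -D v := by
  set D' := D - Finsupp.single v 1 with hD'
  have hdeg : Divisor.degree D' = Divisor.degree D - 1 := by
    rw [hD', map_sub, Divisor.degree_single, place_deg_eq_one]; simp
  have hlt : riemannRochSpace D' < riemannRochSpace D := by
    refine lt_of_le_of_ne (FF.riemannRochSpace_mono ?_) fun he => ?_
    · exact sub_le_self _ (Finsupp.single_nonneg.mpr zero_le_one)
    · have h1 := FF.finrank_riemannRochSpace_of_lt_degree (D := D) (by omega)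
      have h2 := FF.finrank_riemannRochSpace_of_lt_degree (D := D') (by omega)
      rw [he] at h2
      omega
  obtain ⟨h, hh, hh'⟩ := SetLike.exists_of_lt hlt
  have h0 : h ≠ 0 := fun e => hh' (e ▸ zero_mem _)
  refine ⟨h, hh, h0, ?_⟩
  have hge := (mem_riemannRochSpace_iff.mp hh v).resolve_left h0
  by_contra hne
  refine hh' (mem_riemannRochSpace_iff.mpr fun w => Or.inr ?_)
  rw [hD', Finsupp.sub_apply]
  rcases eq_or_ne w v with rfl | hw
  · rw [Finsupp.single_eq_same]
    omega
  · rw [Finsupp.single_eq_of_ne hw]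
    simpa using (mem_riemannRochSpace_iff.mp hh w).resolve_left h0

variable (k F) in
theorem nonempty_emb : Nonempty (Emb k F) := by
  obtain ⟨O⟩ := FF.instNonemptyPlace (K := k) (F := F)
  set M := 2 * genusFF k F + 2
  obtain ⟨f, hf, hf0, hord⟩ := exists_mem_diff (D := Finsupp.single O (M : ℤ)) O (by
    rw [Divisor.degree_single, place_deg_eq_one]; simp only [M]; push_cast; omega)
  refine ⟨⟨O, M, le_rfl, f, by simpa using hord, fun v hv => ?_⟩⟩
  simpa [Finsupp.single_eq_of_ne hv] using (mem_riemannRochSpace_iff.mp hf v).resolve_left hf0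

namespace Emb

variable (E : Emb k F)

theorem M₀_pos : 0 < E.M₀ := by have := E.le_M₀; omega

theorem f_ne_zero : E.f ≠ 0 := fun h => by
  have := E.ord_O
  have := E.M₀_pos
  simp [h] at *
  omega

/-- The divisor `e • M₀ • O`. -/
def lev (e : ℕ) : Divisor k F := Finsupp.single E.O ((e * E.M₀ : ℕ) : ℤ)

theorem lev_apply_O (e : ℕ) : E.lev e E.O = (e : ℤ) * E.M₀ := by simp [lev]

theorem lev_apply_ne (e : ℕ) {v : Place k F} (h : v ≠ E.O) : E.lev e v = 0 := by
  simp [lev, Finsupp.single_eq_of_ne h]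

theorem degree_lev (e : ℕ) : Divisor.degree (E.lev e) = (e : ℤ) * E.M₀ := by
  rw [lev, Divisor.degree_single, place_deg_eq_one]; push_cast; ring

/-- The sections of level `e`. -/
abbrev R (e : ℕ) : Submodule k F := riemannRochSpace (E.lev e)

theorem mem_R {e : ℕ} {h : F} : h ∈ E.R e ↔ ∀ v, h = 0 ∨ -E.lev e v ≤ v.ord h :=
  mem_riemannRochSpace_iff

/-- The order of a section of level `e` at a place. -/
def sord (v : Place k F) (e : ℕ) (h : F) : ℤ := v.ord h + E.lev e v

theorem sord_nonneg {e : ℕ} {h : F} (hh : h ∈ E.R e) (h0 : h ≠ 0) (v : Place k F) :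
    0 ≤ E.sord v e h := by
  have := (E.mem_R.mp hh v).resolve_left h0
  rw [sord]; omega

theorem mem_R_of_sord {e : ℕ} {h : F} (hh : ∀ v, 0 ≤ E.sord v e h) : h ∈ E.R e :=
  E.mem_R.mpr fun v => Or.inr (by have := hh v; rw [sord] at this; omega)

theorem lev_add (a b : ℕ) : E.lev (a + b) = E.lev a + E.lev b := by
  rw [lev, lev, lev, ← Finsupp.single_add]
  push_cast
  ring_nf

theorem sord_mul {a b : ℕ} {g h : F} (hg : g ≠ 0) (hh : h ≠ 0) (v : Place k F) :
    E.sord v (a + b) (g * h) = E.sord v a g + E.sord v b h := by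
  rw [sord, sord, sord, v.ord_mul hg hh, lev_add, Finsupp.add_apply]; ring

theorem mul_mem_R {a b : ℕ} {g h : F} (hg : g ∈ E.R a) (hh : h ∈ E.R b) :
    g * h ∈ E.R (a + b) := by
  rcases eq_or_ne g 0 with rfl | hg0
  · simp
  rcases eq_or_ne h 0 with rfl | hh0
  · simp
  refine E.mem_R_of_sord fun v => ?_
  rw [sord_mul E hg0 hh0]
  linarith [E.sord_nonneg hg hg0 v, E.sord_nonneg hh hh0 v]

/-- The two distinguished sections of level one, `1` and `f`. -/
def σ (c : Bool) : F := if c then E.f else 1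

theorem σ_ne_zero (c : Bool) : E.σ c ≠ 0 := by
  cases c <;> simp [σ, E.f_ne_zero]

theorem σ_mem (c : Bool) : E.σ c ∈ E.R 1 := by
  refine E.mem_R_of_sord fun v => ?_
  rcases eq_or_ne v E.O with rfl | hv
  · cases c <;> simp [σ, sord, E.ord_O, lev_apply_O]
  · cases c <;> simp [σ, sord, lev_apply_ne E _ hv, E.ord_nonneg v hv]

theorem σ_pow_mem (c : Bool) : ∀ e : ℕ, E.σ c ^ e ∈ E.R e
  | 0 => by
    refine E.mem_R_of_sord fun v => ?_
    simp [sord, lev]
  | e + 1 => by rw [pow_succ]; exact E.mul_mem_R (σ_pow_mem c e) (E.σ_mem c)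

theorem finrank_R {e : ℕ} (he : 1 ≤ e) :
    (Module.finrank k (E.R e) : ℤ) = (e : ℤ) * E.M₀ + 1 - genusFF k F := by
  have := FF.finrank_riemannRochSpace_of_lt_degree (D := E.lev e) (by
    rw [degree_lev]
    have := E.le_M₀
    have : (E.M₀ : ℤ) ≤ e * E.M₀ := le_mul_of_one_le_left (by positivity) (by exact_mod_cast he)
    omega)
  rwa [degree_lev] at this

/-- The dimension of the sections of level `e`. -/
def dim (e : ℕ) : ℕ := Module.finrank k (E.R e)

/-- A basis of the sections of level `e`. -/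
def bas (e : ℕ) : Module.Basis (Fin (E.dim e)) k (E.R e) := Module.finBasis k (E.R e)

/-- A basis vector, as a function. -/
def b (e : ℕ) (j : Fin (E.dim e)) : F := (E.bas e j : F)

theorem b_mem (e : ℕ) (j : Fin (E.dim e)) : E.b e j ∈ E.R e := (E.bas e j).2

theorem b_ne_zero (e : ℕ) (j : Fin (E.dim e)) : E.b e j ≠ 0 := fun h =>
  (E.bas e).ne_zero j (Subtype.ext h)

theorem sum_repr (e : ℕ) (h : E.R e) : ∑ j, (E.bas e).repr h j • E.b e j = (h : F) := by
  have := congrArg Subtype.val ((E.bas e).sum_repr h)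
  rw [Submodule.coe_sum] at this
  simp only [Submodule.coe_smul] at this
  exact this

/-- The coordinate ring of the chart `σ c ≠ 0`. -/
def B (c : Bool) : Subalgebra k F :=
  Algebra.adjoin k (Set.range fun p : Fin (E.dim 1) ⊕ Fin (E.dim 2) =>
    p.elim (fun j => E.b 1 j / E.σ c) (fun j => E.b 2 j / E.σ c ^ 2))

theorem div_mem_B_of_le_two (c : Bool) {e : ℕ} (he : e = 1 ∨ e = 2) {h : F} (hh : h ∈ E.R e) :
    h / E.σ c ^ e ∈ E.B c := by
  rw [show h = _ from (E.sum_repr e ⟨h, hh⟩).symm, Finset.sum_div]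
  refine Subalgebra.sum_mem _ fun j _ => ?_
  rw [smul_div_assoc]
  refine Subalgebra.smul_mem _ ?_ _
  rcases he with rfl | rfl
  · exact Algebra.subset_adjoin ⟨.inl j, by simp⟩
  · exact Algebra.subset_adjoin ⟨.inr j, by simp⟩

/-- For `a ≥ 2` every section of level `a + 1` is `g₁ + g₂ f`. -/
theorem exists_split {a : ℕ} (ha : 2 ≤ a) {h : F} (hh : h ∈ E.R (a + 1)) :
    ∃ g₁ ∈ E.R a, ∃ g₂ ∈ E.R a, h = g₁ + g₂ * E.f := by
  let φ : E.R a × E.R a →ₗ[k] E.R (a + 1) :=
    { toFun := fun p => ⟨(p.1 : F) * E.σ false + (p.2 : F) * E.σ true,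
        add_mem (E.mul_mem_R p.1.2 (E.σ_mem _)) (E.mul_mem_R p.2.2 (E.σ_mem _))⟩
      map_add' := fun p q => Subtype.ext (by simp; ring)
      map_smul' := fun r p => Subtype.ext (by simp [smul_add, smul_mul_assoc]) }
  have hψmem : ∀ p : φ.ker, ((p : E.R a × E.R a).2 : F) ∈ E.R (a - 1) := by
    intro p
    have hp : (((p : E.R a × E.R a).1 : F)) + ((p : E.R a × E.R a).2 : F) * E.f = 0 := by
      have := congrArg Subtype.val (LinearMap.mem_ker.mp p.2)
      simpa [φ, σ] using this
    rcases eq_or_ne ((p : E.R a × E.R a).2 : F) 0 with h2 | h2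
    · rw [h2]; exact zero_mem _
    refine E.mem_R_of_sord fun v => ?_
    rcases eq_or_ne v E.O with rfl | hv
    · have h1 : ((p : E.R a × E.R a).1 : F) = -(((p : E.R a × E.R a).2 : F) * E.f) :=
        eq_neg_of_add_eq_zero_left hp
      have hne : ((p : E.R a × E.R a).1 : F) ≠ 0 := by
        rw [h1]; simpa using mul_ne_zero h2 E.f_ne_zero
      have := E.sord_nonneg (p : E.R a × E.R a).1.2 hne E.O
      rw [sord, h1, FF.ord_neg, Place.ord_mul _ h2 E.f_ne_zero, E.ord_O, lev_apply_O] at this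
      rw [sord, lev_apply_O, Nat.cast_sub (by omega)]
      push_cast
      linarith
    · have := E.sord_nonneg (p : E.R a × E.R a).2.2 h2 v
      rwa [sord, lev_apply_ne E _ hv] at this ⊢
  let ψ : φ.ker →ₗ[k] E.R (a - 1) :=
    { toFun := fun p => ⟨_, hψmem p⟩
      map_add' := fun p q => rfl
      map_smul' := fun r p => rfl }
  have hψ : Function.Injective ψ := by
    rintro ⟨⟨x, y⟩, hp⟩ ⟨⟨x', y'⟩, hq⟩ he
    have hy : (y : F) = y' := by simpa [ψ] using congrArg (fun z => ((z : E.R (a - 1)) : F)) he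
    have h1 := congrArg Subtype.val (LinearMap.mem_ker.mp hp)
    have h2 := congrArg Subtype.val (LinearMap.mem_ker.mp hq)
    simp [φ, σ] at h1 h2
    refine Subtype.ext (Prod.ext (Subtype.ext ?_) (Subtype.ext hy))
    show (x : F) = x'
    rw [hy] at h1
    linear_combination h1 - h2
  have hker := LinearMap.finrank_le_finrank_of_injective hψ
  have hrn := φ.finrank_range_add_finrank_ker
  rw [Module.finrank_prod] at hrn
  have e1 := E.finrank_R (e := a) (by omega)
  have e2 := E.finrank_R (e := a - 1) (by omega)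
  have e3 := E.finrank_R (e := a + 1) (by omega)
  rw [Nat.cast_sub (by omega)] at e2
  push_cast at e2 e3
  have hle := Submodule.finrank_le φ.range
  have htop : φ.range = ⊤ := Submodule.eq_top_of_finrank_eq (by linarith)
  obtain ⟨⟨g₁, g₂⟩, hg⟩ : (⟨h, hh⟩ : E.R (a + 1)) ∈ φ.range := by rw [htop]; trivial
  have := congrArg Subtype.val hg
  exact ⟨g₁, g₁.2, g₂, g₂.2, by simpa [φ, σ] using this.symm⟩

theorem mem_R_zero {h : F} (hh : h ∈ E.R 0) : ∃ c : k, h = algebraMap k F c := by
  have h' : h ∈ riemannRochSpace (0 : Divisor k F) := by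
    simpa [R, lev] using hh
  have := (FF.mem_riemannRochSpace_zero_iff (K := k) (F := F)).mp h'
  have halg : IsAlgebraic k h := this
  obtain ⟨p, hp, hpx⟩ := halg
  have hspl : p.Splits := IsAlgClosed.splits p
  by_contra hne
  push Not at hne
  rw [hspl.eq_prod_roots] at hpx
  simp only [map_mul, Polynomial.aeval_C, map_multiset_prod, Multiset.map_map, mul_eq_zero,
    map_eq_zero, Polynomial.leadingCoeff_eq_zero] at hpx
  rcases hpx with hpx | hpx
  · exact hp hpx
  · obtain ⟨r, -, hr⟩ := Multiset.mem_map.mp (Multiset.prod_eq_zero_iff.mp hpx)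
    exact hne r (sub_eq_zero.mp (by simpa using hr))

theorem div_mem_B (c : Bool) : ∀ {e : ℕ} {h : F}, h ∈ E.R e → h / E.σ c ^ e ∈ E.B c := by
  intro e
  induction e using Nat.strong_induction_on with
  | _ e ih =>
    intro h hh
    match e with
    | 0 =>
      obtain ⟨a, rfl⟩ := E.mem_R_zero hh
      simp
    | 1 => exact E.div_mem_B_of_le_two c (Or.inl rfl) hh
    | 2 => exact E.div_mem_B_of_le_two c (Or.inr rfl) hh
    | a + 3 =>
      obtain ⟨g₁, hg₁, g₂, hg₂, rfl⟩ := E.exists_split (a := a + 2) (by omega) hh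
      have e1 := ih (a + 2) (by omega) hg₁
      have e2 := ih (a + 2) (by omega) hg₂
      have hs : ∀ c', E.σ c' / E.σ c ∈ E.B c := fun c' => by
        simpa using E.div_mem_B_of_le_two c (Or.inl rfl) (E.σ_mem c')
      have : (g₁ + g₂ * E.f) / E.σ c ^ (a + 3) = g₁ / E.σ c ^ (a + 2) * (E.σ false / E.σ c)
          + g₂ / E.σ c ^ (a + 2) * (E.σ true / E.σ c) := by
        have := E.σ_ne_zero c
        simp only [σ, if_true, Bool.false_eq_true, if_false]
        field_simp
        ring
      rw [this]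
      exact add_mem (mul_mem e1 (hs _)) (mul_mem e2 (hs _))

/-- A section in a chart. -/
def sec (c : Bool) (e : ℕ) : E.R e →ₗ[k] E.B c where
  toFun h := ⟨(h : F) / E.σ c ^ e, E.div_mem_B c h.2⟩
  map_add' g h := Subtype.ext (add_div _ _ _)
  map_smul' r h := Subtype.ext (smul_div_assoc r (h : F) _)

@[simp]
theorem coe_sec (c : Bool) (e : ℕ) (h : E.R e) : (E.sec c e h : F) = (h : F) / E.σ c ^ e := rfl

theorem sec_mul (c : Bool) {a b : ℕ} (g : E.R a) (h : E.R b) :
    E.sec c (a + b) ⟨(g : F) * h, E.mul_mem_R g.2 h.2⟩ = E.sec c a g * E.sec c b h :=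
  Subtype.ext (by simp [pow_add, mul_div_mul_comm])

/-- `σ c' ^ e`, as a section of level `e`. -/
def σsec (c : Bool) (e : ℕ) : E.R e := ⟨E.σ c ^ e, E.σ_pow_mem c e⟩

theorem sec_σsec (c : Bool) (e : ℕ) : E.sec c e (E.σsec c e) = 1 :=
  Subtype.ext (by simp [σsec, div_self (pow_ne_zero _ (E.σ_ne_zero c))])

/-- The divisor of a section. -/
theorem exists_sdiv {e : ℕ} {h : F} (h0 : h ≠ 0) :
    ∃ D : Divisor k F, (∀ v, D v = E.sord v e h) ∧ Divisor.degree D = (e : ℤ) * E.M₀ := by
  obtain ⟨D, hD, hdeg⟩ := HasPrincipalDivisors.exists_divisor (K := k) h h0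
  exact ⟨D + E.lev e, fun v => by simp [sord, hD v],
    by rw [map_add, hdeg, degree_lev, zero_add]⟩

theorem sum_sord_le {e : ℕ} {h : F} (hh : h ∈ E.R e) (h0 : h ≠ 0) (S : Finset (Place k F)) :
    ∑ v ∈ S, E.sord v e h ≤ (e : ℤ) * E.M₀ := by
  classical
  obtain ⟨D, hD, hdeg⟩ := E.exists_sdiv (e := e) h0
  rw [← hdeg, degree_eq_sum, Finsupp.sum]
  calc ∑ v ∈ S, E.sord v e h ≤ ∑ v ∈ S ∪ D.support, E.sord v e h :=
        Finset.sum_le_sum_of_subset_of_nonneg Finset.subset_union_left
          fun v _ _ => E.sord_nonneg hh h0 v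
    _ = ∑ v ∈ D.support, D v := by
      simp only [← hD]
      refine (Finset.sum_subset Finset.subset_union_right fun v _ hv => ?_).symm
      simpa using hv

/-- A section with zeros at least `Z` and exactly `Z Q` at `Q`. -/
theorem exists_sec {e : ℕ} (Z : Divisor k F) (hZ : 0 ≤ Z) (Q : Place k F)
    (hdeg : 2 * (genusFF k F : ℤ) ≤ (e : ℤ) * E.M₀ - Divisor.degree Z) :
    ∃ h ∈ E.R e, h ≠ 0 ∧ (∀ v, Z v ≤ E.sord v e h) ∧ E.sord Q e h = Z Q := by
  obtain ⟨h, hh, h0, hQ⟩ := exists_mem_diff (D := E.lev e - Z) Q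
    (by rw [map_sub, degree_lev]; omega)
  have key : ∀ v, Z v ≤ E.sord v e h := fun v => by
    have := (mem_riemannRochSpace_iff.mp hh v).resolve_left h0
    rw [Finsupp.sub_apply] at this
    rw [sord]; omega
  refine ⟨h, E.mem_R_of_sord fun v => le_trans (Finsupp.le_def.mp hZ v) (key v), h0, key, ?_⟩
  rw [sord, hQ, Finsupp.sub_apply]; ring

/-- A place lies in the chart `c`. -/
def InChart (Q : Place k F) (c : Bool) : Prop := E.sord Q 1 (E.σ c) = 0

theorem exists_inChart (Q : Place k F) : ∃ c, E.InChart Q c := by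
  rcases eq_or_ne Q E.O with rfl | h
  · exact ⟨true, by simp [InChart, σ, sord, E.ord_O, lev_apply_O]⟩
  · exact ⟨false, by simp [InChart, σ, sord, lev_apply_ne E _ h]⟩

theorem sord_σ_pow {Q : Place k F} {c : Bool} (hc : E.InChart Q c) :
    ∀ e : ℕ, E.sord Q e (E.σ c ^ e) = 0
  | 0 => by simp [sord, lev]
  | e + 1 => by
    rw [pow_succ, sord_mul E (pow_ne_zero _ (E.σ_ne_zero c)) (E.σ_ne_zero c), sord_σ_pow hc e, hc]
    rfl

theorem ord_div_σ_pow {Q : Place k F} {c : Bool} (hc : E.InChart Q c) {e : ℕ} {h : F}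
    (h0 : h ≠ 0) : Q.ord (h / E.σ c ^ e) = E.sord Q e h := by
  rw [FF.ord_div Q h0 (pow_ne_zero _ (E.σ_ne_zero c))]
  have := E.sord_σ_pow hc e
  rw [sord] at this ⊢
  omega

theorem B_le_valuationSubring {Q : Place k F} {c : Bool} (hc : E.InChart Q c) :
    (E.B c).toSubring ≤ Q.toValuationSubring.toSubring := by
  have hle : E.B c ≤ { Q.toValuationSubring.toSubring with algebraMap_mem' := Q.algebraMap_mem' } := by
    refine Algebra.adjoin_le ?_
    rintro _ ⟨j | j, rfl⟩
    · show E.b 1 j / E.σ c ∈ Q.toValuationSubring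
      rw [FF.mem_iff_ord_nonneg, ← pow_one (E.σ c), E.ord_div_σ_pow hc (E.b_ne_zero 1 j)]
      exact E.sord_nonneg (E.b_mem 1 j) (E.b_ne_zero 1 j) Q
    · show E.b 2 j / E.σ c ^ 2 ∈ Q.toValuationSubring
      rw [FF.mem_iff_ord_nonneg, E.ord_div_σ_pow hc (E.b_ne_zero 2 j)]
      exact E.sord_nonneg (E.b_mem 2 j) (E.b_ne_zero 2 j) Q
  exact fun x hx => hle hx

omit [IsAlgClosed k] [FF.IsFunctionField k F] in
theorem val_unique {Q : Place k F} {x : F} {a b : k} (ha : x - algebraMap k F a ∈ FF.ordGE Q 1)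
    (hb : x - algebraMap k F b ∈ FF.ordGE Q 1) : a = b := by
  by_contra h
  have h1 : algebraMap k F (b - a) ∈ FF.ordGE Q 1 := by
    have := sub_mem ha hb
    simpa using this
  have := FF.le_ord_of_mem_ordGE Q h1 (by simpa [sub_eq_zero] using fun e => h e.symm)
  rw [FF.ord_algebraMap] at this
  omega

theorem exists_val {Q : Place k F} {x : F} (hx : x ∈ Q.toValuationSubring) :
    ∃ a : k, x - algebraMap k F a ∈ FF.ordGE Q 1 := by
  have : Algebra.IsIntegral k Q.ResidueField := Algebra.IsIntegral.of_finite k Q.ResidueField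
  obtain ⟨a, ha⟩ := (IsAlgClosed.algebraMap_bijective_of_isIntegral (k := k)
    (K := Q.ResidueField)).2 (IsLocalRing.residue _ ⟨x, hx⟩)
  refine ⟨a, (FF.residue_eq_zero_iff Q (sub_mem hx (Q.algebraMap_mem' a))).mp ?_⟩
  show IsLocalRing.residue _ ((⟨x, hx⟩ : Q.toValuationSubring) - algebraMap k _ a) = 0
  rw [map_sub, ← ha, sub_eq_zero]
  rfl

/-- The value at a place, `0` if there is none. -/
def val (Q : Place k F) (x : F) : k :=
  letI := Classical.propDecidable
  if h : ∃ a : k, x - algebraMap k F a ∈ FF.ordGE Q 1 then h.choose else 0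

theorem val_eq {Q : Place k F} {x : F} {a : k} (ha : x - algebraMap k F a ∈ FF.ordGE Q 1) :
    val Q x = a := by
  rw [val, dif_pos ⟨a, ha⟩]
  exact val_unique (Exists.choose_spec (p := fun a => x - algebraMap k F a ∈ FF.ordGE Q 1) ⟨a, ha⟩) ha

theorem val_spec {Q : Place k F} {x : F} (hx : x ∈ Q.toValuationSubring) :
    x - algebraMap k F (val Q x) ∈ FF.ordGE Q 1 := by
  obtain ⟨a, ha⟩ := exists_val hx
  rwa [val_eq ha]

theorem val_eq_zero_iff {Q : Place k F} {x : F} (hx : x ∈ Q.toValuationSubring) :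
    val Q x = 0 ↔ x = 0 ∨ 0 < Q.ord x := by
  constructor
  · intro h
    have := val_spec hx
    rw [h, map_zero, sub_zero, FF.mem_ordGE] at this
    exact this
  · intro h
    refine val_eq ?_
    rw [map_zero, sub_zero, FF.mem_ordGE]
    exact h

/-- Evaluation of a chart ring at a place of the chart. -/
def evalHom {Q : Place k F} {c : Bool} (hc : E.InChart Q c) : E.B c →ₐ[k] k where
  toFun x := val Q (x : F)
  map_one' := val_eq (by simp)
  map_zero' := val_eq (by simp)
  map_add' x y := val_eq (by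
    have := add_mem (val_spec (E.B_le_valuationSubring hc x.2))
      (val_spec (E.B_le_valuationSubring hc y.2))
    convert this using 1
    simp; ring)
  map_mul' x y := val_eq (by
    have hx := E.B_le_valuationSubring hc x.2
    have hy := E.B_le_valuationSubring hc y.2
    have h1 := FF.mul_mem_ordGE Q (val_spec hx) ((FF.mem_ordGE_zero Q).mpr hy)
    have h2 := FF.mul_mem_ordGE Q (FF.algebraMap_mem_ordGE_zero Q (val Q (x : F))) (val_spec hy)
    simp only [add_zero, zero_add] at h1 h2
    have := add_mem h1 h2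
    convert this using 1
    simp; ring)
  commutes' a := val_eq (by simp)

/-- Every `k`-valued point of a chart is evaluation at a place of that chart. -/
theorem exists_place (c : Bool) (ψ : E.B c →ₐ[k] k) :
    ∃ (Q : Place k F) (hc : E.InChart Q c), ψ = E.evalHom hc := by
  set x : E.B c := E.sec c 1 (E.σsec (!c) 1) with hx
  have hxne : (x : F) ≠ 0 := by simp [hx, σsec, E.σ_ne_zero]
  have hxord : ∀ v : Place k F, v.ord (x : F) = if c then -v.ord E.f else v.ord E.f := by
    intro v
    cases c <;> simp [hx, σsec, σ, v.ord_inv]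
  have hxc : ∀ a : k, x ≠ algebraMap k (E.B c) a := by
    intro a ha
    have h1 := congrArg (fun y : E.B c => E.O.ord (y : F)) ha
    simp only [Subalgebra.coe_algebraMap, FF.ord_algebraMap, hxord, E.ord_O] at h1
    have := E.M₀_pos
    split_ifs at h1 <;> omega
  obtain ⟨Q, hQ, hQI⟩ := FF.exists_place_of_ideal (K := k) (A := (E.B c).toSubring)
    (fun a => (E.B c).algebraMap_mem a) (RingHom.ker ψ.toRingHom)
    (RingHom.ker_ne_top _) (c := x - algebraMap k (E.B c) (ψ x))
    (show ψ (x - algebraMap k (E.B c) (ψ x)) = 0 by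
      rw [map_sub, AlgHom.commutes, Algebra.algebraMap_self_apply, sub_self]) (sub_ne_zero.mpr (hxc _))
  have hc : E.InChart Q c := by
    have h := hQ x x.2
    rw [hxord] at h
    rcases eq_or_ne Q E.O with rfl | hne
    · have := E.M₀_pos
      cases c
      · simp [E.ord_O] at h; omega
      · simp [InChart, σ, sord, E.ord_O, lev_apply_O]
    · have := E.ord_nonneg Q hne
      cases c
      · simp [InChart, σ, sord, lev_apply_ne E _ hne]
      · simp at h
        simp [InChart, σ, sord, lev_apply_ne E _ hne]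
        omega
  refine ⟨Q, hc, AlgHom.ext fun y => (val_eq ?_).symm⟩
  have := hQI (y - algebraMap k (E.B c) (ψ y)) (show ψ (y - algebraMap k (E.B c) (ψ y)) = 0 by
      rw [map_sub, AlgHom.commutes, Algebra.algebraMap_self_apply, sub_self])
  simpa using this

end Emb

/-- A point of the embedded curve with values in `R`: a chart and a point of its ring. -/
structure Pt (E : Emb k F) (R : Type) [CommRing R] [Algebra k R] where
  c : Bool
  χ : E.B c →ₐ[k] R

namespace Pt

variable {E : Emb k F} {R : Type} [CommRing R] [Algebra k R] (P : Pt E R)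

/-- The value of a section, in the chart of the point. -/
def sv (e : ℕ) : E.R e →ₗ[k] R := P.χ.toLinearMap.comp (E.sec P.c e)

theorem sv_mul {a b : ℕ} (g : E.R a) (h : E.R b) :
    P.sv (a + b) ⟨(g : F) * h, E.mul_mem_R g.2 h.2⟩ = P.sv a g * P.sv b h := by
  show P.χ _ = P.χ _ * P.χ _
  rw [E.sec_mul, map_mul]

theorem sv_σsec_self (e : ℕ) : P.sv e (E.σsec P.c e) = 1 := by
  show P.χ _ = 1
  rw [E.sec_σsec, map_one]

theorem sv_eq_sum (e : ℕ) (h : E.R e) :
    P.sv e h = ∑ j, (E.bas e).repr h j • P.sv e (E.bas e j) := by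
  conv_lhs => rw [← (E.bas e).sum_repr h, map_sum]
  simp [map_smul]

section Local

variable [IsLocalRing R] [IsKLocal k R]

omit [IsAlgClosed k] [FF.IsFunctionField k F] in
theorem residue_bijective :
    Function.Bijective (algebraMap k (IsLocalRing.ResidueField R)) := by
  refine ⟨(algebraMap k _).injective, fun y => ?_⟩
  obtain ⟨r, rfl⟩ := IsLocalRing.residue_surjective y
  obtain ⟨c, hc⟩ := IsKLocal.exists_residue (k := k) r
  refine ⟨c, (sub_eq_zero.mp ?_).symm⟩
  rw [IsScalarTower.algebraMap_apply k R (IsLocalRing.ResidueField R),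
    IsLocalRing.ResidueField.algebraMap_eq, ← map_sub, IsLocalRing.residue_eq_zero_iff]
  exact hc

variable (k R) in
/-- The residue map of a `k`-local ring. -/
def res : R →ₐ[k] k :=
  ((AlgEquiv.ofBijective (Algebra.ofId k (IsLocalRing.ResidueField R))
    (residue_bijective (k := k) (R := R))).symm : IsLocalRing.ResidueField R →ₐ[k] k).comp
    (IsScalarTower.toAlgHom k R (IsLocalRing.ResidueField R))

omit [IsAlgClosed k] [FF.IsFunctionField k F] in
theorem res_eq_zero_iff {r : R} : res k R r = 0 ↔ r ∈ IsLocalRing.maximalIdeal R := by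
  rw [← IsLocalRing.residue_eq_zero_iff, res]
  simp

omit [IsAlgClosed k] [FF.IsFunctionField k F] in
theorem isUnit_of_res {r : R} (h : res k R r ≠ 0) : IsUnit r := by
  by_contra hu
  exact h (res_eq_zero_iff.mpr hu)

/-- The place a point reduces to. -/
def red : Place k F := (E.exists_place P.c ((res k R).comp P.χ)).choose

theorem inChart_red : E.InChart P.red P.c :=
  (E.exists_place P.c ((res k R).comp P.χ)).choose_spec.choose

theorem res_χ (y : E.B P.c) : res k R (P.χ y) = Emb.val P.red (y : F) :=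
  DFunLike.congr_fun (E.exists_place P.c ((res k R).comp P.χ)).choose_spec.choose_spec y

theorem res_sv_eq_zero_iff (e : ℕ) (h : E.R e) :
    res k R (P.sv e h) = 0 ↔ (h : F) = 0 ∨ 0 < E.sord P.red e h := by
  show res k R (P.χ _) = 0 ↔ _
  rw [P.res_χ, Emb.val_eq_zero_iff (E.B_le_valuationSubring P.inChart_red (E.sec P.c e h).2)]
  rcases eq_or_ne (h : F) 0 with h0 | h0
  · simp [h0]
  · rw [E.coe_sec, E.ord_div_σ_pow P.inChart_red h0]
    simp [h0, div_eq_zero_iff, E.σ_ne_zero]

end Local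

end Pt

end Fermat.Agent.MW.Height
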