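import Fermat.Agent.MW.Height.Points
import Fermat.Prelude.Def_AlgebraicCurve_BaseChangeGalois

/-!
# Theta coordinates of a class of degree zero: definitions

* `Setup`: an embedded curve with `8 M₀` auxiliary places;
* `Theta`: two divisors representing a class and its opposite, and the intrinsic coordinates;
* `Rep q`: a reduced representative of level `q`, and its coordinates from determinants.
-/

set_option autoImplicit false

noncomputable section

open AlgebraicCurve

namespace Fermat.Agent.MW.Height

variable {k F : Type} [Field k] [Field F] [Algebra k F] [IsAlgClosed k] [FF.IsFunctionField k F]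

/-- An embedded curve with auxiliary places. -/
structure Setup (k F : Type) [Field k] [Field F] [Algebra k F] [IsAlgClosed k]
    [FF.IsFunctionField k F] where
  E : Emb k F
  U : Fin (8 * E.M₀) → Place k F
  U_inj : Function.Injective U
  U_ne : ∀ u, U u ≠ E.O

namespace Setup

variable (P : Setup k F)

/-- The number of auxiliary points used by one coordinate. -/
abbrev r : ℕ := P.E.M₀ + 1 - genusFF k F

/-- The indices of the coordinates. -/
abbrev SIdx : Type := {S : Fin P.r → Fin (8 * P.E.M₀) // Function.Injective S}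

theorem finrank_sub {X : Divisor k F} (hX : Divisor.degree X = 0) :
    Module.finrank k (riemannRochSpace (P.E.lev 1 - X)) = P.r := by
  have := P.E.le_M₀
  have h := P.E.finrank_Rsub (a := 1) (Z := X) (by rw [hX]; push_cast; omega)
  rw [hX] at h
  show Module.finrank k (P.E.Rsub 1 X) = P.E.M₀ + 1 - genusFF k F
  push_cast at h
  omega

/-- A basis of the sections of level one vanishing on a divisor of degree zero. -/
def basisSub {X : Divisor k F} (hX : Divisor.degree X = 0) :
    Module.Basis (Fin P.r) k (riemannRochSpace (P.E.lev 1 - X)) :=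
  haveI : Module.Finite k (riemannRochSpace (P.E.lev 1 - X)) :=
    Module.finite_of_finrank_pos (by
      rw [P.finrank_sub hX]; have := P.E.le_M₀; unfold Setup.r; omega)
  Module.finBasisOfFinrankEq k _ (P.finrank_sub hX)

/-- Two opposite divisors of degree zero, away from the auxiliary places. -/
structure Theta where
  X : Divisor k F
  X' : Divisor k F
  deg : Divisor.degree X = 0
  deg' : Divisor.degree X' = 0
  φ : F
  φ_ne : φ ≠ 0
  div : ∀ v : Place k F, v.ord φ = (X + X') v
  avoid : ∀ u, X (P.U u) = 0
  avoid' : ∀ u, X' (P.U u) = 0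

variable {P}

/-- The class represented. -/
def Theta.cls (T : P.Theta) : Pic0 k F := Pic0.mk ⟨T.X, Divisor.mem_degZero.mpr T.deg⟩

/-- The matrix of values at the places of `S` of a basis of sections vanishing on `X`. -/
def vmat {X : Divisor k F} (hX : Divisor.degree X = 0) (S : Fin P.r → Fin (8 * P.E.M₀)) :
    Matrix (Fin P.r) (Fin P.r) k :=
  Matrix.of fun i j => Emb.val (P.U (S i)) (P.basisSub hX j : F)

/-- The intrinsic coordinates. -/
def Theta.coord (T : P.Theta) (S : P.SIdx) : k :=
  (vmat T.deg S.1).det * (vmat T.deg' S.1).det / ∏ i, Emb.val (P.U (S.1 i)) T.φ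

variable (P)

theorem dim_eq (q : ℕ) :
    Fintype.card (Fin (q * P.E.M₀) ⊕ Fin P.r) = Fintype.card (Fin (P.E.dim (q + 1))) := by
  have h := P.E.finrank_R (e := q + 1) (by omega)
  have := P.E.le_M₀
  rw [Fintype.card_sum, Fintype.card_fin, Fintype.card_fin, Fintype.card_fin]
  simp only [Emb.dim, Setup.r]
  push_cast at h
  rw [add_mul, one_mul] at h
  have : ((q * P.E.M₀ : ℕ) : ℤ) = (q : ℤ) * P.E.M₀ := by push_cast; rfl
  omega

/-- The numbering of the rows of level `q`. -/
def eps (q : ℕ) : Fin (q * P.E.M₀) ⊕ Fin P.r ≃ Fin (P.E.dim (q + 1)) :=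
  Fintype.equivOfCardEq (P.dim_eq q)

/-- A reduced representative of level `q`. -/
structure Rep (q : ℕ) where
  pt : Fin (q * P.E.M₀) ⊕ Fin (q * P.E.M₀) → Place k F
  inj : Function.Injective pt
  ne_O : ∀ i, pt i ≠ P.E.O
  avoid : ∀ i u, pt i ≠ P.U u
  c : Fin (P.E.dim (2 * q)) → k
  c_ne : c ≠ 0
  zero : ∀ i, lval (Pt.cpt P.E k (pt i)) (2 * q) c = 0

variable {P} {q : ℕ}

/-- The divisor of degree zero of a representative. -/
def Rep.div (R : P.Rep q) : Divisor k F :=
  Emb.famDiv (fun i => R.pt (Sum.inl i)) - P.E.lev q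

theorem Rep.degree_div (R : P.Rep q) : Divisor.degree R.div = 0 := by
  rw [Rep.div, map_sub, Emb.degree_famDiv, Emb.degree_lev, Fintype.card_fin]
  push_cast
  ring

/-- The class represented. -/
def Rep.cls (R : P.Rep q) : Pic0 k F := Pic0.mk ⟨R.div, Divisor.mem_degZero.mpr R.degree_div⟩

/-- The coordinates from determinants. -/
def Rep.coord (R : P.Rep q) (S : P.SIdx) : k :=
  tcoord P.U S.1 (q + 1) (P.eps q) (2 * q) R.c (fun i => Pt.cpt P.E k (R.pt (Sum.inl i)))
    (fun i => Pt.cpt P.E k (R.pt (Sum.inr i)))

end Setup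

end Fermat.Agent.MW.Height
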