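import Mathlib.FieldTheory.IntermediateField.Algebraic
import Mathlib.Analysis.Normed.Field.WithAbs
import Mathlib.Analysis.Normed.Field.Instances
import Mathlib.Analysis.Normed.Field.Ultra
import Mathlib.Analysis.Normed.Module.Completion
import Mathlib.Analysis.Normed.Unbundled.SpectralNorm
import Mathlib.FieldTheory.IsAlgClosed.AlgebraicClosure
import Mathlib.FieldTheory.IsAlgClosed.Basic

/-!
# Extension of nonarchimedean absolute values to an algebraic closure
-/

set_option autoImplicit false

noncomputable section

namespace Fermat.Agent.MW.Height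

/-- A nonarchimedean absolute value of a subfield extends to an algebraically closed algebraic
extension. -/
theorem exists_nonarchimedean_extension {L k : Type} [Field L] [Field k] [Algebra L k]
    [Algebra.IsAlgebraic L k] [IsAlgClosed k] (v : AbsoluteValue L ℝ) (hv : IsNonarchimedean v) :
    ∃ w : AbsoluteValue k ℝ, IsNonarchimedean w ∧ ∀ x : L, w (algebraMap L k x) = v x := by
  classical
  by_cases htriv : ∀ x : L, x ≠ 0 → v x = 1
  · refine ⟨AbsoluteValue.trivial, fun x y => ?_, fun x => ?_⟩
    · show (if x + y = 0 then (0 : ℝ) else 1) ≤ max (if x = 0 then 0 else 1) (if y = 0 then 0 else 1)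
      split_ifs <;> simp_all
    · show (if algebraMap L k x = 0 then (0 : ℝ) else 1) = v x
      rcases eq_or_ne x 0 with rfl | hx
      · simp
      · simp [htriv x hx, hx]
  push Not at htriv
  obtain ⟨x₀, hx₀, hv₀⟩ := htriv
  have hnt : ∃ x : L, 1 < v x := by
    rcases lt_or_gt_of_ne hv₀ with h | h
    · exact ⟨x₀⁻¹, by rw [map_inv₀]; exact (one_lt_inv₀ (v.pos hx₀)).mpr h⟩
    · exact ⟨x₀, h⟩
  let C := v.Completion
  letI : NontriviallyNormedField C :=
    { (inferInstance : NormedField C) with
      non_trivial := by
        obtain ⟨x, hx⟩ := hnt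
        refine ⟨((WithAbs.toAbs v x : WithAbs v) : C), ?_⟩
        rwa [UniformSpace.Completion.norm_coe, WithAbs.norm_toAbs_eq] }
  haveI : IsUltrametricDist C := by
    refine isUltrametricDist_iff_forall_norm_natCast_le_one.mpr fun n => ?_
    rw [← map_natCast (UniformSpace.Completion.coeRingHom : WithAbs v →+* C) n]
    show ‖((n : WithAbs v) : C)‖ ≤ 1
    rw [UniformSpace.Completion.norm_coe, WithAbs.norm_eq_apply_ofAbs,
      show WithAbs.ofAbs (n : WithAbs v) = (n : L) from map_natCast (WithAbs.equiv v) n]
    exact IsNonarchimedean.apply_natCast_le_one hv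
  let ι : L →+* C := (UniformSpace.Completion.coeRingHom : WithAbs v →+* C).comp
    (WithAbs.equiv v).symm.toRingHom
  let Ω := AlgebraicClosure C
  letI : Algebra L Ω := ((algebraMap C Ω).comp ι).toAlgebra
  let g : k →ₐ[L] Ω := IsAlgClosed.lift
  let m := spectralMulAlgNorm C Ω
  refine ⟨{
    toFun := fun y => m (g y)
    map_mul' := fun x y => by rw [map_mul, map_mul]
    nonneg' := fun y => apply_nonneg m _
    eq_zero' := fun y => (map_eq_zero_iff_eq_zero m).trans (map_eq_zero g)
    add_le' := fun x y => by rw [map_add]; exact map_add_le_add m _ _ }, ?_, ?_⟩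
  · intro x y
    show m (g (x + y)) ≤ max (m (g x)) (m (g y))
    rw [map_add]
    exact isNonarchimedean_spectralNorm (g x) (g y)
  · intro x
    show m (g (algebraMap L k x)) = v x
    rw [AlgHom.commutes]
    show spectralNorm C Ω (algebraMap C Ω (ι x)) = v x
    rw [spectralNorm_extends]
    show ‖((WithAbs.toAbs v x : WithAbs v) : C)‖ = v x
    rw [UniformSpace.Completion.norm_coe, WithAbs.norm_toAbs_eq]

end Fermat.Agent.MW.Height
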