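import Fermat.Agent.MW.Height.Config

/-!
# Families of expressions: products, distances, and the single global relations
-/

set_option autoImplicit false

noncomputable section

open AlgebraicCurve

namespace Fermat.Agent.MW.Height

section Finite

/-- The supremum of the products of choices is the product of the suprema. -/
theorem iSup_prod_choice {κ β : Type} [Fintype κ] [Finite β] [Nonempty β] (g : κ → β → ℝ)
    (hg : ∀ p b, 0 ≤ g p b) : (⨆ f : κ → β, ∏ p, g p (f p)) = ∏ p, ⨆ b, g p b := by
  refine le_antisymm (ciSup_le fun f => Finset.prod_le_prod (fun p _ => hg p (f p))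
    fun p _ => le_ciSup (Set.finite_range _).bddAbove (f p)) ?_
  choose f hf using fun p => exists_eq_ciSup_of_finite (f := g p)
  simp only [← hf]
  exact le_ciSup (f := fun f : κ → β => ∏ p, g p (f p)) (Set.finite_range _).bddAbove f

/-- The supremum of the products is the product of the suprema. -/
theorem iSup_prod_pair {α β : Type} [Finite α] [Nonempty α] [Finite β] [Nonempty β]
    (f : α → ℝ) (g : β → ℝ) (hf : ∀ a, 0 ≤ f a) (hg : ∀ b, 0 ≤ g b) :
    (⨆ p : α × β, f p.1 * g p.2) = (⨆ a, f a) * ⨆ b, g b := by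
  refine le_antisymm (ciSup_le fun p => mul_le_mul (le_ciSup (Set.finite_range _).bddAbove _)
    (le_ciSup (Set.finite_range _).bddAbove _) (hg _) (Real.iSup_nonneg hf)) ?_
  obtain ⟨a, ha⟩ := exists_eq_ciSup_of_finite (f := f)
  obtain ⟨b, hb⟩ := exists_eq_ciSup_of_finite (f := g)
  rw [← ha, ← hb]
  exact le_ciSup (f := fun p : α × β => f p.1 * g p.2) (Set.finite_range _).bddAbove (a, b)

theorem prod_span_choice {R κ β : Type} [CommRing R] [Fintype κ] (g : κ → β → R) :
    ∏ p, Ideal.span (Set.range (g p))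
      = Ideal.span (Set.range fun f : κ → β => ∏ p, g p (f p)) := by
  rw [Ideal.prod_span]
  refine congrArg Ideal.span (Set.ext fun x => ?_)
  rw [Set.mem_fintype_prod]
  constructor
  · rintro ⟨y, hy, rfl⟩
    choose f hf using hy
    exact ⟨f, Finset.prod_congr rfl fun p _ => hf p⟩
  · rintro ⟨f, rfl⟩
    exact ⟨fun p => g p (f p), fun p => ⟨f p, rfl⟩, rfl⟩

theorem span_range_pair {R α β : Type} [CommRing R] (f : α → R) (g : β → R) :
    Ideal.span (Set.range f) * Ideal.span (Set.range g)
      = Ideal.span (Set.range fun p : α × β => f p.1 * g p.2) := by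
  rw [Ideal.span_mul_span']
  refine congrArg Ideal.span (Set.ext fun x => ?_)
  rw [Set.mem_mul]
  constructor
  · rintro ⟨_, ⟨a, rfl⟩, _, ⟨b, rfl⟩, rfl⟩
    exact ⟨(a, b), rfl⟩
  · rintro ⟨p, rfl⟩
    exact ⟨_, ⟨p.1, rfl⟩, _, ⟨p.2, rfl⟩, rfl⟩

theorem span_range_unique {R α : Type} [CommRing R] [Unique α] (f : α → R) :
    Ideal.span (Set.range f) = Ideal.span {f default} := by
  rw [Set.range_unique]

theorem span_range_eq_top {R α : Type} [CommRing R] (f : α → R) (h : ∃ a, IsUnit (f a)) :
    Ideal.span (Set.range f) = ⊤ := by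
  obtain ⟨a, ha⟩ := h
  exact Ideal.eq_top_of_isUnit_mem _ (Ideal.subset_span ⟨a, rfl⟩) ha

end Finite

variable {k F : Type} [Field k] [Field F] [Algebra k F] [IsAlgClosed k] [FF.IsFunctionField k F]

/-- The index pairs of minors. -/
abbrev MIdx (E : Emb k F) : Type := Fin (E.dim 1) × Fin (E.dim 1)

theorem dim_one_pos (E : Emb k F) : 0 < E.dim 1 := by
  have h := E.finrank_R (e := 1) le_rfl
  have := E.le_M₀
  unfold Emb.dim
  omega

instance (E : Emb k F) : Nonempty (Fin (E.dim 1)) := ⟨⟨0, dim_one_pos E⟩⟩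

namespace Expr

variable {E : Emb k F} {I : Type} {e : ℕ}

/-- A coefficient. -/
def coef (j : Fin (E.dim e)) : Expr E I e where
  val _ _ _ _ c := c j
  natural _ _ _ _ _ _ _ _ _ := rfl
  deg := 1
  smul _ s c := by simp

/-- A product of minors, one for each listed pair of points. -/
def dists {κ : Type} [Fintype κ] (L L' : κ → I ⊕ Place k F) (f : κ → MIdx E) : Expr E I e :=
  prod Finset.univ fun p => minor (L p) (L' p) (f p)

theorem deg_dists {κ : Type} [Fintype κ] (L L' : κ → I ⊕ Place k F) (f : κ → MIdx E) :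
    (dists (e := e) L L' f).deg = 0 :=
  Finset.sum_eq_zero fun _ _ => rfl

theorem span_dists {κ : Type} [Fintype κ] (L L' : κ → I ⊕ Place k F) (R : Type) [CommRing R]
    [Algebra k R] (P : I → Pt E R) (c : Fin (E.dim e) → R) :
    Ideal.span (Set.range fun f => (dists (e := e) L L' f).val R P c)
      = ∏ p, Pt.dist (pt R P (L p)) (pt R P (L' p)) := by
  unfold Pt.dist
  rw [prod_span_choice]
  simp only [dists, Expr.prod, Expr.minor]

end Expr

section Values

variable (E : Emb k F)

/-- The size of the minors of two places: the reciprocal of their distance. -/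
def pdist (w : AbsoluteValue k ℝ) (A B : Pt E k) : ℝ :=
  ⨆ q : MIdx E, w (Pt.minor A B (E.bas 1 q.1) (E.bas 1 q.2))

theorem pdist_nonneg (w : AbsoluteValue k ℝ) (A B : Pt E k) : 0 ≤ pdist E w A B :=
  Real.iSup_nonneg fun _ => AbsoluteValue.nonneg _ _

theorem pdist_comm (w : AbsoluteValue k ℝ) (A B : Pt E k) : pdist E w A B = pdist E w B A := by
  refine iSup_congr fun q => ?_
  have : Pt.minor A B (E.bas 1 q.1) (E.bas 1 q.2)
      = -Pt.minor B A (E.bas 1 q.1) (E.bas 1 q.2) := by simp [Pt.minor]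
  rw [this, AbsoluteValue.map_neg]

/-- The size of the minors of two places in the charts of `w`. -/
def dd (w : AbsoluteValue k ℝ) (Q Q' : Place k F) : ℝ := pdist E w (gpt E w Q) (gpt E w Q')

theorem dd_nonneg (w : AbsoluteValue k ℝ) (Q Q' : Place k F) : 0 ≤ dd E w Q Q' :=
  pdist_nonneg E w _ _

theorem dd_comm (w : AbsoluteValue k ℝ) (Q Q' : Place k F) : dd E w Q Q' = dd E w Q' Q :=
  pdist_comm E w _ _

theorem Expr.iSup_dists {I : Type} {e : ℕ} {κ : Type} [Fintype κ] (L L' : κ → I ⊕ Place k F)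
    (w : AbsoluteValue k ℝ) (P : I → Place k F) (c : Fin (E.dim e) → k) :
    (⨆ f, (Expr.dists (e := e) L L' f).at' w P c)
      = ∏ p, pdist E w (Expr.pt k (fun i => gpt E w (P i)) (L p))
          (Expr.pt k (fun i => gpt E w (P i)) (L' p)) := by
  simp only [Expr.at', Expr.dists, Expr.prod, map_prod]
  exact iSup_prod_choice (fun p q => w ((Expr.minor (e := e) (L p) (L' p) q).val k
    (fun i => gpt E w (P i)) c)) fun _ _ => AbsoluteValue.nonneg _ _

theorem dist_ne_bot {Q Q' : Place k F} {A B : Pt E k} (hA : A.red = Q) (hB : B.red = Q')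
    (h : Q ≠ Q') : Pt.dist A B ≠ ⊥ := by
  rw [dist_eq_top (by rw [hA, hB]; exact h)]
  exact top_ne_bot

end Values

end Fermat.Agent.MW.Height
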