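import Fermat.Agent.MW.Height.Cluster

/-!
# The two local identities

For points in general position over a local domain with residue field `k`:
* a normalised section vanishing at as many points as its degree takes at any further point a
  value generating the product of the distance ideals;
* the determinant of evaluations at `dim` points generates the product of the pairwise distances,
  as soon as the reductions impose independent conditions.
-/

set_option autoImplicit false

noncomputable section

open AlgebraicCurve IsLocalRing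

namespace Fermat.Agent.MW.Height

variable {k F : Type} [Field k] [Field F] [Algebra k F] [IsAlgClosed k] [FF.IsFunctionField k F]
variable {E : Emb k F} {R : Type} [CommRing R] [Algebra k R] [IsLocalRing R] [IsKLocal k R]

/-- Points with different reductions are at distance one. -/
theorem dist_eq_top {P P' : Pt E R} (h : P.red ≠ P'.red) : Pt.dist P P' = ⊤ := by
  have hex : ∀ Q Q' : Place k F, Q ≠ Q' → ∃ g : E.R 1,
      (g : F) ≠ 0 ∧ E.sord Q 1 g = 0 ∧ 1 ≤ E.sord Q' 1 g := by
    intro Q Q' hne
    obtain ⟨g, hg, h0, hge, hQ⟩ := E.exists_sec (e := 1) (Finsupp.single Q' 1)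
      (Finsupp.single_nonneg.mpr zero_le_one) Q
      (by rw [Divisor.degree_single, place_deg_eq_one]; have := E.le_M₀; push_cast; omega)
    refine ⟨⟨g, hg⟩, h0, by rw [hQ, Finsupp.single_eq_of_ne hne], ?_⟩
    simpa using hge Q'
  obtain ⟨g, g0, gQ, gQ'⟩ := hex _ _ h
  obtain ⟨t, t0, tQ, tQ'⟩ := hex _ _ (Ne.symm h)
  refine Ideal.eq_top_of_isUnit_mem _ (Pt.minor_mem_dist P P' g t) (Pt.isUnit_of_res (k := k) ?_)
  have e1 : Pt.res k R (P.sv 1 g) ≠ 0 := by rw [Ne, P.res_sv_eq_zero_iff]; simp [g0, gQ]
  have e2 : Pt.res k R (P'.sv 1 t) ≠ 0 := by rw [Ne, P'.res_sv_eq_zero_iff]; simp [t0, tQ]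
  have e3 : Pt.res k R (P'.sv 1 g) = 0 := (P'.res_sv_eq_zero_iff 1 g).mpr (Or.inr (by omega))
  simp [Pt.minor, e3, e1, e2]

section Clusters

variable [IsNoetherianRing R] [IsDomain R] {J : Type} [Fintype J] (P : J → Pt E R) {Q : Place k F}
  (hQ : ∀ i, (P i).red = Q) (hne : Pairwise fun i j => Pt.dist (P i) (P j) ≠ ⊥)

include hQ hne in
omit [IsDomain R] in
theorem cU_injective : Function.Injective (cU P Q) := by
  intro i j hij
  by_contra h
  exact hne h (by rw [dist_eq_span P hQ, hij, sub_self, Ideal.span_singleton_eq_bot])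

include hQ hne in
/-- A combination whose coefficients all vanish on reduction vanishes to high order. -/
theorem card_le_sord_of_coeff {e : ℕ} (C : Fin (E.dim e) → Fin (Fintype.card J) → R)
    (hC : ∀ j i, cev P Q e (E.bas e j) i = ∑ l, C j l * cU P Q i ^ (l : ℕ))
    (a : Fin (E.dim e) → k) (ha : ∀ l, ∑ j, a j * Pt.res k R (C j l) = 0)
    (h0 : ((∑ j, a j • E.bas e j : E.R e) : F) ≠ 0) :
    (Fintype.card J : ℤ) ≤ E.sord Q e ((∑ j, a j • E.bas e j : E.R e) : F) := by
  refine card_le_sord P hQ (cU_injective P hQ hne) _ h0 (G := fun l => ∑ j, a j • C j l)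
    (fun i => ?_) fun l => ?_
  · simp only [map_sum, map_smul, Finset.sum_apply, Pi.smul_apply, hC, Finset.smul_sum,
      Finset.sum_mul, smul_mul_assoc]
    exact Finset.sum_comm
  · rw [← Pt.res_eq_zero_iff (k := k), map_sum]
    simpa [map_smul] using ha l

end Clusters

variable [IsNoetherianRing R] [IsDomain R] {I : Type} [Fintype I] (P : I → Pt E R)

open scoped Classical in
/-- The value of a section with coefficients in `R`. -/
def lval (X : Pt E R) (e : ℕ) (a : Fin (E.dim e) → R) : R := ∑ j, a j * X.sv e (E.bas e j)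

/-- **A section vanishing at `deg` points.** -/
theorem span_lval_eq (e : ℕ) (hcard : Fintype.card I = e * E.M₀)
    (hne : Pairwise fun i j => Pt.dist (P i) (P j) ≠ ⊥)
    (a : Fin (E.dim e) → R) (ha : ∃ j, IsUnit (a j)) (hzero : ∀ i, lval (P i) e a = 0)
    (X : Pt E R) (hX : ∀ i, Pt.dist (P i) X ≠ ⊥) :
    Ideal.span {lval X e a} = ∏ i, Pt.dist (P i) X := by
  classical
  set ab : Fin (E.dim e) → k := fun j => Pt.res k R (a j) with hab
  set hb : E.R e := ∑ j, ab j • E.bas e j with hhb
  have hb0 : (hb : F) ≠ 0 := by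
    intro h
    obtain ⟨j, hj⟩ := ha
    have h' : hb = 0 := Subtype.ext h
    have hrepr : ∀ j, (E.bas e).repr hb j = ab j := fun j => by
      rw [hhb, Module.Basis.repr_sum_self]
    have : ab j = 0 := by rw [← hrepr, h', map_zero]; rfl
    exact (mem_maximalIdeal _).mp (Pt.res_eq_zero_iff.mp this) hj
  have hother : ∀ Q : Place k F,
      ((Finset.univ.filter fun i => (P i).red = Q).card : ℤ) ≤ E.sord Q e hb := by
    intro Q
    let P' : {i // (P i).red = Q} → Pt E R := fun i => P i.1
    have hQ : ∀ i, (P' i).red = Q := fun i => i.2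
    have hne' : Pairwise fun i j => Pt.dist (P' i) (P' j) ≠ ⊥ :=
      fun i j h => hne fun e => h (Subtype.ext e)
    choose C hC using fun j => exists_coeff P' hQ e (E.bas e j)
    have hG : (fun l => ∑ j, a j * C j l) = 0 := by
      refine coeff_unique P' hQ (cU_injective P' hQ hne') (G' := 0) fun i => ?_
      simp only [Pi.zero_apply, zero_mul, Finset.sum_const_zero, Finset.sum_mul, mul_assoc]
      rw [Finset.sum_comm]
      simp only [← Finset.mul_sum, ← hC]
      simp only [cev_apply, ← mul_assoc]
      rw [← Finset.sum_mul]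
      show lval (P i.1) e a * _ = 0
      rw [hzero, zero_mul]
    have := card_le_sord_of_coeff P' hQ hne' C hC ab (fun l => by
      simpa [hab, map_sum] using congrArg (Pt.res k R) (congrFun hG l)) hb0
    rwa [Fintype.card_subtype] at this
  let P' : Option {i // (P i).red = X.red} → Pt E R := fun o => o.elim X fun i => P i.1
  have hQ : ∀ o, (P' o).red = X.red := by rintro (_ | i); exacts [rfl, i.2]
  have hne' : Pairwise fun i j => Pt.dist (P' i) (P' j) ≠ ⊥ := by
    rintro (_ | i) (_ | j) h
    · exact absurd rfl h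
    · show Pt.dist X (P j.1) ≠ ⊥
      rw [Pt.dist_comm]; exact hX _
    · exact hX _
    · exact hne fun e => h (congrArg some (Subtype.ext e))
  have hinj := cU_injective P' hQ hne'
  set m := Fintype.card {i // (P i).red = X.red} with hm
  have hcardJ : Fintype.card (Option {i // (P i).red = X.red}) = m + 1 := Fintype.card_option
  choose C hC using fun j => exists_coeff P' hQ e (E.bas e j)
  set G : Fin (Fintype.card (Option {i // (P i).red = X.red})) → R :=
    fun l => ∑ j, a j * C j l with hGdef
  have hGval : ∀ o, ∑ l, G l * cU P' X.red o ^ (l : ℕ)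
      = lval (P' o) e a * scale P' X.red o ^ e := by
    intro o
    simp only [hGdef, Finset.sum_mul, mul_assoc]
    rw [Finset.sum_comm]
    simp only [← Finset.mul_sum, ← hC]
    simp only [cev_apply, ← mul_assoc]
    rw [← Finset.sum_mul, lval]
  set top : Fin (Fintype.card (Option {i // (P i).red = X.red})) := ⟨m, by omega⟩ with htop
  set p : Polynomial R := ∑ l, Polynomial.C (G l) * Polynomial.X ^ (l : ℕ) with hp
  set π : Polynomial R := ∏ i : {i // (P i).red = X.red},
    (Polynomial.X - Polynomial.C (cU P' X.red (some i))) with hπ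
  have hpcoeff : ∀ l, p.coeff (l : Fin _).1 = G l := by
    intro l
    simp only [hp, Polynomial.finsetSum_coeff, Polynomial.coeff_C_mul_X_pow]
    rw [Finset.sum_eq_single l (fun b _ hb => if_neg fun h => hb (Fin.ext h).symm) (by simp)]
    simp
  have hπmonic : π.Monic := Polynomial.monic_prod_of_monic _ _ fun i _ =>
    Polynomial.monic_X_sub_C (cU P' X.red (some i))
  have hπdeg : π.natDegree = m := by
    rw [hπ, Polynomial.natDegree_finsetProd_X_sub_C_eq_card, Finset.card_univ]
  have hfac : p = Polynomial.C (G top) * π := by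
    have hinjs : Set.InjOn (fun i : {i // (P i).red = X.red} => cU P' X.red (some i))
        ↑(Finset.univ : Finset {i // (P i).red = X.red}) :=
      (hinj.comp (Option.some_injective _)).injOn
    refine sub_eq_zero.mp (Polynomial.eq_zero_of_degree_lt_of_eval_index_eq_zero Finset.univ hinjs
      ?_ fun i _ => ?_)
    · rw [Finset.card_univ, ← hm, Polynomial.degree_lt_iff_coeff_zero]
      intro l hl
      rw [Polynomial.coeff_sub, Polynomial.coeff_C_mul]
      rcases eq_or_lt_of_le hl with rfl | hlt
      · rw [hpcoeff top, ← hπdeg, hπmonic.coeff_natDegree, mul_one, sub_self]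
      · rw [Polynomial.coeff_eq_zero_of_natDegree_lt (p := π) (by omega), mul_zero, sub_zero]
        simp only [hp, Polynomial.finsetSum_coeff, Polynomial.coeff_C_mul_X_pow]
        refine Finset.sum_eq_zero fun b _ => if_neg ?_
        have := b.2
        omega
    · have hπi : π.eval (cU P' X.red (some i)) = 0 := by
        rw [hπ, Polynomial.eval_prod]
        exact Finset.prod_eq_zero (Finset.mem_univ i) (by simp)
      have hpi : p.eval (cU P' X.red (some i)) = 0 := by
        simp only [hp, Polynomial.eval_finsetSum, Polynomial.eval_mul, Polynomial.eval_C,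
          Polynomial.eval_pow, Polynomial.eval_X, hGval]
        show lval (P i.1) e a * _ = 0
        rw [hzero, zero_mul]
      simp [hπi, hpi]
  have hunit : IsUnit (G top) := by
    refine Pt.isUnit_of_res (k := k) fun h => ?_
    have hres : ∀ l, ∑ j, ab j * Pt.res k R (C j l) = 0 := by
      intro l
      have := congrArg (fun q => Pt.res k R (Polynomial.coeff q l.1)) hfac
      simp only [hpcoeff, Polynomial.coeff_C_mul, map_mul, h, zero_mul] at this
      simpa [hGdef, hab, map_sum] using this
    have h1 := card_le_sord_of_coeff P' hQ hne' C hC ab hres hb0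
    rw [hcardJ, Nat.cast_add, Nat.cast_one] at h1
    set S := insert X.red (Finset.univ.image fun i => (P i).red) with hS
    have h2 := E.sum_sord_le hb.2 hb0 S
    have h3 : ∑ Q ∈ S, (((Finset.univ.filter fun i => (P i).red = Q).card : ℤ)) = e * E.M₀ := by
      rw [← Nat.cast_sum, ← Finset.card_eq_sum_card_fiberwise (f := fun i => (P i).red)
        (s := (Finset.univ : Finset I)) (t := S) (fun i _ => by simp [hS]), Finset.card_univ, hcard]
      push_cast; rfl
    have hlt : ∑ Q ∈ S, (((Finset.univ.filter fun i => (P i).red = Q).card : ℤ))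
        < ∑ Q ∈ S, E.sord Q e hb := by
      refine Finset.sum_lt_sum (fun Q _ => hother Q) ⟨X.red, by simp [hS], ?_⟩
      rw [← Fintype.card_subtype, ← hm]
      show (m : ℤ) < E.sord X.red e (hb : F)
      exact lt_of_lt_of_le (lt_add_one _) h1
    omega
  have hval : lval X e a * scale P' X.red none ^ e =
      G top * ∏ i : {i // (P i).red = X.red}, (cU P' X.red none - cU P' X.red (some i)) := by
    have := congrArg (Polynomial.eval (cU P' X.red none)) hfac
    simp only [hp, hπ, Polynomial.eval_finsetSum, Polynomial.eval_mul, Polynomial.eval_C,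
      Polynomial.eval_pow, Polynomial.eval_X, Polynomial.eval_prod, Polynomial.eval_sub,
      hGval] at this
    exact this
  have hscale : IsUnit (scale P' X.red none ^ e) :=
    (Pt.isUnit_of_res (k := k) (res_scale_ne P' hQ none)).pow e
  rw [← Ideal.span_singleton_mul_right_unit hscale, hval, Ideal.span_singleton_mul_left_unit hunit,
    ← Ideal.prod_span_singleton, ← Finset.prod_filter_mul_prod_filter_not Finset.univ
      (fun i => (P i).red = X.red),
    Finset.prod_eq_one (s := Finset.univ.filter fun i => ¬(P i).red = X.red)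
      (fun i hi => by rw [dist_eq_top (Finset.mem_filter.mp hi).2, Ideal.one_eq_top]),
    mul_one]
  refine Eq.trans (Finset.prod_congr rfl fun i _ => (?_ : _ = Pt.dist (P i.1) X))
    (Finset.prod_subtype _ (by simp) fun i => Pt.dist (P i) X).symm
  exact (dist_eq_span P' hQ (some i) none).symm

/-- The evaluation matrix. -/
def emat (e : ℕ) (ε : I ≃ Fin (E.dim e)) : Matrix I I R :=
  Matrix.of fun i j => (P i).sv e (E.bas e (ε j))

/-- The distance, `⊤` on the diagonal. -/
def ndist [DecidableEq I] (i j : I) : Ideal R := if i = j then ⊤ else Pt.dist (P i) (P j)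

omit [IsLocalRing R] [IsKLocal k R] [IsNoetherianRing R] [IsDomain R] in
theorem span_det_vandermonde_sq {n : ℕ} (v : Fin n → R) :
    Ideal.span {(Matrix.vandermonde v).det ^ 2}
      = ∏ a, ∏ b, (if a = b then ⊤ else Ideal.span {v b - v a}) := by
  set f : Fin n → Fin n → Ideal R := fun a b => Ideal.span {v b - v a} with hf
  have hsymm : ∀ a b, f a b = f b a := fun a b => by
    simp only [hf]
    rw [← Ideal.span_singleton_neg, neg_sub]
  have hsplit : ∀ a, ∏ b, (if a = b then ⊤ else f a b)
      = (∏ b ∈ Finset.Ioi a, f a b) * ∏ b ∈ Finset.Iio a, f a b := by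
    intro a
    have hd : Disjoint (Finset.Ioi a) (Finset.Iio a) := Finset.disjoint_left.mpr fun b h h' => by
      simp at h h'; exact lt_asymm h h'
    rw [← Finset.prod_union hd, ← Finset.prod_subset (Finset.subset_univ (Finset.Ioi a ∪ Finset.Iio a))]
    · refine Finset.prod_congr rfl fun b hb => if_neg ?_
      simp only [Finset.mem_union, Finset.mem_Ioi, Finset.mem_Iio] at hb
      rintro rfl; simp at hb
    · intro b _ hb
      simp only [Finset.mem_union, Finset.mem_Ioi, Finset.mem_Iio, not_or, not_lt] at hb
      rw [if_pos (le_antisymm hb.2 hb.1), Ideal.one_eq_top] <;> rfl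
  rw [Finset.prod_congr rfl fun a _ => hsplit a, Finset.prod_mul_distrib]
  have hswap : ∏ a : Fin n, ∏ b ∈ Finset.Iio a, f a b
      = ∏ a : Fin n, ∏ b ∈ Finset.Ioi a, f a b := by
    rw [Finset.prod_comm' (t' := Finset.univ) (s' := fun b => Finset.Ioi b) (by simp)]
    exact Finset.prod_congr rfl fun a _ => Finset.prod_congr rfl fun b _ => hsymm b a
  rw [hswap, ← sq, ← Ideal.span_singleton_pow, Matrix.det_vandermonde]
  simp [hf, Ideal.prod_span_singleton]

omit [IsLocalRing R] [IsKLocal k R] [IsNoetherianRing R] [IsDomain R] in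
theorem det_blockDiag {o : Type} [Fintype o] [DecidableEq o] {m : o → Type} [∀ i, Fintype (m i)]
    [∀ i, DecidableEq (m i)] (M : ∀ i, Matrix (m i) (m i) R) :
    (Matrix.blockDiagonal' M).det = ∏ i, (M i).det := by
  classical
  let b : (Σ i, m i) → Fin (Fintype.card o) := fun κ => Fintype.equivFin o κ.1
  have ht : (Matrix.blockDiagonal' M).BlockTriangular b := by
    rintro ⟨i, x⟩ ⟨j, y⟩ h
    refine Matrix.blockDiagonal'_apply_ne M x y fun e => ?_
    subst e
    exact lt_irrefl _ h
  rw [ht.det_fintype, ← Equiv.prod_comp (Fintype.equivFin o)]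
  refine Finset.prod_congr rfl fun i _ => ?_
  let e : m i ≃ {κ // b κ = Fintype.equivFin o i} :=
    Equiv.ofBijective (fun x => ⟨⟨i, x⟩, rfl⟩) ⟨fun x y h =>
      eq_of_heq (Sigma.mk.inj (congrArg Subtype.val h)).2, by
      rintro ⟨⟨j, y⟩, h⟩
      obtain rfl : j = i := (Fintype.equivFin o).injective h
      exact ⟨y, rfl⟩⟩
  rw [← Matrix.det_submatrix_equiv_self e]
  congr 1
  ext x y
  exact Matrix.blockDiagonal'_apply_eq M i x y

/-- **The determinant of evaluations.** -/
theorem span_det_sq [DecidableEq I] (e : ℕ) (ε : I ≃ Fin (E.dim e))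
    (hne : Pairwise fun i j => Pt.dist (P i) (P j) ≠ ⊥) :
    (emat P e ε).det ^ 2 ∈ ∏ i, ∏ j, ndist P i j ∧
      ((∀ h : E.R e, (h : F) ≠ 0 →
          ∃ Q : Place k F, E.sord Q e h < Nat.card {i // (P i).red = Q}) →
        Ideal.span {(emat P e ε).det ^ 2} = ∏ i, ∏ j, ndist P i j) := by
  classical
  let S := ↥(Finset.univ.image fun i => (P i).red)
  let rd : I → S := fun i => ⟨(P i).red, by simp⟩
  let J : S → Type := fun q => {i // rd i = q}
  let Pq : (q : S) → J q → Pt E R := fun q i => P i.1
  have hQ : ∀ (q : S) (i : J q), (Pq q i).red = q.1 := fun q i => congrArg Subtype.val i.2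
  have hneq : ∀ q : S, Pairwise fun i j => Pt.dist (Pq q i) (Pq q j) ≠ ⊥ :=
    fun q i j h => hne fun e => h (Subtype.ext e)
  let K := Σ q : S, Fin (Fintype.card (J q))
  let eq : K ≃ I := (Equiv.sigmaCongrRight fun q => (Fintype.equivFin (J q)).symm).trans
    (Equiv.sigmaFiberEquiv rd)
  choose C hC using fun (q : S) (j : Fin (E.dim e)) => exists_coeff (Pq q) (hQ q) e (E.bas e j)
  let W : Matrix K K R := Matrix.blockDiagonal' fun q =>
    Matrix.vandermonde fun a => cU (Pq q) q.1 ((Fintype.equivFin (J q)).symm a)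
  let Cm : Matrix K K R := Matrix.of fun κ κ' => C κ.1 (ε (eq κ')) κ.2
  let sc : K → R := fun κ => scale (Pq κ.1) κ.1.1 ((Fintype.equivFin (J κ.1)).symm κ.2) ^ e
  have hmat : Matrix.diagonal sc * (emat P e ε).submatrix eq eq = W * Cm := by
    ext ⟨q, a⟩ κ'
    rw [Matrix.diagonal_mul, Matrix.mul_apply, Fintype.sum_sigma,
      Finset.sum_eq_single q ?_ (by simp)]
    · simp only [W, Matrix.blockDiagonal'_apply_eq, Cm, Matrix.of_apply, Matrix.vandermonde_apply]
      refine Eq.trans ?_ (Finset.sum_congr rfl fun l _ => mul_comm _ _)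
      rw [← hC]
      simp only [cev_apply, sc, emat, Matrix.submatrix_apply, Matrix.of_apply]
      rw [mul_comm]
      rfl
    · intro q' _ hq'
      exact Finset.sum_eq_zero fun b _ => by
        simp [W, Matrix.blockDiagonal'_apply, Ne.symm hq']
  have hscu : IsUnit (∏ κ, sc κ) := IsUnit.prod_univ_iff.mpr fun κ =>
    (Pt.isUnit_of_res (k := k) (res_scale_ne (Pq κ.1) (hQ κ.1) _)).pow e
  have hdet : (∏ κ, sc κ) * (emat P e ε).det = W.det * Cm.det := by
    have := congrArg Matrix.det hmat
    rwa [Matrix.det_mul, Matrix.det_mul, Matrix.det_diagonal, Matrix.det_submatrix_equiv_self]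
      at this
  have hW : Ideal.span {W.det ^ 2} = ∏ i, ∏ j, ndist P i j := by
    have hD : ∏ i, ∏ j, ndist P i j = ∏ κ, ∏ κ', ndist P (eq κ) (eq κ') := by
      rw [← Equiv.prod_comp eq]
      exact Finset.prod_congr rfl fun κ _ => (Equiv.prod_comp eq _).symm
    rw [hD, det_blockDiag, ← Finset.prod_pow, ← Ideal.prod_span_singleton,
      Fintype.prod_sigma]
    refine Finset.prod_congr rfl fun q _ => ?_
    rw [span_det_vandermonde_sq]
    refine Finset.prod_congr rfl fun a _ => ?_
    rw [Fintype.prod_sigma, Finset.prod_eq_single q ?_ (by simp)]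
    · refine Finset.prod_congr rfl fun b _ => ?_
      rcases eq_or_ne a b with rfl | hab
      · simp [ndist]
      · have : eq ⟨q, a⟩ ≠ eq ⟨q, b⟩ := fun h =>
          hab (eq_of_heq (Sigma.mk.inj (eq.injective h)).2)
        rw [if_neg hab, ndist, if_neg this]
        exact (dist_eq_span (Pq q) (hQ q) _ _).symm
    · intro q' _ hq'
      refine Finset.prod_eq_one fun b _ => ?_
      rw [ndist, Ideal.one_eq_top]
      split_ifs with h
      · rfl
      · refine dist_eq_top fun h' => hq' (Subtype.ext ?_)
        have e1 := hQ q ((Fintype.equivFin (J q)).symm a)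
        have e2 := hQ q' ((Fintype.equivFin (J q')).symm b)
        exact (e2.symm.trans (h'.symm.trans e1))
  have hkey : Ideal.span {(emat P e ε).det ^ 2} = Ideal.span {W.det ^ 2} * Ideal.span {Cm.det ^ 2} := by
    rw [Ideal.span_singleton_mul_span_singleton, ← mul_pow, ← hdet, mul_pow,
      Ideal.span_singleton_mul_left_unit (hscu.pow 2)]
  refine ⟨?_, fun hgood => ?_⟩
  · rw [← hW]
    have h1 : (emat P e ε).det ^ 2 ∈ Ideal.span {(emat P e ε).det ^ 2} :=
      Ideal.mem_span_singleton_self _
    rw [hkey] at h1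
    exact (Ideal.mul_le_inf h1).1
  · rw [hkey, hW, show Ideal.span {Cm.det ^ 2} = 1 by
      rw [Ideal.one_eq_top, Ideal.span_singleton_eq_top]
      refine (Pt.isUnit_of_res (k := k) ?_).pow 2
      rw [AlgHom.map_det]
      intro h0
      obtain ⟨lam, hlam, hker⟩ := Matrix.exists_mulVec_eq_zero_iff.mpr h0
      let ab : Fin (E.dim e) → k := fun j => lam (eq.symm (ε.symm j))
      set hb : E.R e := ∑ j, ab j • E.bas e j with hhb
      have hb0 : (hb : F) ≠ 0 := by
        intro h
        apply hlam
        ext κ
        have h' : hb = 0 := Subtype.ext h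
        have : ab (ε (eq κ)) = 0 := by
          have hr : (E.bas e).repr hb (ε (eq κ)) = ab (ε (eq κ)) := by
            rw [hhb, Module.Basis.repr_sum_self]
          rw [← hr, h', map_zero]; rfl
        simpa [ab] using this
      obtain ⟨Q, hQlt⟩ := hgood hb hb0
      by_cases hmem : Q ∈ Finset.univ.image fun i => (P i).red
      · set q : S := ⟨Q, hmem⟩
        have := card_le_sord_of_coeff (Pq q) (hQ q) (hneq q) (C q) (hC q) ab (fun l => by
          have hh := congrFun hker ⟨q, l⟩
          rw [Matrix.mulVec, dotProduct] at hh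
          rw [← Equiv.sum_comp (eq.trans ε)]
          simpa [Cm, ab, mul_comm] using hh) hb0
        have hc : Fintype.card (J q) = Nat.card {i // (P i).red = Q} := by
          rw [← Nat.card_eq_fintype_card]
          exact Nat.card_congr (Equiv.subtypeEquivRight fun i => Subtype.ext_iff)
        rw [hc] at this
        exact absurd hQlt (not_lt.mpr this)
      · have : IsEmpty {i // (P i).red = Q} := ⟨fun i => hmem (by
          rw [← i.2]; exact Finset.mem_image_of_mem _ (Finset.mem_univ _))⟩
        rw [Nat.card_eq_zero.mpr (Or.inl this)] at hQlt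
        exact absurd (E.sord_nonneg hb.2 hb0 Q) (not_le.mpr (by exact_mod_cast hQlt)),
      mul_one]

end Fermat.Agent.MW.Height
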