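import Fermat.Agent.MW.Height.Local

/-!
# The local formula for theta coordinates

* auxiliary points imposing independent conditions on two systems at once;
* points with constant coordinates;
* the ideal of the two-sided determinant coordinates.
-/

set_option autoImplicit false

noncomputable section

open AlgebraicCurve IsLocalRing

namespace Fermat.Agent.MW.Height

variable {k F : Type} [Field k] [Field F] [Algebra k F] [IsAlgClosed k] [FF.IsFunctionField k F]

namespace Emb

variable (E : Emb k F)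

/-- The sections of level `a` vanishing on `Z`. -/
abbrev Rsub (a : ℕ) (Z : Divisor k F) : Submodule k F := riemannRochSpace (E.lev a - Z)

theorem sord_ge_of_mem_Rsub {a : ℕ} {Z : Divisor k F} {h : F} (hh : h ∈ E.Rsub a Z) (h0 : h ≠ 0)
    (v : Place k F) : Z v ≤ E.sord v a h := by
  have := (mem_riemannRochSpace_iff.mp hh v).resolve_left h0
  rw [Finsupp.sub_apply] at this
  rw [sord]; omega

theorem mem_Rsub_of {a : ℕ} {Z : Divisor k F} {h : F} (hh : ∀ v, Z v ≤ E.sord v a h) :
    h ∈ E.Rsub a Z :=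
  mem_riemannRochSpace_iff.mpr fun v => Or.inr (by
    have := hh v; rw [sord] at this; rw [Finsupp.sub_apply]; omega)

theorem finrank_Rsub {a : ℕ} {Z : Divisor k F}
    (hdeg : 2 * (genusFF k F : ℤ) - 2 < (a : ℤ) * E.M₀ - Divisor.degree Z) :
    (Module.finrank k (E.Rsub a Z) : ℤ) = (a : ℤ) * E.M₀ - Divisor.degree Z + 1 - genusFF k F := by
  have := FF.finrank_riemannRochSpace_of_lt_degree (D := E.lev a - Z)
    (by rw [map_sub, degree_lev]; exact hdeg)
  rw [map_sub, degree_lev] at this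
  exact this

theorem lt_of_sord_eq {a : ℕ} {Z : Divisor k F} {h : F} (hh : h ∈ E.Rsub a Z) (h0 : h ≠ 0)
    {v : Place k F} (hv : E.sord v a h = Z v) :
    E.Rsub a (Z + Finsupp.single v 1) < E.Rsub a Z := by
  refine lt_of_le_of_ne (FF.riemannRochSpace_mono ?_) fun he => ?_
  · exact sub_le_sub_left (le_add_of_nonneg_right (Finsupp.single_nonneg.mpr zero_le_one)) _
  · have := E.sord_ge_of_mem_Rsub (he.symm ▸ hh) h0 v
    rw [Finsupp.add_apply, Finsupp.single_eq_same, hv] at this
    omega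

open scoped Classical in
theorem card_bad_le {a : ℕ} {Z : Divisor k F} (hZ : 0 ≤ Z) (hne : E.Rsub a Z ≠ ⊥)
    {N : ℕ} (U : Fin N → Place k F) (hU : Function.Injective U) :
    (Finset.univ.filter fun j => ∀ h ∈ E.Rsub a Z, h ≠ 0 → E.sord (U j) a h ≠ Z (U j)).card
      ≤ a * E.M₀ := by
  obtain ⟨h, hh, h0⟩ := Submodule.exists_mem_ne_zero_of_ne_bot hne
  set S := (Finset.univ.filter fun j => ∀ h ∈ E.Rsub a Z, h ≠ 0 → E.sord (U j) a h ≠ Z (U j)).image U
  have hmem : h ∈ E.R a := E.mem_R_of_sord fun v =>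
    (Finsupp.le_def.mp hZ v).trans (E.sord_ge_of_mem_Rsub hh h0 v)
  have h1 : ∀ v ∈ S, (1 : ℤ) ≤ E.sord v a h := by
    intro v hv
    obtain ⟨j, hj, rfl⟩ := Finset.mem_image.mp hv
    have h2 := (Finset.mem_filter.mp hj).2 h hh h0
    have h3 := E.sord_ge_of_mem_Rsub hh h0 (U j)
    have h4 : (0 : ℤ) ≤ Z (U j) := Finsupp.le_def.mp hZ (U j)
    omega
  have h5 := (Finset.sum_le_sum h1).trans (E.sum_sord_le hmem h0 S)
  simp only [Finset.sum_const, nsmul_eq_mul, mul_one] at h5
  rw [← Finset.card_image_of_injective _ hU]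
  exact_mod_cast h5

/-- The divisor of a family of places, with multiplicities. -/
def famDiv {ι : Type} [Fintype ι] (P : ι → Place k F) : Divisor k F := ∑ i, Finsupp.single (P i) 1

omit [IsAlgClosed k] [FF.IsFunctionField k F] in
theorem famDiv_nonneg {ι : Type} [Fintype ι] (P : ι → Place k F) : 0 ≤ famDiv P :=
  Finset.sum_nonneg fun _ _ => Finsupp.single_nonneg.mpr zero_le_one

theorem degree_famDiv {ι : Type} [Fintype ι] (P : ι → Place k F) :
    Divisor.degree (famDiv P) = Fintype.card ι := by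
  simp [famDiv, map_sum, Divisor.degree_single, place_deg_eq_one]

omit [IsAlgClosed k] [FF.IsFunctionField k F] in
theorem famDiv_apply {ι : Type} [Fintype ι] (P : ι → Place k F) (v : Place k F) :
    famDiv P v = (Nat.card {i // P i = v} : ℤ) := by
  classical
  simp [famDiv, Finsupp.finsetSum_apply, Finsupp.single_apply, Finset.sum_boole,
    Nat.card_eq_fintype_card, Fintype.card_subtype]

omit [IsAlgClosed k] [FF.IsFunctionField k F] in
theorem famDiv_elim {ι ι' : Type} [Fintype ι] [Fintype ι'] (P : ι → Place k F)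
    (Q : ι' → Place k F) : famDiv (Sum.elim P Q) = famDiv P + famDiv Q := by
  simp [famDiv, Fintype.sum_sum_type]

/-- **Auxiliary points** imposing independent conditions on two systems at once. -/
theorem exists_good {a : ℕ} {N r : ℕ} (U : Fin N → Place k F) (hU : Function.Injective U)
    (hN : 2 * (a * E.M₀) + r ≤ N) {Z Z' : Divisor k F} (hZ : 0 ≤ Z) (hZ' : 0 ≤ Z')
    (hr : Module.finrank k (E.Rsub a Z) ≤ r) (hr' : Module.finrank k (E.Rsub a Z') ≤ r) :
    ∃ S : Fin r → Fin N, Function.Injective S ∧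
      E.Rsub a (Z + famDiv (U ∘ S)) = ⊥ ∧ E.Rsub a (Z' + famDiv (U ∘ S)) = ⊥ := by
  classical
  induction r generalizing N U Z Z' with
  | zero =>
    refine ⟨Fin.elim0, fun i => i.elim0, ?_, ?_⟩ <;>
      simp only [famDiv, Finset.univ_eq_empty, Finset.sum_empty, add_zero] <;>
      apply Submodule.finrank_eq_zero.mp <;> omega
  | succ r ih =>
    obtain ⟨S', hS', -, -⟩ : ∃ S : Fin r → Fin N, Function.Injective S ∧ True ∧ True :=
      ⟨fun i => ⟨i, by omega⟩, fun i j h => Fin.ext (by simpa using h), trivial, trivial⟩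
    clear hS'
    set bad : Divisor k F → Finset (Fin N) := fun W =>
      if E.Rsub a W = ⊥ then ∅ else
        Finset.univ.filter fun j => ∀ h ∈ E.Rsub a W, h ≠ 0 → E.sord (U j) a h ≠ W (U j) with hbad
    have hcard : ∀ W, 0 ≤ W → (bad W).card ≤ a * E.M₀ := by
      intro W hW
      simp only [hbad]
      split_ifs with h
      · simp
      · exact E.card_bad_le hW h U hU
    obtain ⟨j, hj⟩ : ∃ j, j ∉ bad Z ∪ bad Z' := by
      by_contra hcon
      push Not at hcon
      have h1 : (Finset.univ : Finset (Fin N)) ⊆ bad Z ∪ bad Z' := fun j _ => hcon j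
      have h2 := (Finset.card_le_card h1).trans (Finset.card_union_le _ _)
      rw [Finset.card_univ, Fintype.card_fin] at h2
      have := hcard Z hZ
      have := hcard Z' hZ'
      omega
    rw [Finset.mem_union, not_or] at hj
    have hdec : ∀ W, 0 ≤ W → Module.finrank k (E.Rsub a W) ≤ r + 1 → j ∉ bad W →
        Module.finrank k (E.Rsub a (W + Finsupp.single (U j) 1)) ≤ r := by
      intro W _ hWr hjW
      simp only [hbad] at hjW
      split_ifs at hjW with h
      · have hle : E.Rsub a (W + Finsupp.single (U j) 1) ≤ E.Rsub a W :=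
          FF.riemannRochSpace_mono (sub_le_sub_left
            (le_add_of_nonneg_right (Finsupp.single_nonneg.mpr zero_le_one)) _)
        rw [h, le_bot_iff] at hle
        rw [hle, finrank_bot]
        exact Nat.zero_le _
      · simp only [Finset.mem_filter, Finset.mem_univ, true_and, not_forall, not_not] at hjW
        obtain ⟨h, hh, h0, he⟩ := hjW
        have := Submodule.finrank_lt_finrank_of_lt (E.lt_of_sord_eq hh h0 he)
        omega
    obtain ⟨N', rfl⟩ : ∃ N', N = N' + 1 := ⟨N - 1, by omega⟩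
    obtain ⟨S, hS, h1, h2⟩ := ih (U ∘ j.succAbove) (hU.comp Fin.succAbove_right_injective)
      (by omega) (Z := Z + Finsupp.single (U j) 1) (Z' := Z' + Finsupp.single (U j) 1)
      (add_nonneg hZ (Finsupp.single_nonneg.mpr zero_le_one))
      (add_nonneg hZ' (Finsupp.single_nonneg.mpr zero_le_one)) (hdec Z hZ hr hj.1)
      (hdec Z' hZ' hr' hj.2)
    refine ⟨Fin.cons j (j.succAbove ∘ S), Fin.cons_injective_iff.mpr ⟨?_,
      Fin.succAbove_right_injective.comp hS⟩, ?_, ?_⟩
    · rintro ⟨i, hi⟩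
      exact Fin.succAbove_ne j (S i) hi
    · convert h1 using 2
      simp [famDiv, Fin.sum_univ_succ, add_assoc]
    · convert h2 using 2
      simp [famDiv, Fin.sum_univ_succ, add_assoc]

end Emb

variable {E : Emb k F}

namespace Pt

/-- The image of a point under a morphism of rings. -/
def map {R R' : Type} [CommRing R] [Algebra k R] [CommRing R'] [Algebra k R'] (ψ : R →ₐ[k] R')
    (P : Pt E R) : Pt E R' := ⟨P.c, ψ.comp P.χ⟩

@[simp]
theorem sv_map {R R' : Type} [CommRing R] [Algebra k R] [CommRing R'] [Algebra k R']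
    (ψ : R →ₐ[k] R') (P : Pt E R) (e : ℕ) (h : E.R e) : (P.map ψ).sv e h = ψ (P.sv e h) := rfl

/-- A place in a given chart, as a point over `k`. -/
def ofPlace {Q : Place k F} {c : Bool} (hc : E.InChart Q c) : Pt E k := ⟨c, E.evalHom hc⟩

theorem sv_ofPlace {Q : Place k F} {c : Bool} (hc : E.InChart Q c) (e : ℕ) (h : E.R e) :
    (ofPlace hc).sv e h = Emb.val Q ((h : F) / E.σ c ^ e) := rfl

theorem sv_ofPlace_eq_zero_iff {Q : Place k F} {c : Bool} (hc : E.InChart Q c) (e : ℕ)
    (h : E.R e) : (ofPlace hc).sv e h = 0 ↔ (h : F) = 0 ∨ 0 < E.sord Q e h := by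
  rw [sv_ofPlace, Emb.val_eq_zero_iff (x := (h : F) / E.σ c ^ e)
    (E.B_le_valuationSubring hc (E.sec c e h).2)]
  rcases eq_or_ne (h : F) 0 with h0 | h0
  · simp [h0]
  · rw [E.ord_div_σ_pow hc h0]
    simp [h0, div_eq_zero_iff, E.σ_ne_zero]

omit [IsAlgClosed k] [FF.IsFunctionField k F] in
theorem res_self (r : k) [IsKLocal k k] : res k k r = r := (res k k).commutes r

instance instIsKLocalSelf : IsKLocal k k := ⟨fun r => ⟨r, by simp⟩⟩

/-- The reduction determines the place. -/
theorem eq_of_forall_res {R : Type} [CommRing R] [Algebra k R] [IsLocalRing R] [IsKLocal k R]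
    (P : Pt E R) {Q : Place k F}
    (hQ : ∀ g : E.R 1, (g : F) ≠ 0 → 0 < E.sord Q 1 g → res k R (P.sv 1 g) = 0) : P.red = Q := by
  by_contra h
  obtain ⟨g, hg, g0, hge, hgP⟩ := E.exists_sec (e := 1) (Finsupp.single Q 1)
    (Finsupp.single_nonneg.mpr zero_le_one) P.red
    (by rw [Divisor.degree_single, place_deg_eq_one]; have := E.le_M₀; push_cast; omega)
  rw [Finsupp.single_eq_of_ne h] at hgP
  have h1 := (P.res_sv_eq_zero_iff 1 ⟨g, hg⟩).mp
    (hQ ⟨g, hg⟩ g0 (lt_of_lt_of_le one_pos (by simpa using hge Q)))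
  simp [g0, hgP] at h1

theorem red_ofPlace {Q : Place k F} {c : Bool} (hc : E.InChart Q c) : (ofPlace hc).red = Q :=
  eq_of_forall_res _ fun g _ hg => by
    rw [res_self, sv_ofPlace_eq_zero_iff]; exact Or.inr hg

variable (E) in
/-- A place as a point with constant coordinates. -/
def cpt (R : Type) [CommRing R] [Algebra k R] (Q : Place k F) : Pt E R :=
  (ofPlace (E.inChart_chart Q)).map (Algebra.ofId k R)

theorem map_cpt {R R' : Type} [CommRing R] [Algebra k R] [CommRing R'] [Algebra k R']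
    (ψ : R →ₐ[k] R') (Q : Place k F) : (cpt E R Q).map ψ = cpt E R' Q := by
  show Pt.mk _ _ = Pt.mk _ _
  exact congrArg (Pt.mk (E.chart Q)) (AlgHom.ext fun x => ψ.commutes _)

theorem red_cpt {R : Type} [CommRing R] [Algebra k R] [IsLocalRing R] [IsKLocal k R]
    (Q : Place k F) : (cpt E R Q).red = Q :=
  eq_of_forall_res _ fun g _ hg => by
    show res k R (algebraMap k R _) = 0
    rw [AlgHom.commutes, Algebra.algebraMap_self_apply]
    exact (sv_ofPlace_eq_zero_iff (E.inChart_chart Q) 1 g).mpr (Or.inr hg)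

end Pt

variable {R : Type} [CommRing R] [Algebra k R] [IsLocalRing R] [IsKLocal k R]
  [IsNoetherianRing R]

/-- The section `1` of level one. -/
abbrev oneSec (E : Emb k F) : E.R 1 := E.σsec false 1

/-- The distance to `O`, raised to the `M₀`, is the reciprocal of the affine size. -/
theorem dist_O_pow (P : Pt E R) :
    Pt.dist P (Pt.cpt E R E.O) ^ E.M₀ = Ideal.span {P.sv 1 (oneSec E)} := by
  have hone : (oneSec E : F) = 1 := by simp [Emb.σsec, Emb.σ]
  by_cases h : P.red = E.O
  swap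
  · rw [dist_eq_top (by rw [Pt.red_cpt]; exact h), Ideal.top_pow, eq_comm,
      Ideal.span_singleton_eq_top]
    refine Pt.isUnit_of_res (k := k) ?_
    rw [Ne, P.res_sv_eq_zero_iff, hone]
    simp [Emb.sord, Emb.lev_apply_ne E 1 h]
  let Q' : Bool → Pt E R := fun b => if b then Pt.cpt E R E.O else P
  have hQ : ∀ b, (Q' b).red = E.O := by
    intro b; cases b
    · exact h
    · exact Pt.red_cpt _
  have hsO : E.sord E.O 1 (1 : F) = E.M₀ := by simp [Emb.sord, Emb.lev_apply_O]
  set y : F := E.w E.O ^ E.M₀ / E.u E.O ^ E.M₀ with hy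
  have hy0 : y ≠ 0 := div_ne_zero (pow_ne_zero _ (E.w_ne_zero _)) (pow_ne_zero _ (E.u_ne_zero _))
  have hyu : y * E.u E.O ^ E.M₀ = E.w E.O ^ E.M₀ :=
    div_mul_cancel₀ _ (pow_ne_zero _ (E.u_ne_zero _))
  have hsy : ∀ v, E.sord v (1 + E.M₀) y + (E.M₀ : ℤ) * E.sord v 1 (E.u E.O)
      = E.sord v 1 (1 : F) + (E.M₀ : ℤ) * E.sord v 2 (E.w E.O) := by
    intro v
    rw [← E.sord_pow (a := 1) (E.u_ne_zero _) v E.M₀, ← E.sord_pow (a := 2) (E.w_ne_zero _) v E.M₀,
      ← E.sord_mul hy0 (pow_ne_zero _ (E.u_ne_zero _)),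
      ← E.sord_mul one_ne_zero (pow_ne_zero _ (E.w_ne_zero _)), hyu, one_mul,
      show 1 + E.M₀ + E.M₀ * 1 = 1 + E.M₀ * 2 by ring]
  have hyQ : E.sord E.O (1 + E.M₀) y = 0 := by
    have := hsy E.O
    rw [E.sord_u, E.sord_w, hsO] at this
    omega
  have hymem : y ∈ E.R (1 + E.M₀) := by
    refine E.mem_R_of_sord fun v => ?_
    rcases eq_or_ne v E.O with rfl | hv
    · rw [hyQ]
    · have := hsy v
      have h1 : E.sord v 1 (1 : F) = 0 := by simp [Emb.sord, Emb.lev_apply_ne E 1 hv]
      have := mul_le_mul_of_nonneg_left (E.sord_u_le_sord_w hv) (Int.natCast_nonneg E.M₀)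
      omega
  have hev : cev Q' E.O 1 (oneSec E) * cev Q' E.O 2 ⟨E.w E.O, E.w_mem _⟩ ^ E.M₀ =
      cev Q' E.O (1 + E.M₀) ⟨y, hymem⟩ * cU Q' E.O ^ E.M₀ := by
    rw [cU, ← cev_pow, ← cev_pow, ← cev_mul, ← cev_mul]
    exact cev_congr Q' E.O (by ring) (by show (oneSec E : F) * _ = _; rw [hone, one_mul]; exact hyu.symm)
  have hUO : cU Q' E.O true = 0 := by
    rw [cU, cev_apply]
    show algebraMap k R ((Pt.ofPlace (E.inChart_chart E.O)).sv 1 ⟨E.u E.O, E.u_mem _⟩) * _ = 0
    rw [(Pt.sv_ofPlace_eq_zero_iff (E.inChart_chart E.O) 1 ⟨E.u E.O, E.u_mem _⟩).mpr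
      (Or.inr (by show 0 < E.sord E.O 1 (E.u E.O); rw [E.sord_u]; exact one_pos)), map_zero, zero_mul]
  have hd := dist_eq_span Q' hQ true false
  rw [hUO, sub_zero] at hd
  rw [Pt.dist_comm]
  show Pt.dist (Q' true) (Q' false) ^ E.M₀ = _
  rw [hd, Ideal.span_singleton_pow]
  have huw : IsUnit (cev Q' E.O 2 ⟨E.w E.O, E.w_mem _⟩ false) :=
    Pt.isUnit_of_res (k := k) (by
      rw [Ne, res_cev_eq_zero_iff Q' hQ]; simp [E.w_ne_zero, E.sord_w])
  have huy : IsUnit (cev Q' E.O (1 + E.M₀) ⟨y, hymem⟩ false) :=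
    Pt.isUnit_of_res (k := k) (by
      rw [Ne, res_cev_eq_zero_iff Q' hQ]; simp [hy0, hyQ])
  have hu : IsUnit (scale Q' E.O false) := Pt.isUnit_of_res (k := k) (res_scale_ne Q' hQ false)
  have hev' := congrFun hev false
  simp only [Pi.mul_apply, Pi.pow_apply, cev_apply (h := oneSec E), pow_one] at hev'
  rw [← Ideal.span_singleton_mul_left_unit huy (cU Q' E.O false ^ E.M₀), ← hev',
    Ideal.span_singleton_mul_right_unit (huw.pow _), Ideal.span_singleton_mul_right_unit hu]
  rfl

section Theta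

variable [IsDomain R] {ι : Type} [Fintype ι] [DecidableEq ι]

/-- The determinant at a divisor and chosen auxiliary constants. -/
def tdet {N r : ℕ} (U : Fin N → Place k F) (S : Fin r → Fin N) (a : ℕ)
    (ε : ι ⊕ Fin r ≃ Fin (E.dim a)) (D : ι → Pt E R) : R :=
  (emat (Sum.elim D fun s => Pt.cpt E R (U (S s))) a ε).det

/-- The two-sided coordinate of an index `S`. -/
def tcoord {N r : ℕ} (U : Fin N → Place k F) (S : Fin r → Fin N) (a : ℕ)
    (ε : ι ⊕ Fin r ≃ Fin (E.dim a)) (e : ℕ) (c : Fin (E.dim e) → R) (D D' : ι → Pt E R) : R :=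
  tdet U S a ε D * tdet U S a ε D' *
    ∏ u ∈ Finset.univ \ Finset.univ.image S, lval (Pt.cpt E R (U u)) e c

/-- The product of the distances between distinct members of a family. -/
def pairs (D : ι → Pt E R) : Ideal R := ∏ i, ∏ j, ndist D i j

omit [IsNoetherianRing R] [IsDomain R] in
theorem pairs_sum_cpt {N r : ℕ} (U : Fin N → Place k F) (hU : Function.Injective U)
    (S : Fin r → Fin N) (hS : Function.Injective S) (D : ι → Pt E R) :
    pairs (Sum.elim D fun s => Pt.cpt E R (U (S s)))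
      = pairs D * (∏ s, ∏ i, Pt.dist (D i) (Pt.cpt E R (U (S s)))) ^ 2 := by
  have h1 : ∀ s t : Fin r,
      ndist (Sum.elim D fun s => Pt.cpt E R (U (S s))) (Sum.inr s) (Sum.inr t) = 1 := by
    intro s t
    rw [ndist, Ideal.one_eq_top]
    split_ifs with h
    · rfl
    · exact dist_eq_top (by
        simp only [Sum.elim_inr, Pt.red_cpt]
        exact fun e => h (congrArg Sum.inr (hS (hU e))))
  simp only [pairs, Fintype.prod_sum_type, h1, Finset.prod_const_one, mul_one,
    Finset.prod_mul_distrib]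
  simp only [ndist, reduceCtorEq, if_false, Sum.elim_inl, Sum.elim_inr, Sum.inl.injEq]
  rw [Finset.prod_comm (f := fun s i => Pt.dist (Pt.cpt E R (U (S s))) (D i))]
  simp only [Pt.dist_comm (Pt.cpt E R _) (D _)]
  rw [Finset.prod_comm (f := fun i s => Pt.dist (D i) (Pt.cpt E R (U (S s))))]
  ring

/-- **The two-sided formula.** -/
theorem span_tcoord_sq {N r : ℕ} (U : Fin N → Place k F) (hU : Function.Injective U) {a e : ℕ}
    (ε : ι ⊕ Fin r ≃ Fin (E.dim a)) (hN : 2 * (a * E.M₀) + r ≤ N)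
    (hdeg : 2 * (genusFF k F : ℤ) - 2 < (a : ℤ) * E.M₀ - Fintype.card ι)
    (hcard : Fintype.card ι + Fintype.card ι = e * E.M₀) (D D' : ι → Pt E R)
    (hne : Pairwise fun i j => Pt.dist (Sum.elim D D' i) (Sum.elim D D' j) ≠ ⊥)
    (hUne : ∀ i u, Pt.dist (Sum.elim D D' i) (Pt.cpt E R (U u)) ≠ ⊥)
    (c : Fin (E.dim e) → R) (hc : ∃ j, IsUnit (c j))
    (hzero : ∀ i, lval (Sum.elim D D' i) e c = 0) :
    Ideal.span (Set.range fun S : {S : Fin r → Fin N // Function.Injective S} =>
        tcoord U S.1 a ε e c D D' ^ 2)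
      = pairs D * pairs D' * ∏ u, Ideal.span {lval (Pt.cpt E R (U u)) e c} ^ 2 := by
  classical
  have hL : ∀ u, Ideal.span {lval (Pt.cpt E R (U u)) e c}
      = (∏ i, Pt.dist (D i) (Pt.cpt E R (U u))) * ∏ i, Pt.dist (D' i) (Pt.cpt E R (U u)) := by
    intro u
    rw [span_lval_eq (Sum.elim D D') e (by rw [Fintype.card_sum, hcard]) hne c hc hzero
      (Pt.cpt E R (U u)) (fun i => hUne i u), Fintype.prod_sum_type]
    rfl
  have hpne : ∀ (P : ι → Pt E R), (∀ i j, i ≠ j → Pt.dist (P i) (P j) ≠ ⊥) →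
      (∀ i u, Pt.dist (P i) (Pt.cpt E R (U u)) ≠ ⊥) → ∀ S : Fin r → Fin N, Function.Injective S →
      Pairwise fun i j => Pt.dist ((Sum.elim P fun s => Pt.cpt E R (U (S s))) i)
        ((Sum.elim P fun s => Pt.cpt E R (U (S s))) j) ≠ ⊥ := by
    intro P h1 h2 S hS i j hij
    match i, j with
    | .inl i, .inl j => exact h1 i j fun e => hij (congrArg _ e)
    | .inl i, .inr t => exact h2 i _
    | .inr s, .inl j =>
      show Pt.dist (Pt.cpt E R (U (S s))) (P j) ≠ ⊥
      rw [Pt.dist_comm]; exact h2 j _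
    | .inr s, .inr t =>
      show Pt.dist (Pt.cpt E R (U (S s))) (Pt.cpt E R (U (S t))) ≠ ⊥
      rw [dist_eq_top (by simp only [Pt.red_cpt]; exact fun e => hij (congrArg _ (hS (hU e))))]
      exact top_ne_bot
  have hDne : ∀ i j, i ≠ j → Pt.dist (D i) (D j) ≠ ⊥ := fun i j h =>
    hne (i := .inl i) (j := .inl j) fun e => h (Sum.inl_injective e)
  have hD'ne : ∀ i j, i ≠ j → Pt.dist (D' i) (D' j) ≠ ⊥ := fun i j h =>
    hne (i := .inr i) (j := .inr j) fun e => h (Sum.inr_injective e)
  have key : ∀ S : {S : Fin r → Fin N // Function.Injective S},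
      pairs D * pairs D' * ∏ u, Ideal.span {lval (Pt.cpt E R (U u)) e c} ^ 2
        = pairs (Sum.elim D fun s => Pt.cpt E R (U (S.1 s))) *
          pairs (Sum.elim D' fun s => Pt.cpt E R (U (S.1 s))) *
          ∏ u ∈ Finset.univ \ Finset.univ.image S.1,
            Ideal.span {lval (Pt.cpt E R (U u)) e c} ^ 2 := by
    intro S
    rw [pairs_sum_cpt U hU S.1 S.2, pairs_sum_cpt U hU S.1 S.2,
      ← Finset.prod_sdiff (Finset.subset_univ (Finset.univ.image S.1)),
      Finset.prod_image S.2.injOn]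
    simp only [hL, mul_pow, Finset.prod_mul_distrib, Finset.prod_pow]
    ring
  refine le_antisymm (Ideal.span_le.mpr ?_) ?_
  · rintro _ ⟨S, rfl⟩
    rw [SetLike.mem_coe, key S]
    unfold tcoord tdet
    dsimp only
    rw [mul_pow, mul_pow, ← Finset.prod_pow]
    refine Ideal.mul_mem_mul (Ideal.mul_mem_mul
      (span_det_sq _ a ε (hpne D hDne (fun i => hUne (.inl i)) S.1 S.2)).1
      (span_det_sq _ a ε (hpne D' hD'ne (fun i => hUne (.inr i)) S.1 S.2)).1) ?_
    refine Ideal.prod_mem_prod fun u _ => ?_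
    exact Ideal.pow_mem_pow (Ideal.mem_span_singleton_self _) 2
  · have hrk : ∀ P : ι → Pt E R,
        Module.finrank k (E.Rsub a (Emb.famDiv fun i => (P i).red)) ≤ r := by
      intro P
      have h1 := E.finrank_Rsub (a := a) (Z := Emb.famDiv fun i => (P i).red)
        (by rw [Emb.degree_famDiv]; exact hdeg)
      have h2 := E.finrank_Rsub (a := a) (Z := 0) (by
        rw [map_zero]; have : (0 : ℤ) ≤ Fintype.card ι := Int.natCast_nonneg _; omega)
      rw [Emb.Rsub, sub_zero, map_zero, sub_zero] at h2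
      have h3 : Fintype.card ι + r = E.dim a := by
        have := Fintype.card_congr ε
        rwa [Fintype.card_sum, Fintype.card_fin, Fintype.card_fin] at this
      rw [Emb.degree_famDiv] at h1
      change Fintype.card ι + r = Module.finrank k (riemannRochSpace (E.lev a)) at h3
      omega
    obtain ⟨S, hS, hg, hg'⟩ := E.exists_good (a := a) U hU hN
      (Emb.famDiv_nonneg fun i => (D i).red) (Emb.famDiv_nonneg fun i => (D' i).red)
      (hrk D) (hrk D')
    have good : ∀ (P : ι → Pt E R), E.Rsub a (Emb.famDiv (fun i => (P i).red)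
        + Emb.famDiv (U ∘ S)) = ⊥ → ∀ h : E.R a, (h : F) ≠ 0 →
        ∃ Q : Place k F, E.sord Q a h < Nat.card
          {i // ((Sum.elim P fun s => Pt.cpt E R (U (S s))) i).red = Q} := by
      intro P hbot h h0
      by_contra hcon
      push Not at hcon
      apply h0
      have : (h : F) ∈ E.Rsub a (Emb.famDiv (fun i => (P i).red) + Emb.famDiv (U ∘ S)) := by
        refine E.mem_Rsub_of fun v => ?_
        rw [← Emb.famDiv_elim, Emb.famDiv_apply]
        refine le_trans (le_of_eq ?_) (hcon v)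
        congr 1
        refine Nat.card_congr (Equiv.subtypeEquivRight fun i => ?_)
        cases i <;> simp [Pt.red_cpt]
      rwa [hbot, Submodule.mem_bot] at this
    have e1 : Ideal.span {tdet U S a ε D ^ 2}
        = pairs (Sum.elim D fun s => Pt.cpt E R (U (S s))) :=
      (span_det_sq _ a ε (hpne D hDne (fun i => hUne (.inl i)) S hS)).2 (good D hg)
    have e2 : Ideal.span {tdet U S a ε D' ^ 2}
        = pairs (Sum.elim D' fun s => Pt.cpt E R (U (S s))) :=
      (span_det_sq _ a ε (hpne D' hD'ne (fun i => hUne (.inr i)) S hS)).2 (good D' hg')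
    rw [key ⟨S, hS⟩]
    dsimp only
    rw [← e1, ← e2]
    simp only [Ideal.span_singleton_pow, Ideal.prod_span_singleton,
      Ideal.span_singleton_mul_span_singleton, Finset.prod_pow, ← mul_pow]
    exact Ideal.span_mono (Set.singleton_subset_iff.mpr ⟨⟨S, hS⟩, rfl⟩)

end Theta

end Fermat.Agent.MW.Height
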