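import Fermat.Agent.MW.Height.LocalTheta
import Fermat.Agent.FF.Models

/-!
# Points of the curve seen by an absolute value

Every place gets the chart in which its coordinate `x` is small; in that chart the ring of the
chart is bounded by a place bound.
-/

set_option autoImplicit false

noncomputable section

open AlgebraicCurve

namespace Fermat.Agent.MW.Height

variable {k F : Type} [Field k] [Field F] [Algebra k F] [IsAlgClosed k] [FF.IsFunctionField k F]
variable (E : Emb k F)

theorem AbsoluteValue.apply_val_inv_le {w : AbsoluteValue k ℝ} {a : k} (h : 1 < w a) :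
    w a⁻¹ ≤ 1 := by
  rw [map_inv₀]
  exact inv_le_one_of_one_le₀ h.le

namespace Emb

/-- The affine coordinate of the chart `c`: `f` or `1/f`. -/
def xc (c : Bool) : E.B c := E.sec c 1 (E.σsec (!c) 1)

theorem coe_xc (c : Bool) : (E.xc c : F) = if c then E.f⁻¹ else E.f := by
  cases c <;> simp [xc, σsec, σ]

theorem inChart_of_ord_nonneg {c : Bool} {Q : Place k F} (h : 0 ≤ Q.ord (E.xc c : F)) :
    E.InChart Q c := by
  rw [E.coe_xc] at h
  rcases eq_or_ne Q E.O with rfl | hne
  · have := E.M₀_pos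
    cases c
    · simp [E.ord_O] at h; omega
    · simp [InChart, σ, sord, E.ord_O, lev_apply_O]
  · have := E.ord_nonneg Q hne
    cases c
    · simp [InChart, σ, sord, lev_apply_ne E _ hne]
    · simp [Place.ord_inv] at h
      simp [InChart, σ, sord, lev_apply_ne E _ hne]
      omega

/-- The value of `f` at a place. -/
def fval (Q : Place k F) : k := val Q E.f

/-- `f - f(Q)` vanishes at a finite place. -/
theorem fval_spec {Q : Place k F} (h : Q ≠ E.O) : E.f - algebraMap k F (E.fval Q) ∈ FF.ordGE Q 1 :=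
  val_spec ((FF.mem_iff_ord_nonneg Q).mpr (E.ord_nonneg Q h))

theorem inChart_true_of_fval_ne {Q : Place k F} (h : Q ≠ E.O → E.fval Q ≠ 0) :
    E.InChart Q true := by
  rcases eq_or_ne Q E.O with rfl | hne
  · simp [InChart, σ, sord, E.ord_O, lev_apply_O]
  · have h1 : ¬(E.f = 0 ∨ 0 < Q.ord E.f) := fun h' =>
      h hne ((val_eq_zero_iff ((FF.mem_iff_ord_nonneg Q).mpr (E.ord_nonneg Q hne))).mpr h')
    have := E.ord_nonneg Q hne
    rw [not_or, not_lt] at h1
    simp [InChart, σ, sord, lev_apply_ne E _ hne]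
    omega

open scoped Classical in
/-- The chart in which the coordinate is small for `w`. -/
def ch (w : AbsoluteValue k ℝ) (Q : Place k F) : Bool :=
  if Q = E.O then true else if w (E.fval Q) ≤ 1 then false else true

theorem inChart_ch (w : AbsoluteValue k ℝ) (Q : Place k F) : E.InChart Q (E.ch w Q) := by
  classical
  unfold ch
  split_ifs with h1 h2
  · exact E.inChart_true_of_fval_ne fun h => absurd h1 h
  · simp [InChart, σ, sord, lev_apply_ne E _ h1]
  · refine E.inChart_true_of_fval_ne fun _ h => h2 ?_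
    rw [h, map_zero]; exact zero_le_one

/-- The affine size of a place. -/
def mu (w : AbsoluteValue k ℝ) (Q : Place k F) : ℝ := max 1 (w (E.fval Q))

theorem one_le_mu (w : AbsoluteValue k ℝ) (Q : Place k F) : 1 ≤ E.mu w Q := le_max_left _ _

theorem mu_pos (w : AbsoluteValue k ℝ) (Q : Place k F) : 0 < E.mu w Q :=
  zero_lt_one.trans_le (E.one_le_mu w Q)

end Emb

/-- A place in the chart adapted to `w`. -/
def gpt (w : AbsoluteValue k ℝ) (Q : Place k F) : Pt E k := Pt.ofPlace (E.inChart_ch w Q)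

theorem red_gpt (w : AbsoluteValue k ℝ) (Q : Place k F) : (gpt E w Q).red = Q := Pt.red_ofPlace _

theorem gpt_O (w : AbsoluteValue k ℝ) : gpt E w E.O = Pt.cpt E k E.O := by
  show Pt.mk _ _ = Pt.mk _ _
  have h : E.ch w E.O = E.chart E.O := by rw [E.chart_O]; simp [Emb.ch]
  have key : ∀ {c c' : Bool} (hc : E.InChart E.O c) (hc' : E.InChart E.O c'), c = c' →
      Pt.mk c (E.evalHom hc) = Pt.mk c' (E.evalHom hc') := by rintro c c' hc hc' rfl; rfl
  rw [key (E.inChart_ch w E.O) (E.inChart_chart E.O) h]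
  exact congrArg (Pt.mk _) (AlgHom.ext fun x => rfl)

theorem cpt_self (Q : Place k F) : Pt.cpt E k Q = Pt.ofPlace (E.inChart_chart Q) := by
  show Pt.mk _ _ = Pt.mk _ _
  exact congrArg (Pt.mk _) (AlgHom.ext fun x => rfl)

theorem val_mul_algebraMap {Q : Place k F} {x : F} (hx : x ∈ Q.toValuationSubring) (a : k) :
    Emb.val Q (x * algebraMap k F a) = Emb.val Q x * a := by
  refine Emb.val_eq ?_
  have := FF.mul_mem_ordGE Q (Emb.val_spec hx) (FF.algebraMap_mem_ordGE_zero Q a)
  rw [add_zero] at this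
  convert this using 1
  rw [map_mul]; ring

theorem val_mul {Q : Place k F} {x y : F} (hx : x ∈ Q.toValuationSubring)
    (hy : y ∈ Q.toValuationSubring) : Emb.val Q (x * y) = Emb.val Q x * Emb.val Q y := by
  refine Emb.val_eq ?_
  have h1 := FF.mul_mem_ordGE Q (Emb.val_spec hx) ((FF.mem_ordGE_zero Q).mpr hy)
  have h2 := FF.mul_mem_ordGE Q (FF.algebraMap_mem_ordGE_zero Q (Emb.val Q x)) (Emb.val_spec hy)
  simp only [add_zero, zero_add] at h1 h2
  convert add_mem h1 h2 using 1
  rw [map_mul]; ring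

/-- Raw values against values in the adapted chart. -/
theorem apply_sv_cpt (w : AbsoluteValue k ℝ) {Q : Place k F} (hQ : Q ≠ E.O) (e : ℕ) (h : E.R e) :
    w ((Pt.cpt E k Q).sv e h) = E.mu w Q ^ e * w ((gpt E w Q).sv e h) := by
  classical
  have hfmem : E.f ∈ Q.toValuationSubring := (FF.mem_iff_ord_nonneg Q).mpr (E.ord_nonneg Q hQ)
  have hreg : (h : F) ∈ Q.toValuationSubring := by
    rcases eq_or_ne (h : F) 0 with h0 | h0
    · rw [h0]; exact zero_mem _
    · rw [FF.mem_iff_ord_nonneg]
      have := E.sord_nonneg h.2 h0 Q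
      rwa [Emb.sord, E.lev_apply_ne e hQ, add_zero] at this
  rw [cpt_self, Pt.sv_ofPlace, E.chart_of_ne hQ, gpt, Pt.sv_ofPlace]
  rcases le_or_gt (w (E.fval Q)) 1 with hle | hle
  · have hch : E.ch w Q = false := by simp [Emb.ch, hQ, hle]
    rw [hch, Emb.mu, max_eq_left hle]
    simp [Emb.σ]
  · have hch : E.ch w Q = true := by simp [Emb.ch, hQ, not_le.mpr hle]
    rw [hch, Emb.mu, max_eq_right hle.le]
    simp only [Emb.σ, Bool.false_eq_true, if_false, one_pow, div_one, if_true]
    have hne : E.fval Q ≠ 0 := fun h0 => by rw [h0, map_zero] at hle; linarith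
    have hpow : ∀ n : ℕ, E.f ^ n ∈ Q.toValuationSubring ∧ Emb.val Q (E.f ^ n) = E.fval Q ^ n := by
      intro n
      induction n with
      | zero => exact ⟨by simp, Emb.val_eq (by simp)⟩
      | succ n ih =>
        refine ⟨by rw [pow_succ]; exact mul_mem ih.1 hfmem, ?_⟩
        rw [pow_succ, pow_succ, val_mul ih.1 hfmem, ih.2]
        rfl
    have hdiv : (h : F) / E.f ^ e ∈ Q.toValuationSubring := by
      have hc : E.InChart Q true := E.inChart_true_of_fval_ne fun _ => hne
      have := E.B_le_valuationSubring hc (E.sec true e h).2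
      exact this
    have key := val_mul hdiv (hpow e).1
    rw [div_mul_cancel₀ _ (pow_ne_zero _ E.f_ne_zero), (hpow e).2] at key
    rw [key, map_mul, map_pow]
    ring

theorem apply_one_gpt (w : AbsoluteValue k ℝ) {Q : Place k F} (hQ : Q ≠ E.O) :
    E.mu w Q * w ((gpt E w Q).sv 1 (oneSec E)) = 1 := by
  have h := apply_sv_cpt E w hQ 1 (oneSec E)
  have h1 : (Pt.cpt E k Q).sv 1 (oneSec E) = 1 := by
    rw [cpt_self, Pt.sv_ofPlace, E.chart_of_ne hQ]
    exact Emb.val_eq (by simp [Emb.σsec, Emb.σ])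
  rw [h1, map_one, pow_one] at h
  exact h.symm

theorem apply_xc_le (w : AbsoluteValue k ℝ) (Q : Place k F) :
    w (E.evalHom (E.inChart_ch w Q) (E.xc (E.ch w Q))) ≤ 1 := by
  classical
  show w (Emb.val Q (E.xc (E.ch w Q) : F)) ≤ 1
  rw [E.coe_xc]
  unfold Emb.ch
  rcases eq_or_ne Q E.O with h1 | h1
  · simp only [if_pos h1, if_true]
    subst h1
    rw [(Emb.val_eq_zero_iff ((FF.mem_iff_ord_nonneg E.O).mpr (by
      rw [Place.ord_inv, E.ord_O]; simp))).mpr (Or.inr (by
      rw [Place.ord_inv, E.ord_O]; have := E.M₀_pos; omega)), map_zero]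
    exact zero_le_one
  by_cases h2 : w (E.fval Q) ≤ 1
  · simp only [if_neg h1, if_pos h2, Bool.false_eq_true, if_false]
    exact h2
  · simp only [if_neg h1, if_neg h2, if_true]
    rw [not_le] at h2
    have hne : E.fval Q ≠ 0 := fun h0 => by rw [h0, map_zero] at h2; linarith
    have hc : E.InChart Q true := E.inChart_true_of_fval_ne fun _ => hne
    have hinv : E.f⁻¹ ∈ Q.toValuationSubring := by
      have := E.B_le_valuationSubring hc (E.xc true).2
      rw [E.coe_xc] at this
      exact this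
    have hfmem : E.f ∈ Q.toValuationSubring := (FF.mem_iff_ord_nonneg Q).mpr (E.ord_nonneg Q h1)
    have key := val_mul hinv hfmem
    rw [inv_mul_cancel₀ E.f_ne_zero, Emb.val_eq (a := (1 : k)) (by simp)] at key
    have h3 : Emb.val Q E.f⁻¹ = (E.fval Q)⁻¹ :=
      eq_inv_of_mul_eq_one_left key.symm
    rw [h3]
    exact AbsoluteValue.apply_val_inv_le h2

/-- Elements of a chart ring are bounded where the chart is used. -/
theorem bddOn_B {Ξ : Type*} (wv : Ξ → AbsoluteValue k ℝ) (Q : Ξ → Place k F) (c : Bool)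
    (hc : ∀ ξ, E.InChart (Q ξ) c) (hsmall : ∀ ξ, wv ξ (E.evalHom (hc ξ) (E.xc c)) ≤ 1)
    (y : E.B c) : BddOn wv (fun ξ => E.evalHom (hc ξ)) y := by
  classical
  set χ : Ξ → E.B c →ₐ[k] k := fun ξ => E.evalHom (hc ξ)
  have hx : ∀ a ∈ Algebra.adjoin k {E.xc c}, BddOn wv χ a := fun a ha =>
    bddOn_of_mem_adjoin wv χ (by
      rintro _ rfl
      exact PLe.of_le hsmall) ha
  have hint : IsIntegral (Algebra.adjoin k {(E.xc c : F)}) (y : F) := by
    rw [FF.isIntegral_adjoin_iff]
    intro v hv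
    exact (FF.mem_iff_ord_nonneg v).mp
      (E.B_le_valuationSubring (E.inChart_of_ord_nonneg hv) y.2)
  obtain ⟨p, hp, hpy⟩ := hint
  have hmap : Algebra.adjoin k {(E.xc c : F)} = (Algebra.adjoin k {E.xc c}).map (E.B c).val := by
    rw [AlgHom.map_adjoin, Set.image_singleton]; rfl
  have hco : ∀ i, ∃ a ∈ Algebra.adjoin k {E.xc c}, (a : F) = (p.coeff i : F) := fun i => by
    have h := (p.coeff i).2
    have h' : (p.coeff i : F) ∈ (Algebra.adjoin k {E.xc c}).map (E.B c).val := hmap ▸ h
    rw [Subalgebra.mem_map] at h'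
    obtain ⟨a, ha, e⟩ := h'
    exact ⟨a, ha, e⟩
  choose a ha hea using hco
  set n := p.natDegree
  have hrel : y ^ n = -∑ i ∈ Finset.range n, a i * y ^ i := by
    apply Subtype.ext
    push_cast
    simp only [hea]
    rw [eq_neg_iff_add_eq_zero, add_comm]
    rw [Polynomial.eval₂_eq_sum_range, Finset.sum_range_succ, hp.coeff_natDegree, map_one,
      one_mul] at hpy
    exact hpy
  set M : Ξ → ℝ := fun ξ => max 1 (wv ξ (χ ξ y)) with hM
  have hM0 : ∀ ξ, 0 ≤ M ξ := fun ξ => zero_le_one.trans (le_max_left _ _)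
  have hsum : ∀ s ⊆ Finset.range n, PLe wv (fun ξ => wv ξ (χ ξ (∑ i ∈ s, a i * y ^ i)))
      (fun ξ => M ξ ^ (n - 1)) := by
    intro s
    induction s using Finset.induction with
    | empty =>
      intro _
      exact PLe.of_le fun ξ => by simpa using pow_nonneg (hM0 ξ) _
    | insert j s hj ih =>
      intro hs
      obtain ⟨C, hC, h1⟩ := ih (fun x hx => hs (Finset.mem_insert_of_mem hx))
      obtain ⟨C', hC', h2⟩ := hx (a j) (ha j)
      have hj' : j ≤ n - 1 := by
        have := Finset.mem_range.mp (hs (Finset.mem_insert_self j s)); omega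
      refine ⟨_, hC'.add hC, fun ξ => ?_⟩
      simp only [Finset.sum_insert hj, map_add]
      refine apply_add_le_addBound _ (pow_nonneg (hM0 ξ) _) ?_ (h1 ξ)
      rw [map_mul, map_pow, map_mul, map_pow]
      have h2' := h2 ξ
      simp only [mul_one] at h2'
      exact mul_le_mul h2' ((pow_le_pow_left₀ (AbsoluteValue.nonneg _ _) (le_max_right _ _) j).trans
        (pow_le_pow_right₀ (le_max_left _ _) hj')) (pow_nonneg (AbsoluteValue.nonneg _ _) _)
        (zero_le_one.trans (hC'.1 _))
  obtain ⟨C, hC, hle⟩ := hsum (Finset.range n) subset_rfl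
  refine ⟨C, hC, fun ξ => ?_⟩
  rw [mul_one]
  rcases le_or_gt (wv ξ (χ ξ y)) 1 with h | h
  · exact h.trans (hC.1 _)
  · have h' := hle ξ
    have hM' : M ξ = wv ξ (χ ξ y) := max_eq_right h.le
    have e : wv ξ (χ ξ y) ^ n = wv ξ (χ ξ (∑ i ∈ Finset.range n, a i * y ^ i)) := by
      rw [← map_pow, ← map_pow, hrel, map_neg, AbsoluteValue.map_neg]
    simp only [hM', ← e] at h'
    rcases Nat.eq_zero_or_pos n with hn | hn
    · exfalso
      have h0 := congrArg (χ ξ) hrel
      rw [hn] at h0
      simp at h0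
    · obtain ⟨n', hn'⟩ : ∃ n', n = n' + 1 := ⟨n - 1, by omega⟩
      rw [hn', Nat.add_sub_cancel, pow_succ'] at h'
      exact le_of_mul_le_mul_right h' (pow_pos (zero_lt_one.trans h) _)

end Fermat.Agent.MW.Height
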