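import Fermat.Agent.MW.Height.Family
import Fermat.Agent.MW.Height.Defs

/-!
# The global relations for one representative
-/

set_option autoImplicit false
set_option maxHeartbeats 800000

noncomputable section

open AlgebraicCurve

namespace Fermat.Agent.MW.Height

variable {k F : Type} [Field k] [Field F] [Algebra k F] [IsAlgClosed k] [FF.IsFunctionField k F]

theorem prod_offDiag {ι M : Type*} [Fintype ι] [DecidableEq ι] [CommMonoid M] (g : ι → ι → M) :
    ∏ p : {p : ι × ι // p.1 ≠ p.2}, g p.1.1 p.1.2 = ∏ i, ∏ j, if i = j then 1 else g i j := by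
  rw [← Finset.prod_subtype (Finset.univ.filter fun p : ι × ι => p.1 ≠ p.2) (by simp)
    (fun p : ι × ι => g p.1 p.2), Finset.prod_filter, Fintype.prod_prod_type]
  refine Finset.prod_congr rfl fun i _ => Finset.prod_congr rfl fun j _ => ?_
  by_cases h : i = j <;> simp [h]

section Section'

variable (E : Emb k F)

/-- The section with given coefficients. -/
def sect (e : ℕ) (c : Fin (E.dim e) → k) : E.R e := ∑ j, c j • E.bas e j

theorem lval_eq_sv (X : Pt E k) (e : ℕ) (c : Fin (E.dim e) → k) :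
    lval X e c = X.sv e (sect E e c) := by
  simp [lval, sect]

theorem lval_gpt_eq_zero_iff (w : AbsoluteValue k ℝ) (Q : Place k F) (e : ℕ)
    (c : Fin (E.dim e) → k) :
    lval (gpt E w Q) e c = 0 ↔ lval (Pt.cpt E k Q) e c = 0 := by
  rw [lval_eq_sv, lval_eq_sv, cpt_self, gpt, Pt.sv_ofPlace_eq_zero_iff,
    Pt.sv_ofPlace_eq_zero_iff]

theorem apply_lval_cpt (w : AbsoluteValue k ℝ) {Q : Place k F} (hQ : Q ≠ E.O) (e : ℕ)
    (c : Fin (E.dim e) → k) :
    w (lval (Pt.cpt E k Q) e c) = E.mu w Q ^ e * w (lval (gpt E w Q) e c) := by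
  rw [lval_eq_sv, lval_eq_sv, apply_sv_cpt E w hQ]

theorem sv_gpt_eq (w : AbsoluteValue k ℝ) {Q : Place k F} (hQ : Q ≠ E.O) (e : ℕ) (h : E.R e) :
    (gpt E w Q).sv e h = (gpt E w Q).sv 1 (oneSec E) ^ e * (Pt.cpt E k Q).sv e h := by
  have hh : (h : F) ∈ Q.toValuationSubring := by
    have h' := E.B_le_valuationSubring (E.inChart_chart Q) (E.sec (E.chart Q) e h).2
    rw [E.coe_sec, E.chart_of_ne hQ] at h'
    simpa [Emb.σ] using h'
  have h1 : ((oneSec E : F) / E.σ (E.ch w Q) ^ 1) ∈ Q.toValuationSubring :=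
    E.B_le_valuationSubring (E.inChart_ch w Q) (E.sec (E.ch w Q) 1 (oneSec E)).2
  set x₁ : F := (oneSec E : F) / E.σ (E.ch w Q) ^ 1 with hx₁
  have hpow : ∀ n : ℕ, x₁ ^ n ∈ Q.toValuationSubring ∧ Emb.val Q (x₁ ^ n) = Emb.val Q x₁ ^ n := by
    intro n
    induction n with
    | zero => exact ⟨by simp, Emb.val_eq (by simp)⟩
    | succ n ih =>
      exact ⟨by rw [pow_succ]; exact mul_mem ih.1 h1,
        by rw [pow_succ, pow_succ, val_mul ih.1 h1, ih.2]⟩
  rw [cpt_self, gpt, Pt.sv_ofPlace, Pt.sv_ofPlace, Pt.sv_ofPlace, E.chart_of_ne hQ, ← hx₁,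
    ← (hpow e).2]
  have hσ : E.σ false = 1 := by simp [Emb.σ]
  have hone : (oneSec E : F) = 1 := by simp [Emb.σsec, Emb.σ]
  rw [hσ, one_pow, div_one, ← val_mul (hpow e).1 hh, hx₁, hone, pow_one, div_pow, one_pow]
  congr 1
  ring

/-- A configuration from places and a vanishing section. -/
def mkCfg {I : Type} {e : ℕ} {Z : Set I} {π : Finset ((I ⊕ Place k F) × (I ⊕ Place k F))}
    (w : AbsoluteValue k ℝ) (P : I → Place k F) (c : Fin (E.dim e) → k) (hc : c ≠ 0)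
    (hz : ∀ i ∈ Z, lval (Pt.cpt E k (P i)) e c = 0)
    (hd : ∀ p ∈ π, Sum.elim P id p.1 ≠ Sum.elim P id p.2) : Cfg E I e Z π where
  w := w
  P := P
  c := c
  c_ne := hc
  zero i hi := (lval_gpt_eq_zero_iff E w (P i) e c).mpr (hz i hi)
  distinct p hp := by
    have key : ∀ l : I ⊕ Place k F,
        (Expr.pt k (fun i => gpt E w (P i)) l).red = Sum.elim P id l := by
      rintro (i | Q)
      · exact red_gpt E w _
      · exact Pt.red_cpt _
    exact dist_ne_bot E (key p.1) (key p.2) (hd p hp)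

/-- The largest coefficient. -/
def cnorm {e : ℕ} (w : AbsoluteValue k ℝ) (c : Fin (E.dim e) → k) : ℝ := ⨆ j, w (c j)

theorem cnorm_nonneg {e : ℕ} (w : AbsoluteValue k ℝ) (c : Fin (E.dim e) → k) :
    0 ≤ cnorm E w c :=
  Real.iSup_nonneg fun _ => AbsoluteValue.nonneg _ _

theorem dim_pos {e : ℕ} (he : 1 ≤ e) : 0 < E.dim e := by
  have h := E.finrank_R he
  have := E.le_M₀
  have : (E.M₀ : ℤ) ≤ e * E.M₀ := le_mul_of_one_le_left (by positivity) (by exact_mod_cast he)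
  unfold Emb.dim
  omega

/-- **Distance to `O` against affine size.** -/
theorem dd_O_mu :
    PEquiv (fun ξ : AbsoluteValue k ℝ × {Q : Place k F // Q ≠ E.O} => ξ.1)
      (fun ξ => dd E ξ.1 ξ.2 E.O ^ E.M₀ * E.mu ξ.1 ξ.2) (fun _ => 1) := by
  classical
  let π : Finset ((Unit ⊕ Place k F) × (Unit ⊕ Place k F)) := {(Sum.inl (), Sum.inr E.O)}
  let x : (Fin E.M₀ → MIdx E) → Expr E Unit 2 :=
    Expr.dists (fun _ => Sum.inl ()) (fun _ => Sum.inr E.O)
  let y : Unit → Expr E Unit 2 := fun _ => Expr.sv (Sum.inl ()) 1 (oneSec E)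
  have h := config_equiv (Z := ∅) (π := π) x y 0 (fun f => Expr.deg_dists _ _ f) (fun _ => rfl)
    (fun R _ _ _ _ _ _ P c _ _ _ => by
      dsimp only [x, y]
      rw [Expr.span_dists, span_range_unique, Finset.prod_const, Finset.card_univ,
        Fintype.card_fin]
      exact dist_O_pow (P ()))
  obtain ⟨j⟩ : Nonempty (Fin (E.dim 2)) := ⟨⟨0, dim_pos E one_le_two⟩⟩
  let cf : AbsoluteValue k ℝ × {Q : Place k F // Q ≠ E.O} → Cfg E Unit 2 ∅ π := fun ξ =>
    mkCfg E ξ.1 (fun _ => ξ.2) (fun _ => 1) (fun h => one_ne_zero (congrFun h j))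
      (fun i hi => absurd hi (Set.notMem_empty i))
      (fun p hp => by
        rw [Finset.mem_singleton] at hp
        subst hp
        exact ξ.2.2)
  have h' := (h.comp cf).mul
    (PEquiv.of_eq (wv := fun ξ => (cf ξ).w) (f := fun ξ => E.mu ξ.1 ξ.2)
      (g := fun ξ => E.mu ξ.1 ξ.2) fun _ => rfl)
    (fun ξ => Real.iSup_nonneg fun _ => AbsoluteValue.nonneg _ _)
    (fun ξ => Real.iSup_nonneg fun _ => AbsoluteValue.nonneg _ _)
    (fun ξ => (E.mu_pos _ _).le) (fun ξ => (E.mu_pos _ _).le)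
  refine ((PEquiv.of_eq fun ξ => ?_).trans h').trans (PEquiv.of_eq fun ξ => ?_)
  · dsimp only [x, cf, mkCfg]
    rw [Expr.iSup_dists, Finset.prod_const, Finset.card_univ, Fintype.card_fin]
    show _ = pdist E ξ.1 (gpt E ξ.1 ξ.2) (Pt.cpt E k E.O) ^ E.M₀ * _
    rw [← gpt_O E ξ.1]
    rfl
  · dsimp only [y, cf, mkCfg]
    rw [ciSup_unique, mul_comm]
    exact apply_one_gpt E ξ.1 ξ.2.2

end Section'

namespace Setup

variable {P : Setup k F} {q : ℕ}

namespace Rep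

/-- The value at `O` of the section of a representative. -/
def tO (R : P.Rep q) : k := lval (Pt.cpt P.E k P.E.O) (2 * q) R.c

/-- The product of the values at the auxiliary places. -/
def phiU (R : P.Rep q) : k := ∏ u, lval (Pt.cpt P.E k (P.U u)) (2 * q) R.c

/-- The product of the affine sizes. -/
def nu (R : P.Rep q) (w : AbsoluteValue k ℝ) : ℝ := ∏ i, P.E.mu w (R.pt i)

/-- The product of the distances to `O`. -/
def oo (R : P.Rep q) (w : AbsoluteValue k ℝ) : ℝ := ∏ i, dd P.E w (R.pt i) P.E.O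

open scoped Classical in
/-- The product of the distances inside one half. -/
def pd (R : P.Rep q) (w : AbsoluteValue k ℝ) (b : Fin (q * P.E.M₀) → Fin (q * P.E.M₀) ⊕
    Fin (q * P.E.M₀)) : ℝ :=
  ∏ i, ∏ j, if i = j then 1 else dd P.E w (R.pt (b i)) (R.pt (b j))

/-- The largest square of a coordinate. -/
def msq (R : P.Rep q) (w : AbsoluteValue k ℝ) : ℝ := ⨆ S, w (R.coord S ^ 2)

theorem nu_pos (R : P.Rep q) (w : AbsoluteValue k ℝ) : 0 < R.nu w :=
  Finset.prod_pos fun _ _ => P.E.mu_pos _ _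

theorem oo_nonneg (R : P.Rep q) (w : AbsoluteValue k ℝ) : 0 ≤ R.oo w :=
  Finset.prod_nonneg fun _ _ => dd_nonneg _ _ _ _

theorem pd_nonneg (R : P.Rep q) (w : AbsoluteValue k ℝ) (b : Fin (q * P.E.M₀) →
    Fin (q * P.E.M₀) ⊕ Fin (q * P.E.M₀)) : 0 ≤ R.pd w b := by
  classical
  refine Finset.prod_nonneg fun i _ => Finset.prod_nonneg fun j _ => ?_
  split_ifs
  · exact zero_le_one
  · exact dd_nonneg _ _ _ _

/-- The constant places of the configuration of a representative. -/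
def cst (P : Setup k F) : Fin (8 * P.E.M₀) ⊕ Unit → Place k F := Sum.elim P.U fun _ => P.E.O

/-- The pairs of the configuration of a representative. -/
def pairSet (P : Setup k F) (q : ℕ) :
    Finset (((Fin (q * P.E.M₀) ⊕ Fin (q * P.E.M₀)) ⊕ Place k F) ×
      ((Fin (q * P.E.M₀) ⊕ Fin (q * P.E.M₀)) ⊕ Place k F)) :=
  letI := Classical.decEq (Place k F)
  ((Finset.univ : Finset ((Fin (q * P.E.M₀) ⊕ Fin (q * P.E.M₀)) ×
      (Fin (q * P.E.M₀) ⊕ Fin (q * P.E.M₀)))).filter fun p => p.1 ≠ p.2).image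
      (fun p => (Sum.inl p.1, Sum.inl p.2)) ∪
    (Finset.univ : Finset ((Fin (q * P.E.M₀) ⊕ Fin (q * P.E.M₀)) ×
      (Fin (8 * P.E.M₀) ⊕ Unit))).image fun p => (Sum.inl p.1, Sum.inr (cst P p.2))

theorem mem_pairSet_left {i j : Fin (q * P.E.M₀) ⊕ Fin (q * P.E.M₀)} (h : i ≠ j) :
    (Sum.inl i, Sum.inl j) ∈ pairSet P q := by
  classical
  refine Finset.mem_union_left _ (Finset.mem_image.mpr ⟨(i, j), ?_, rfl⟩)
  simpa using h

theorem mem_pairSet_right (i : Fin (q * P.E.M₀) ⊕ Fin (q * P.E.M₀))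
    (s : Fin (8 * P.E.M₀) ⊕ Unit) : (Sum.inl i, Sum.inr (cst P s)) ∈ pairSet P q := by
  classical
  exact Finset.mem_union_right _ (Finset.mem_image.mpr ⟨(i, s), Finset.mem_univ _, rfl⟩)

/-- The configuration of a representative. -/
def cfg (ξ : AbsoluteValue k ℝ × P.Rep q) :
    Cfg P.E (Fin (q * P.E.M₀) ⊕ Fin (q * P.E.M₀)) (2 * q) Set.univ (pairSet P q) :=
  mkCfg P.E ξ.1 ξ.2.pt ξ.2.c ξ.2.c_ne (fun i _ => ξ.2.zero i) fun p hp => by
    classical
    simp only [pairSet, Finset.mem_union, Finset.mem_image, Finset.mem_filter] at hp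
    rcases hp with ⟨⟨i, j⟩, ⟨-, h⟩, rfl⟩ | ⟨⟨i, s⟩, -, rfl⟩
    · exact fun e => h (ξ.2.inj e)
    · rcases s with u | u
      · exact ξ.2.avoid i u
      · exact ξ.2.ne_O i

/-- **The section at `O`.** -/
theorem cnorm_mul_oo (hq : 1 ≤ q) :
    PEquiv (fun ξ : AbsoluteValue k ℝ × P.Rep q => ξ.1)
      (fun ξ => cnorm P.E ξ.1 ξ.2.c * ξ.2.oo ξ.1) (fun ξ => ξ.1 ξ.2.tO) := by
  classical
  haveI : Nonempty (Fin (P.E.dim (2 * q))) := ⟨⟨0, dim_pos P.E (by omega)⟩⟩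
  let I := Fin (q * P.E.M₀) ⊕ Fin (q * P.E.M₀)
  let x : Fin (P.E.dim (2 * q)) × (I → MIdx P.E) → Expr P.E I (2 * q) := fun p =>
    (Expr.coef p.1).mul (Expr.dists (fun i => Sum.inl i) (fun _ => Sum.inr P.E.O) p.2)
  let y : Unit → Expr P.E I (2 * q) := fun _ => Expr.lval' (Sum.inr P.E.O)
  have h := config_equiv (Z := Set.univ) (π := pairSet P q) x y 1
    (fun p => by simp only [x, Expr.mul, Expr.deg_dists]; rfl) (fun _ => rfl)
    (fun R _ _ _ _ _ _ D c hc hz hd => by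
      have hne : ∀ i j, i ≠ j → Pt.dist (D i) (D j) ≠ ⊥ := fun i j hij => by
        have h' := hd (Sum.inl i, Sum.inl j) (mem_pairSet_left hij)
        exact h'
      have hX : ∀ i, Pt.dist (D i) (Pt.cpt P.E R P.E.O) ≠ ⊥ := fun i => by
        have h' := hd (Sum.inl i, Sum.inr (cst P (Sum.inr ()))) (mem_pairSet_right i (Sum.inr ()))
        exact h'
      have hcard : Fintype.card I = 2 * q * P.E.M₀ := by
        simp only [I, Fintype.card_sum, Fintype.card_fin]; ring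
      have hl := span_lval_eq D (2 * q) hcard (fun i j hij => hne i j hij) c hc
        (fun i => hz i (Set.mem_univ i)) (Pt.cpt P.E R P.E.O) hX
      dsimp only [x, y]
      rw [Set.range_const]
      simp only [Expr.mul, Expr.lval', Expr.coef, Expr.pt, Sum.elim_inr]
      rw [hl, ← span_range_pair c fun f => (Expr.dists (e := 2 * q) (fun i : I => Sum.inl i)
        (fun _ => Sum.inr P.E.O) f).val R D c, span_range_eq_top c hc, Ideal.top_mul,
        Expr.span_dists]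
      simp only [Expr.pt, Sum.elim_inl, Sum.elim_inr]
      rfl)
  refine ((PEquiv.of_eq fun ξ => ?_).trans (h.comp cfg)).trans (PEquiv.of_eq fun ξ => ?_)
  · show _ = ⨆ p, _
    simp only [x, Expr.at', Expr.mul, map_mul]
    show _ = ⨆ p : Fin (P.E.dim (2 * q)) × (I → MIdx P.E), ξ.1 (ξ.2.c p.1) *
      ξ.1 ((Expr.dists (e := 2 * q) (fun i : I => Sum.inl i) (fun _ => Sum.inr P.E.O) p.2).val k
        (fun i => gpt P.E ξ.1 (ξ.2.pt i)) ξ.2.c)
    rw [iSup_prod_pair (fun j => ξ.1 (ξ.2.c j)) (fun f : I → MIdx P.E =>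
        ξ.1 ((Expr.dists (e := 2 * q) (fun i : I => Sum.inl i) (fun _ => Sum.inr P.E.O) f).val k
          (fun i => gpt P.E ξ.1 (ξ.2.pt i)) ξ.2.c)) (fun _ => AbsoluteValue.nonneg _ _)
      fun _ => AbsoluteValue.nonneg _ _]
    congr 1
    have := Expr.iSup_dists P.E (e := 2 * q) (fun i : I => (Sum.inl i : I ⊕ Place k F))
      (fun _ => Sum.inr P.E.O) ξ.1 ξ.2.pt ξ.2.c
    simp only [Expr.pt, Sum.elim_inl, Sum.elim_inr, Expr.at', ← gpt_O P.E ξ.1] at this
    exact this.symm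
  · simp only [y, ciSup_unique]
    rfl

/-- The numbering of the points of one half and the auxiliary points. -/
def row (b : Fin (q * P.E.M₀) → Fin (q * P.E.M₀) ⊕ Fin (q * P.E.M₀)) (S : P.SIdx) :
    Fin (q * P.E.M₀) ⊕ Fin P.r → (Fin (q * P.E.M₀) ⊕ Fin (q * P.E.M₀)) ⊕ Place k F :=
  Sum.elim (fun i => Sum.inl (b i)) fun s => Sum.inr (P.U (S.1 s))

/-- The expression of a coordinate. -/
def coordExpr (P : Setup k F) (q : ℕ) (S : P.SIdx) :
    Expr P.E (Fin (q * P.E.M₀) ⊕ Fin (q * P.E.M₀)) (2 * q) :=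
  ((Expr.det (row Sum.inl S) (q + 1) (P.eps q)).mul
      (Expr.det (row Sum.inr S) (q + 1) (P.eps q))).mul
    (Expr.prod (Finset.univ \ Finset.univ.image S.1) fun u => Expr.lval' (Sum.inr (P.U u)))

theorem deg_coordExpr (S : P.SIdx) : (coordExpr P q S).deg + P.r = 8 * P.E.M₀ := by
  classical
  show 0 + 0 + ∑ u ∈ Finset.univ \ Finset.univ.image S.1, 1 + P.r = _
  rw [Finset.sum_const, smul_eq_mul, mul_one, zero_add, zero_add,
    Finset.card_sdiff_of_subset (Finset.subset_univ _),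
    Finset.card_image_of_injective _ S.2, Finset.card_univ, Finset.card_univ, Fintype.card_fin,
    Fintype.card_fin]
  have := P.E.le_M₀
  simp only [Setup.r]
  omega

theorem emat_row (b : Fin (q * P.E.M₀) → Fin (q * P.E.M₀) ⊕ Fin (q * P.E.M₀)) (S : P.SIdx)
    {R : Type} [CommRing R] [Algebra k R] (D : Fin (q * P.E.M₀) ⊕ Fin (q * P.E.M₀) → Pt P.E R) :
    emat (fun i => Expr.pt R D (row b S i)) (q + 1) (P.eps q)
      = emat (Sum.elim (fun i => D (b i)) fun s => Pt.cpt P.E R (P.U (S.1 s))) (q + 1)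
          (P.eps q) := by
  refine congrArg (fun f => emat f (q + 1) (P.eps q)) (funext fun i => ?_)
  cases i <;> rfl

theorem val_coordExpr (S : P.SIdx) {R : Type} [CommRing R] [Algebra k R]
    (D : Fin (q * P.E.M₀) ⊕ Fin (q * P.E.M₀) → Pt P.E R) (c : Fin (P.E.dim (2 * q)) → R) :
    (coordExpr P q S).val R D c
      = tcoord P.U S.1 (q + 1) (P.eps q) (2 * q) c (D ∘ Sum.inl) (D ∘ Sum.inr) := by
  simp only [coordExpr, Expr.mul, Expr.det, Expr.prod, Expr.lval', emat_row]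
  rfl

theorem apply_coord (R : P.Rep q) (S : P.SIdx) (w : AbsoluteValue k ℝ) :
    w (R.coord S) = R.nu w ^ (q + 1) *
      w ((coordExpr P q S).val k (fun i => gpt P.E w (R.pt i)) R.c) := by
  classical
  rw [val_coordExpr]
  have hdet : ∀ b : Fin (q * P.E.M₀) → Fin (q * P.E.M₀) ⊕ Fin (q * P.E.M₀),
      w (tdet P.U S.1 (q + 1) (P.eps q) fun i => Pt.cpt P.E k (R.pt (b i)))
        = (∏ i, P.E.mu w (R.pt (b i))) ^ (q + 1) *
          w (tdet P.U S.1 (q + 1) (P.eps q) fun i => gpt P.E w (R.pt (b i))) := by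
    intro b
    set G := emat (Sum.elim (fun i => gpt P.E w (R.pt (b i))) fun s => Pt.cpt P.E k (P.U (S.1 s)))
      (q + 1) (P.eps q) with hG
    set C := emat (Sum.elim (fun i => Pt.cpt P.E k (R.pt (b i)))
      fun s => Pt.cpt P.E k (P.U (S.1 s))) (q + 1) (P.eps q) with hC
    let lam : Fin (q * P.E.M₀) → k := fun i =>
      ((gpt P.E w (R.pt (b i))).sv 1 (oneSec P.E)) ^ (q + 1)
    have hrow : G = Matrix.diagonal (Sum.elim lam fun _ => 1) * C := by
      ext i j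
      rw [Matrix.diagonal_mul]
      rcases i with i | s
      · exact sv_gpt_eq P.E w (R.ne_O (b i)) (q + 1) _
      · exact (one_mul _).symm
    show w C.det = _ * w G.det
    rw [hrow, Matrix.det_mul, Matrix.det_diagonal, Fintype.prod_sum_type]
    simp only [Sum.elim_inl, Sum.elim_inr, Finset.prod_const_one, mul_one, map_mul, map_prod, lam,
      map_pow, ← Finset.prod_pow, ← mul_assoc, ← Finset.prod_mul_distrib]
    rw [Finset.prod_eq_one (fun i _ => by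
      rw [← mul_pow, apply_one_gpt P.E w (R.ne_O (b i)), one_pow]), one_mul]
  rw [Rep.coord]
  simp only [tcoord, map_mul, hdet, nu, Fintype.prod_sum_type, mul_pow]
  show _ = _ * (w (tdet P.U S.1 (q + 1) (P.eps q) fun i => gpt P.E w (R.pt (Sum.inl i))) *
    w (tdet P.U S.1 (q + 1) (P.eps q) fun i => gpt P.E w (R.pt (Sum.inr i))) * _)
  ring

theorem iSup_pow_eq {α : Type} [Finite α] [Nonempty α] (f : α → ℝ) (hf : ∀ a, 0 ≤ f a) (n : ℕ) :
    (⨆ a, f a ^ n) = (⨆ a, f a) ^ n := by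
  refine le_antisymm (ciSup_le fun a => pow_le_pow_left₀ (hf a)
    (le_ciSup (Set.finite_range f).bddAbove a) n) ?_
  obtain ⟨a, ha⟩ := exists_eq_ciSup_of_finite (f := f)
  rw [← ha]
  exact le_ciSup (f := fun a => f a ^ n) (Set.finite_range _).bddAbove a

theorem nonempty_SIdx : Nonempty P.SIdx := by
  have := P.E.le_M₀
  have h : P.r ≤ 8 * P.E.M₀ := by simp only [Setup.r]; omega
  exact ⟨⟨Fin.castLE h, Fin.castLE_injective h⟩⟩

/-- The indices of ordered pairs of distinct points of one half. -/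
abbrev Off (P : Setup k F) (q : ℕ) : Type :=
  {p : Fin (q * P.E.M₀) × Fin (q * P.E.M₀) // p.1 ≠ p.2}

open scoped Classical in
/-- The distances inside one half, as a family of expressions. -/
def halfDists (b : Fin (q * P.E.M₀) → Fin (q * P.E.M₀) ⊕ Fin (q * P.E.M₀))
    (f : Off P q → MIdx P.E) : Expr P.E (Fin (q * P.E.M₀) ⊕ Fin (q * P.E.M₀)) (2 * q) :=
  Expr.dists (fun p : Off P q => Sum.inl (b p.1.1)) (fun p => Sum.inl (b p.1.2)) f

theorem span_halfDists (b : Fin (q * P.E.M₀) → Fin (q * P.E.M₀) ⊕ Fin (q * P.E.M₀))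
    {R : Type} [CommRing R] [Algebra k R]
    (D : Fin (q * P.E.M₀) ⊕ Fin (q * P.E.M₀) → Pt P.E R) (c : Fin (P.E.dim (2 * q)) → R) :
    Ideal.span (Set.range fun f => (halfDists b f).val R D c) = pairs (D ∘ b) := by
  classical
  rw [show (fun f => (halfDists b f).val R D c) = fun f : Off P q → MIdx P.E =>
    (Expr.dists (fun p : Off P q => Sum.inl (b p.1.1)) (fun p => Sum.inl (b p.1.2)) f).val R D c
    from rfl, Expr.span_dists]
  simp only [Expr.pt, Sum.elim_inl]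
  rw [prod_offDiag fun i j => Pt.dist (D (b i)) (D (b j))]
  unfold pairs
  refine Finset.prod_congr rfl fun i _ => Finset.prod_congr rfl fun j _ => ?_
  unfold ndist
  rw [Ideal.one_eq_top]
  rfl

theorem iSup_halfDists (R : P.Rep q) (w : AbsoluteValue k ℝ)
    (b : Fin (q * P.E.M₀) → Fin (q * P.E.M₀) ⊕ Fin (q * P.E.M₀)) :
    (⨆ f, (halfDists b f).at' w R.pt R.c) = R.pd w b := by
  classical
  rw [show (fun f => (halfDists b f).at' w R.pt R.c) = fun f : Off P q → MIdx P.E =>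
    (Expr.dists (e := 2 * q) (fun p : Off P q => Sum.inl (b p.1.1))
      (fun p => Sum.inl (b p.1.2)) f).at' w R.pt R.c from rfl, Expr.iSup_dists]
  simp only [Expr.pt, Sum.elim_inl]
  exact prod_offDiag fun i j => dd P.E w (R.pt (b i)) (R.pt (b j))

/-- The values at the auxiliary places. -/
def phiExpr (P : Setup k F) (q : ℕ) :
    Expr P.E (Fin (q * P.E.M₀) ⊕ Fin (q * P.E.M₀)) (2 * q) :=
  (Expr.prod Finset.univ fun u => Expr.lval' (Sum.inr (P.U u))).pow 2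

/-- **The determinant formula.** -/
theorem msq_equiv (hq : q = 1 ∨ q = 2) :
    PEquiv (fun ξ : AbsoluteValue k ℝ × P.Rep q => ξ.1)
      (fun ξ => ξ.2.msq ξ.1 * ξ.1 ξ.2.tO ^ (2 * P.r))
      (fun ξ => ξ.1 ξ.2.phiU ^ 2 *
        (ξ.2.nu ξ.1 ^ (2 * (q + 1)) * ξ.2.pd ξ.1 Sum.inl * ξ.2.pd ξ.1 Sum.inr *
          ξ.2.oo ξ.1 ^ (2 * P.r))) := by
  classical
  have hq1 : 1 ≤ q := by omega
  have := P.E.le_M₀
  have : Nonempty (Fin (P.E.dim (2 * q))) := ⟨⟨0, dim_pos P.E (by omega)⟩⟩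
  have := nonempty_SIdx (P := P)
  let x : P.SIdx × Fin (P.E.dim (2 * q)) →
      Expr P.E (Fin (q * P.E.M₀) ⊕ Fin (q * P.E.M₀)) (2 * q) :=
    fun p => ((coordExpr P q p.1).pow 2).mul ((Expr.coef p.2).pow (2 * P.r))
  let y : (Off P q → MIdx P.E) × (Off P q → MIdx P.E) →
      Expr P.E (Fin (q * P.E.M₀) ⊕ Fin (q * P.E.M₀)) (2 * q) :=
    fun p => ((halfDists Sum.inl p.1).mul (halfDists Sum.inr p.2)).mul (phiExpr P q)
  have hx : ∀ p, (x p).deg = 2 * (8 * P.E.M₀) := fun p => by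
    have h := deg_coordExpr (q := q) p.1
    show (coordExpr P q p.1).deg * 2 + 1 * (2 * P.r) = _
    omega
  have hy : ∀ p, (y p).deg = 2 * (8 * P.E.M₀) := fun p => by
    show (halfDists Sum.inl p.1).deg + (halfDists Sum.inr p.2).deg +
      (∑ _u : Fin (8 * P.E.M₀), 1) * 2 = _
    unfold halfDists
    rw [Expr.deg_dists, Expr.deg_dists, Finset.sum_const, Finset.card_univ, Fintype.card_fin]
    simp only [smul_eq_mul, mul_one]
    omega
  have h := config_equiv (Z := Set.univ) (π := pairSet P q) x y (2 * (8 * P.E.M₀)) hx hy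
    (fun R _ _ _ _ _ _ D c hc hz hd => by
      have hne : Pairwise fun i j => Pt.dist (Sum.elim (D ∘ Sum.inl) (D ∘ Sum.inr) i)
          (Sum.elim (D ∘ Sum.inl) (D ∘ Sum.inr) j) ≠ ⊥ := fun i j hij => by
        have h' := hd (Sum.inl i, Sum.inl j) (mem_pairSet_left hij)
        rw [Sum.elim_comp_inl_inr]
        exact h'
      have hU : ∀ i u, Pt.dist (Sum.elim (D ∘ Sum.inl) (D ∘ Sum.inr) i)
          (Pt.cpt P.E R (P.U u)) ≠ ⊥ := fun i u => by
        have h' := hd (Sum.inl i, Sum.inr (cst P (Sum.inl u))) (mem_pairSet_right i (Sum.inl u))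
        rw [Sum.elim_comp_inl_inr]
        exact h'
      have hz' : ∀ i, lval (Sum.elim (D ∘ Sum.inl) (D ∘ Sum.inr) i) (2 * q) c = 0 := fun i => by
        rw [Sum.elim_comp_inl_inr]; exact hz i (Set.mem_univ i)
      have key := span_tcoord_sq P.U P.U_inj (a := q + 1) (e := 2 * q) (P.eps q)
        (by rcases hq with rfl | rfl <;> simp only [Setup.r] <;> omega)
        (by rw [Fintype.card_fin]; rcases hq with rfl | rfl <;> push_cast <;> omega)
        (by rw [Fintype.card_fin]; ring) (D ∘ Sum.inl) (D ∘ Sum.inr) hne hU c hc hz'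
      dsimp only [x, y]
      simp only [Expr.mul, Expr.pow, Expr.coef, val_coordExpr]
      rw [← span_range_pair
          (fun S : P.SIdx => tcoord P.U S.1 (q + 1) (P.eps q) (2 * q) c (D ∘ Sum.inl)
            (D ∘ Sum.inr) ^ 2) (fun j => c j ^ (2 * P.r)),
        span_range_eq_top (fun j => c j ^ (2 * P.r)) (hc.imp fun j hj => hj.pow _),
        Ideal.mul_top, key]
      rw [← span_halfDists Sum.inl D c, ← span_halfDists Sum.inr D c, span_range_pair,
        Finset.prod_pow, Ideal.prod_span_singleton, Ideal.span_singleton_pow,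
        ← Set.range_const (ι := Unit) (c := (∏ u, lval (Pt.cpt P.E R (P.U u)) (2 * q) c) ^ 2),
        span_range_pair]
      refine congrArg Ideal.span (Set.ext fun z => ⟨?_, ?_⟩)
      · rintro ⟨⟨p, -⟩, rfl⟩; exact ⟨p, rfl⟩
      · rintro ⟨p, rfl⟩; exact ⟨(p, ()), rfl⟩)
  have e1 : ∀ ξ : AbsoluteValue k ℝ × P.Rep q,
      (⨆ p, (x p).at' (cfg ξ).w (cfg ξ).P (cfg ξ).c)
        = (⨆ S, ξ.1 ((coordExpr P q S).val k (fun i => gpt P.E ξ.1 (ξ.2.pt i)) ξ.2.c) ^ 2) *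
          cnorm P.E ξ.1 ξ.2.c ^ (2 * P.r) := by
    intro ξ
    rw [cnorm, ← iSup_pow_eq _ (fun _ => AbsoluteValue.nonneg _ _),
      ← iSup_prod_pair _ _ (fun _ => by positivity) (fun _ => by positivity)]
    refine iSup_congr fun p => ?_
    simp only [x, Expr.at', Expr.mul, Expr.pow, map_mul, map_pow]
    rfl
  have e2 : ∀ ξ : AbsoluteValue k ℝ × P.Rep q,
      (⨆ p, (y p).at' (cfg ξ).w (cfg ξ).P (cfg ξ).c)
        = ξ.2.pd ξ.1 Sum.inl * ξ.2.pd ξ.1 Sum.inr * ξ.1 ξ.2.phiU ^ 2 := by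
    intro ξ
    rw [← iSup_halfDists ξ.2 ξ.1 Sum.inl, ← iSup_halfDists ξ.2 ξ.1 Sum.inr,
      ← iSup_prod_pair (fun f => (halfDists Sum.inl f).at' ξ.1 ξ.2.pt ξ.2.c)
        (fun f => (halfDists Sum.inr f).at' ξ.1 ξ.2.pt ξ.2.c)
        (fun _ => AbsoluteValue.nonneg _ _) (fun _ => AbsoluteValue.nonneg _ _),
      Real.iSup_mul_of_nonneg (pow_nonneg (AbsoluteValue.nonneg _ _) _)]
    refine iSup_congr fun p => ?_
    simp only [y, Expr.at', Expr.mul, phiExpr, Expr.pow, Expr.prod, map_mul, map_pow]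
    rfl
  have h1 := h.comp cfg
  simp only [e1, e2] at h1
  set G : AbsoluteValue k ℝ × P.Rep q → ℝ := fun ξ =>
    ⨆ S, ξ.1 ((coordExpr P q S).val k (fun i => gpt P.E ξ.1 (ξ.2.pt i)) ξ.2.c) ^ 2 with hG
  have hG0 : ∀ ξ, 0 ≤ G ξ := fun ξ => Real.iSup_nonneg fun _ => by positivity
  have hA : ∀ ξ : AbsoluteValue k ℝ × P.Rep q, 0 ≤ ξ.2.nu ξ.1 ^ (2 * (q + 1)) :=
    fun ξ => pow_nonneg (ξ.2.nu_pos _).le _
  -- trade the coefficient norm for the value at `O`
  have h2 := ((cnorm_mul_oo (P := P) hq1).pow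
    (fun ξ => mul_nonneg (cnorm_nonneg _ _ _) (ξ.2.oo_nonneg _))
    (fun ξ => AbsoluteValue.nonneg _ _) (2 * P.r)).symm
  have h3 := (PEquiv.of_eq (wv := fun ξ : AbsoluteValue k ℝ × P.Rep q => ξ.1)
    (f := fun ξ => G ξ * ξ.2.nu ξ.1 ^ (2 * (q + 1))) fun _ => rfl).mul h2
    (fun ξ => mul_nonneg (hG0 ξ) (hA ξ)) (fun ξ => mul_nonneg (hG0 ξ) (hA ξ))
    (fun ξ => pow_nonneg (AbsoluteValue.nonneg _ _) _)
    (fun ξ => pow_nonneg (mul_nonneg (cnorm_nonneg _ _ _) (ξ.2.oo_nonneg _)) _)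
  have h4 := h1.mul (PEquiv.of_eq (f := fun ξ : AbsoluteValue k ℝ × P.Rep q =>
      ξ.2.nu ξ.1 ^ (2 * (q + 1)) * ξ.2.oo ξ.1 ^ (2 * P.r)) fun _ => rfl)
    (fun ξ => mul_nonneg (hG0 ξ) (pow_nonneg (cnorm_nonneg _ _ _) _))
    (fun ξ => mul_nonneg (mul_nonneg (pd_nonneg _ _ _) (pd_nonneg _ _ _)) (by positivity))
    (fun ξ => mul_nonneg (hA ξ) (pow_nonneg (oo_nonneg _ _) _))
    (fun ξ => mul_nonneg (hA ξ) (pow_nonneg (oo_nonneg _ _) _))
  refine ((PEquiv.of_eq fun ξ => ?_).trans h3).trans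
    ((PEquiv.of_eq fun ξ => ?_).trans (h4.trans (PEquiv.of_eq fun ξ => ?_)))
  · show ξ.2.msq ξ.1 * _ = G ξ * _ * _
    congr 1
    rw [msq, hG, Real.iSup_mul_of_nonneg (hA ξ)]
    refine iSup_congr fun S => ?_
    rw [map_pow, apply_coord, mul_pow, ← pow_mul, mul_comm (q + 1) 2, mul_comm]
  · ring
  · ring

/-- Representatives and a place away from their points and from `O`. -/
abbrev Away (P : Setup k F) : Type :=
  {p : P.Rep 1 × Place k F // p.2 ≠ P.E.O ∧ ∀ i, p.1.pt i ≠ p.2}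

/-- **The section at a further place.** -/
theorem apply_lval_equiv :
    PEquiv (fun ξ : AbsoluteValue k ℝ × Away P => ξ.1)
      (fun ξ => ξ.1 (lval (Pt.cpt P.E k ξ.2.1.2) (2 * 1) ξ.2.1.1.c) * ξ.2.1.1.oo ξ.1)
      (fun ξ => P.E.mu ξ.1 ξ.2.1.2 ^ 2 * ξ.1 ξ.2.1.1.tO *
        ∏ i, dd P.E ξ.1 (ξ.2.1.1.pt i) ξ.2.1.2) := by
  classical
  let J := Fin (1 * P.E.M₀) ⊕ Fin (1 * P.E.M₀)
  let π : Finset (((J ⊕ Unit) ⊕ Place k F) × ((J ⊕ Unit) ⊕ Place k F)) :=
    ((Finset.univ : Finset ((J ⊕ Unit) × (J ⊕ Unit))).filter fun p => p.1 ≠ p.2).image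
      fun p => (Sum.inl p.1, Sum.inl p.2)
  have hπ : ∀ i j : J ⊕ Unit, i ≠ j → (Sum.inl i, Sum.inl j) ∈ π := fun i j h =>
    Finset.mem_image.mpr ⟨(i, j), by simpa using h, rfl⟩
  let Z : Set (J ⊕ Unit) := Set.range Sum.inl
  have : Nonempty (Fin (P.E.dim (2 * 1))) := ⟨⟨0, dim_pos P.E (by omega)⟩⟩
  let x : Unit → Expr P.E (J ⊕ Unit) (2 * 1) := fun _ => Expr.lval' (Sum.inl (Sum.inr ()))
  let y : Fin (P.E.dim (2 * 1)) × (J → MIdx P.E) → Expr P.E (J ⊕ Unit) (2 * 1) := fun p =>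
    (Expr.coef p.1).mul (Expr.dists (fun i : J => Sum.inl (Sum.inl i))
      (fun _ => Sum.inl (Sum.inr ())) p.2)
  have h := config_equiv (Z := Z) (π := π) x y 1 (fun _ => rfl)
    (fun p => by simp only [y, Expr.mul, Expr.deg_dists]; rfl)
    (fun R _ _ _ _ _ _ D c hc hz hd => by
      have hne : ∀ i j : J, i ≠ j → Pt.dist (D (Sum.inl i)) (D (Sum.inl j)) ≠ ⊥ := fun i j hij => by
        have h' := hd _ (hπ (Sum.inl i) (Sum.inl j) fun e => hij (Sum.inl_injective e))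
        exact h'
      have hX : ∀ i : J, Pt.dist (D (Sum.inl i)) (D (Sum.inr ())) ≠ ⊥ := fun i => by
        have h' := hd _ (hπ (Sum.inl i) (Sum.inr ()) Sum.inl_ne_inr)
        exact h'
      have hcard : Fintype.card J = 2 * 1 * P.E.M₀ := by
        simp only [J, Fintype.card_sum, Fintype.card_fin]; ring
      have hl := span_lval_eq (fun i : J => D (Sum.inl i)) (2 * 1) hcard
        (fun i j hij => hne i j hij) c hc (fun i => hz _ ⟨i, rfl⟩) (D (Sum.inr ())) hX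
      dsimp only [x, y]
      rw [Set.range_const]
      simp only [Expr.mul, Expr.lval', Expr.coef, Expr.pt, Sum.elim_inl]
      rw [hl, ← span_range_pair c fun f => (Expr.dists (e := 2 * 1)
        (fun i : J => Sum.inl (Sum.inl i)) (fun _ => Sum.inl (Sum.inr ())) f).val R D c,
        span_range_eq_top c hc, Ideal.top_mul, Expr.span_dists]
      simp only [Expr.pt, Sum.elim_inl])
  let cf : AbsoluteValue k ℝ × Away P → Cfg P.E (J ⊕ Unit) (2 * 1) Z π := fun ξ =>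
    mkCfg P.E ξ.1 (Sum.elim ξ.2.1.1.pt fun _ => ξ.2.1.2) ξ.2.1.1.c ξ.2.1.1.c_ne
      (by rintro _ ⟨i, rfl⟩; exact ξ.2.1.1.zero i)
      (by
        intro p hp
        obtain ⟨⟨i, j⟩, hij, rfl⟩ := Finset.mem_image.mp hp
        have hij' : i ≠ j := (Finset.mem_filter.mp hij).2
        simp only [Sum.elim_inl]
        rcases i with i | ⟨⟩ <;> rcases j with j | ⟨⟩
        · exact fun e => hij' (congrArg Sum.inl (ξ.2.1.1.inj e))
        · exact ξ.2.2.2 i
        · exact Ne.symm (ξ.2.2.2 j)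
        · exact absurd rfl hij')
  have h1 := h.comp cf
  have e1 : ∀ ξ : AbsoluteValue k ℝ × Away P,
      (⨆ p, (x p).at' (cf ξ).w (cf ξ).P (cf ξ).c)
        = ξ.1 (lval (gpt P.E ξ.1 ξ.2.1.2) (2 * 1) ξ.2.1.1.c) := fun ξ => by
    rw [ciSup_unique]; rfl
  have e2 : ∀ ξ : AbsoluteValue k ℝ × Away P,
      (⨆ p, (y p).at' (cf ξ).w (cf ξ).P (cf ξ).c)
        = cnorm P.E ξ.1 ξ.2.1.1.c * ∏ i, dd P.E ξ.1 (ξ.2.1.1.pt i) ξ.2.1.2 := by
    intro ξ
    have hd := Expr.iSup_dists P.E (e := 2 * 1) (fun i : J => (Sum.inl (Sum.inl i) :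
      (J ⊕ Unit) ⊕ Place k F)) (fun _ => Sum.inl (Sum.inr ())) (cf ξ).w (cf ξ).P (cf ξ).c
    refine Eq.trans ?_ (congrArg (cnorm P.E ξ.1 ξ.2.1.1.c * ·) hd)
    rw [cnorm]
    refine Eq.trans ?_ (iSup_prod_pair (fun j => ξ.1 (ξ.2.1.1.c j))
      (fun f : J → MIdx P.E => (Expr.dists (e := 2 * 1) (fun i : J => (Sum.inl (Sum.inl i) :
        (J ⊕ Unit) ⊕ Place k F)) (fun _ => Sum.inl (Sum.inr ())) f).at' (cf ξ).w (cf ξ).P (cf ξ).c)
      (fun _ => AbsoluteValue.nonneg _ _) fun _ => AbsoluteValue.nonneg _ _)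
    refine iSup_congr fun p => ?_
    simp only [y, Expr.at', Expr.mul, map_mul]
    rfl
  simp only [e1, e2] at h1
  have hd0 : ∀ ξ : AbsoluteValue k ℝ × Away P,
      0 ≤ ∏ i, dd P.E ξ.1 (ξ.2.1.1.pt i) ξ.2.1.2 := fun ξ =>
    Finset.prod_nonneg fun _ _ => dd_nonneg _ _ _ _
  have h2 := h1.mul (PEquiv.of_eq (f := fun ξ : AbsoluteValue k ℝ × Away P =>
      P.E.mu ξ.1 ξ.2.1.2 ^ 2 * ξ.2.1.1.oo ξ.1) fun _ => rfl)
    (fun ξ => AbsoluteValue.nonneg _ _)
    (fun ξ => mul_nonneg (cnorm_nonneg _ _ _) (hd0 ξ))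
    (fun ξ => mul_nonneg (sq_nonneg _) (oo_nonneg _ _))
    (fun ξ => mul_nonneg (sq_nonneg _) (oo_nonneg _ _))
  have h3 := ((cnorm_mul_oo (P := P) (q := 1) le_rfl).comp
      fun ξ : AbsoluteValue k ℝ × Away P => (ξ.1, ξ.2.1.1)).mul
    (PEquiv.of_eq (f := fun ξ : AbsoluteValue k ℝ × Away P =>
      P.E.mu ξ.1 ξ.2.1.2 ^ 2 * ∏ i, dd P.E ξ.1 (ξ.2.1.1.pt i) ξ.2.1.2) fun _ => rfl)
    (fun ξ => mul_nonneg (cnorm_nonneg _ _ _) (oo_nonneg _ _))
    (fun ξ => AbsoluteValue.nonneg _ _)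
    (fun ξ => mul_nonneg (sq_nonneg _) (hd0 ξ)) (fun ξ => mul_nonneg (sq_nonneg _) (hd0 ξ))
  refine ((PEquiv.of_eq fun ξ => ?_).trans (h2.trans (PEquiv.of_eq fun ξ => ?_))).trans
    (h3.trans (PEquiv.of_eq fun ξ => ?_))
  · rw [apply_lval_cpt P.E ξ.1 ξ.2.2.1]
    ring
  · ring
  · ring

end Rep

end Setup

end Fermat.Agent.MW.Height
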